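import Fermat.Agent.RT.Mazur.HeckeEnd
import Fermat.Agent.GaloisReps.Characters

/-!
# Eigen classes of unbounded order give an eigenform

If there are eigen classes with prescribed integral values of arbitrarily large `2`-power order,
every relation between the `T_l` holds for the values, and the character extends to an eigenform.
-/

set_option autoImplicit false

noncomputable section

open ModularCurve CongruenceSubgroup ModularFormClass

namespace Fermat.Agent.LT.Lower

open GaloisReps (FullHecke)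
open Fermat.Agent.RT.Mazur (heckeAct heckeAct_heckeOp)

/-- An integer killing classes of arbitrarily large `2`-power order is zero. -/
theorem eq_zero_of_smul_unbounded {V : Type*} [AddCommGroup V] {z : ℤ}
    (h : ∀ n : ℕ, ∃ y : V, (∃ m : ℕ, 2 ^ m • y = 0) ∧ 2 ^ n • y ≠ 0 ∧ z • y = 0) : z = 0 := by
  by_contra hz
  obtain ⟨s, u, hu, hzu⟩ := Nat.exists_eq_two_pow_mul_odd (Int.natAbs_ne_zero.mpr hz)
  obtain ⟨y, ⟨m, hm⟩, hn, hzy⟩ := h s
  refine hn ?_
  have h1 : z.natAbs • y = 0 := by
    rcases z.natAbs_eq with e | e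
    · rw [← natCast_zsmul, ← e, hzy]
    · rw [← natCast_zsmul, ← neg_neg ((z.natAbs : ℤ)), ← e, neg_zsmul, hzy, neg_zero]
  rw [hzu, mul_comm, mul_smul] at h1
  -- an odd multiple of a `2`-power torsion class
  obtain ⟨c, d, hcd⟩ : IsCoprime ((u : ℤ)) ((2 ^ m : ℕ) : ℤ) := by
    rw [Int.isCoprime_iff_nat_coprime]
    exact Nat.Coprime.pow_right m (Nat.coprime_two_right.mpr hu)
  calc 2 ^ s • y = (c * (u : ℤ) + d * ((2 ^ m : ℕ) : ℤ)) • (2 ^ s • y) := by rw [hcd, one_zsmul]
    _ = 0 := by
      rw [add_zsmul, mul_smul, mul_smul, natCast_zsmul, natCast_zsmul, h1, smul_zero, zero_add,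
        smul_comm (2 ^ m : ℕ) (2 ^ s : ℕ) y, hm, smul_zero, smul_zero]

variable {d : ℕ} [NeZero d] {a : ℕ → ℤ}

/-- **The eigenform.** -/
theorem exists_eigenform_of_unbounded
    (h : ∀ n : ℕ, ∃ y : JZero d, (∃ m : ℕ, 2 ^ m • y = 0) ∧ 2 ^ n • y ≠ 0 ∧
      ∀ l (hl : l.Prime), ¬ l ∣ d → heckeOperatorBar d ⟨l, hl⟩ y = a l • y) :
    ∃ g : CuspForm (Gamma0 d) 2, g.IsNormalizedEigenform ∧
      ∀ l : ℕ, l.Prime → ¬ l ∣ d → qCoeff g l = (a l : ℂ) := by
  classical
  let P := {l : ℕ // l.Prime ∧ ¬ l ∣ d}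
  -- The polynomial ring in the good operators, acting on the classes through the values `a`.
  let η : MvPolynomial P ℤ →ₐ[ℤ] FullHecke d := MvPolynomial.aeval fun l : P =>
    HeckeDuality.heckeOp d 2 l.1 l.2.1
  let ev : MvPolynomial P ℤ →ₐ[ℤ] ℤ := MvPolynomial.aeval fun l : P => a l.1
  have hact : ∀ y : JZero d, (∀ l (hl : l.Prime), ¬ l ∣ d →
      heckeOperatorBar d ⟨l, hl⟩ y = a l • y) →
      ∀ p, heckeAct d (η p) y = ev p • y := by
    intro y hy p
    induction p using MvPolynomial.induction_on with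
    | C k =>
      rw [← MvPolynomial.algebraMap_eq, AlgHom.commutes, AlgHom.commutes, eq_intCast, map_intCast,
        Module.End.intCast_apply, eq_intCast, Int.cast_id]
    | add p q hp hq => rw [map_add, map_add, map_add, LinearMap.add_apply, hp, hq, add_zsmul]
    | mul_X p l hp =>
      rw [map_mul η, map_mul ev, show η (MvPolynomial.X l) = HeckeDuality.heckeOp d 2 l.1 l.2.1 from
          MvPolynomial.aeval_X _ l, show ev (MvPolynomial.X l) = a l.1 from
          MvPolynomial.aeval_X _ l, map_mul (heckeAct d), Module.End.mul_apply, heckeAct_heckeOp,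
        hy l.1 l.2.1 l.2.2, map_zsmul, hp, smul_smul, mul_comm]
  -- Classes of unbounded order show that the values factor through the Hecke algebra.
  have hker : RingHom.ker η.toRingHom.rangeRestrict ≤ RingHom.ker ev.toRingHom := by
    intro p hp
    refine eq_zero_of_smul_unbounded (V := JZero d) fun n => ?_
    obtain ⟨y, hy, hyn, hyT⟩ := h n
    refine ⟨y, hy, hyn, ?_⟩
    have h0 : η p = 0 := congrArg Subtype.val (RingHom.mem_ker.mp hp)
    refine (hact y hyT p).symm.trans ?_
    rw [h0, map_zero, LinearMap.zero_apply]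
  let χ : η.toRingHom.range →+* ℂ := (Int.castRingHom ℂ).comp
    (η.toRingHom.rangeRestrict.liftOfSurjective η.toRingHom.rangeRestrict_surjective
      ⟨ev.toRingHom, hker⟩)
  have : Module.Finite ℤ (FullHecke d) := IntegralStructure.heckeAlgebra_finite d 2 ∅
  -- Extend to a point of the full Hecke algebra and take its eigenform.
  obtain ⟨θ, hθ⟩ := GaloisReps.exists_extend_of_int η.toRingHom.range.subtype
    Subtype.val_injective χ
  obtain ⟨f, hf, hfe⟩ := GaloisReps.exists_formEigen θ
  have hfm : f ∈ GaloisReps.formEigen θ := hfe ▸ Submodule.mem_span_singleton_self f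
  let lam : ℕ → ℂ := fun l => if hl : l.Prime then θ (HeckeDuality.heckeOp d 2 l hl) else 0
  have hlam : ∀ l (hl : l.Prime), (HeckeDuality.heckeOp d 2 l hl).1 f = lam l • f := fun l hl => by
    simp only [lam, dif_pos hl]
    exact (GaloisReps.mem_formEigen θ f).mp hfm _
  obtain ⟨-, hnorm, hcoeff⟩ := HeckeDuality.isNormalizedEigenform_of_eigen hf lam hlam
  refine ⟨_, hnorm, fun l hl hld => ?_⟩
  rw [hcoeff l hl]
  show (if hl : l.Prime then θ (HeckeDuality.heckeOp d 2 l hl) else 0) = _
  rw [dif_pos hl]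
  have h1 := hθ (η.toRingHom.rangeRestrict (MvPolynomial.X (⟨l, hl, hld⟩ : P)))
  have e1 : η (MvPolynomial.X (⟨l, hl, hld⟩ : P)) = HeckeDuality.heckeOp d 2 l hl :=
    MvPolynomial.aeval_X _ _
  rw [show η.toRingHom.range.subtype (η.toRingHom.rangeRestrict
      (MvPolynomial.X (⟨l, hl, hld⟩ : P))) = η (MvPolynomial.X (⟨l, hl, hld⟩ : P)) from rfl,
    e1] at h1
  rw [h1]
  simp only [χ, RingHom.comp_apply]
  rw [RingHom.liftOfRightInverse_comp_apply]
  show (((ev (MvPolynomial.X (⟨l, hl, hld⟩ : P))) : ℤ) : ℂ) = _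
  rw [show ev (MvPolynomial.X (⟨l, hl, hld⟩ : P)) = a l from MvPolynomial.aeval_X _ _]

end Fermat.Agent.LT.Lower

end
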