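import Fermat.Agent.LT.Lower.OrdersHalf
import Fermat.Agent.RT.Mazur.Rational
import Fermat.Agent.Semistable.Torsion
import Fermat.Agent.RT.MazurP.HeckeSeries

/-!
# The pair of reduced classes of an inertia-fixed eigen class at level `q M`

A Kummer function with inertia-fixed coefficients and nonzero reductions at both cusps, these with
orders divisible by the exponent, gives two classes on the reduced curve of level `M`. This is
additive, commutes with the Hecke operators, and a class with trivial pair is toric: Frobenius acts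
on it as `-q w`.
-/

set_option autoImplicit false

noncomputable section

open AlgebraicCurve ModularCurve

namespace Fermat.Agent.LT.Lower

open Fermat.Agent.Semistable Fermat.Agent.RT Fermat.Agent.RT.Mazur
open Arith (QBar GQ)

attribute [local instance 10000] SubalgebraClass.toAlgebra HahnSeries.powerSeriesAlgebra

/-- Shortcut: the search is slow. -/
local instance (priority := 30000) algebraKM (A : ValuationSubring QBar) (M : ℕ) :
    Algebra (Res A) (KM A M) := inferInstance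

/-- Shortcut: the search is slow. -/
local instance (priority := 30000) algebraFB (N : ℕ) : Algebra QBar (FB N) := inferInstance

variable {A : ValuationSubring QBar} {q M : ℕ} [hq : Fact q.Prime] [NeZero M]

/-! ### Fixed coefficients and orders at `q` on the two sides -/

theorem inertiaFixed_iota2 (hqM : ¬ q ∣ M) {x : FB (q * M)} (hx : InertiaFixed A (x : LSer))
    (s : Fin 2) : InertiaFixed A (iota2 M q hqM s x) := by
  fin_cases s
  · exact hx
  · intro τ hτ
    show coeffMap (τ : QBar →+* QBar) (iota2 M q hqM 1 x) = iota2 M q hqM 1 x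
    rw [iota2_one, ← coe_arithmeticRingAut, ← wEquiv_galois,
      show arithmeticRingAut (modularFunctionFieldFull (q * M)) τ x = x from
        Subtype.ext ((coe_arithmeticRingAut τ x).trans (hx τ hτ))]

theorem galF_eq_self {N : ℕ} {x : FB N} (hx : InertiaFixed A (x : LSer)) {τ : GQ}
    (hτ : τ ∈ A.inertiaSubgroupIn ℚ) : galF N τ x = x :=
  Subtype.ext ((coe_arithmeticRingAut τ x).trans (hx τ hτ))

/-- A function moved by inertia only by constants has a fixed multiple. -/
theorem exists_fixed_smul {N : ℕ} {x : FB N} (hx : x ≠ 0)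
    (h : ∀ τ ∈ A.inertiaSubgroupIn ℚ, ∃ a : QBar, galF N τ x = algebraMap QBar (FB N) a * x) :
    ∃ c : QBar, c ≠ 0 ∧
      InertiaFixed A ((algebraMap QBar (FB N) c * x : FB N) : LSer) := by
  have hxs : (x : LSer) ≠ 0 := fun h0 => hx (Subtype.ext h0)
  set b := (x : LSer).leadingCoeff with hb
  have hb0 : b ≠ 0 := HahnSeries.leadingCoeff_ne_zero.mpr hxs
  refine ⟨b⁻¹, inv_ne_zero hb0, fun τ hτ => ?_⟩
  obtain ⟨a, ha⟩ := h τ hτ
  have e : coeffMap (τ : QBar →+* QBar) (x : LSer) = algebraMap QBar LSer a * (x : LSer) := by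
    rw [← coe_arithmeticRingAut, show arithmeticRingAut (modularFunctionFieldFull N) τ x =
      _ from ha]
    rfl
  have e' : τ b = a * b := by
    have h1 := congrArg HahnSeries.leadingCoeff e
    rw [JacTorsion.coeffMap_leadingCoeff, HahnSeries.leadingCoeff_mul,
      algebraMap_laurentSeries_eq_single, HahnSeries.leadingCoeff_of_single] at h1
    exact h1
  show coeffMap (τ : QBar →+* QBar) (algebraMap QBar LSer b⁻¹ * (x : LSer)) =
    algebraMap QBar LSer b⁻¹ * (x : LSer)
  rw [map_mul, coeffMap_algebraMap, e, ← mul_assoc, ← map_mul]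
  congr 2
  have ha0 : a ≠ 0 := fun h0 => (_root_.map_ne_zero τ).mpr hb0 (by rw [e', h0, zero_mul])
  show τ b⁻¹ * a = b⁻¹
  rw [map_inv₀, e', mul_inv, mul_comm a⁻¹, mul_assoc, inv_mul_cancel₀ ha0, mul_one]

/-- The difference of the orders on the two sides. -/
def dlt (A : ValuationSubring QBar) (hqM : ¬ q ∣ M) (x : FB (q * M)) : ℤ :=
  gOrd A q (iota2 M q hqM 1 x) - gOrd A q (iota2 M q hqM 0 x)

variable (hA : A.LiesOverPrime q) (hqM : ¬ q ∣ M)
include hA

theorem dlt_mul {x y : FB (q * M)} (hx : x ≠ 0) (hy : y ≠ 0)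
    (hfx : InertiaFixed A (x : LSer)) (hfy : InertiaFixed A (y : LSer)) :
    dlt A hqM (x * y) = dlt A hqM x + dlt A hqM y := by
  have h : ∀ s, gOrd A q (iota2 M q hqM s (x * y)) =
      gOrd A q (iota2 M q hqM s x) + gOrd A q (iota2 M q hqM s y) := fun s => by
    rw [map_mul]
    exact gOrd_mul hA hq.out (iota2_fracS M q hqM s x) (iota2_fracS M q hqM s y)
      ((_root_.map_ne_zero _).mpr hx) ((_root_.map_ne_zero _).mpr hy)
      (inertiaFixed_iota2 hqM hfx s) (inertiaFixed_iota2 hqM hfy s)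
  rw [dlt, dlt, dlt, h, h]
  ring

omit hA in
theorem dlt_const (c : QBar) : dlt A hqM (algebraMap QBar (FB (q * M)) c) = 0 := by
  rw [dlt, AlgHom.commutes, AlgHom.commutes, sub_self]

theorem dlt_zpow {x : FB (q * M)} (hx : x ≠ 0) (hfx : InertiaFixed A (x : LSer)) :
    ∀ k : ℤ, dlt A hqM (x ^ k) = k * dlt A hqM x := by
  have h0 : dlt A hqM (1 : FB (q * M)) = 0 := by
    simpa using dlt_const (q := q) (M := M) hqM 1
  have hn : ∀ n : ℕ, dlt A hqM (x ^ n) = n * dlt A hqM x := fun n => by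
    induction n with
    | zero => simpa using h0
    | succ n ih =>
      rw [pow_succ, dlt_mul hA hqM (pow_ne_zero _ hx) hx
        (by push_cast; exact hfx.pow n) hfx, ih]
      push_cast
      ring
  intro k
  rcases Int.eq_nat_or_neg k with ⟨n, rfl | rfl⟩
  · rw [zpow_natCast]; exact hn n
  · have h1 := dlt_mul hA hqM (x := x ^ (-(n : ℤ))) (y := x ^ n) (zpow_ne_zero _ hx)
      (pow_ne_zero _ hx) (by exact hfx.zpow _) (by push_cast; exact hfx.pow n)
    rw [← zpow_natCast, ← zpow_add₀ hx, neg_add_cancel, zpow_zero, h0, zpow_natCast, hn] at h1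
    linarith

/-- Scaling a function with equal orders on the two sides. -/
theorem exists_scale_dlt {x : FB (q * M)} (hx : x ≠ 0) (hfx : InertiaFixed A (x : LSer))
    (hd : dlt A hqM x = 0) :
    ∃ (c : QBar) (F : loc2 A (iota2 M q hqM)), c ≠ 0 ∧
      (F : FB (q * M)) = algebraMap QBar (FB (q * M)) c * x ∧
      InertiaFixed A ((F : FB (q * M)) : LSer) ∧ ∀ s, red2 A (iota2 M q hqM) F s ≠ 0 := by
  set n := gOrd A q (iota2 M q hqM 0 x) with hn
  have hs : ∀ s, IsGUnit A (iota2 M q hqM s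
      (algebraMap QBar (FB (q * M)) ((q : QBar) ^ (-n)) * x)) := fun s => by
    rw [map_mul, AlgHom.commutes]
    have e : gOrd A q (iota2 M q hqM s x) = n := by
      fin_cases s
      · rfl
      · exact sub_eq_zero.mp hd
    rw [← e]
    exact gOrd_spec hA hq.out (iota2_fracS M q hqM s x) ((_root_.map_ne_zero _).mpr hx)
      (inertiaFixed_iota2 hqM hfx s)
  refine ⟨(q : QBar) ^ (-n), ⟨_, (mem_loc2 _).mpr fun s => (hs s).1⟩,
    zpow_ne_zero _ (Nat.cast_ne_zero.mpr hq.out.ne_zero), rfl, ?_, fun s => ?_⟩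
  · exact (inertiaFixed_natCast_zpow q (-n)).mul hfx
  · rw [red2_apply]; exact (hs s).2

/-! ### Hecke norms -/

theorem dlt_heckeNorm {l : ℕ} [NeZero l] (hl : l.Prime) (hlN : ¬ l ∣ q * M) {x : FB (q * M)}
    (hx : x ≠ 0) (hfx : InertiaFixed A (x : LSer)) :
    dlt A hqM (MazurP.heckeNorm (q * M) l x) = ((l : ℤ) + 1) * dlt A hqM x := by
  obtain ⟨ζ, hζ⟩ := MazurP.exists_primitive (l := l)
  have h : ∀ s, gOrd A q (iota2 M q hqM s (MazurP.heckeNorm (q * M) l x)) =
      ((l : ℤ) + 1) * gOrd A q (iota2 M q hqM s x) := fun s => by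
    set n := gOrd A q (iota2 M q hqM s x)
    refine gOrd_eq hA hq.out (MazurP.isGUnit_of_qExpand (l := l) hA hq.out
      (mul_mem (algebraMap_mem_fracS _) (iota2_fracS M q hqM s _)) ?_)
    obtain ⟨hm, hne⟩ := gOrd_spec hA hq.out (iota2_fracS M q hqM s x)
      ((_root_.map_ne_zero _).mpr hx) (inertiaFixed_iota2 hqM hfx s)
    obtain ⟨hp, ep⟩ := MazurP.heckeProd_mem_locS hζ.pow_eq_one hm
    have key : qExpand QBar l (algebraMap QBar LSer ((q : QBar) ^ (-(((l : ℤ) + 1) * n))) *
        iota2 M q hqM s (MazurP.heckeNorm (q * M) l x)) =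
        MazurP.heckeProd l ζ (algebraMap QBar LSer ((q : QBar) ^ (-n)) * iota2 M q hqM s x) := by
      rw [map_mul, MazurP.qExpand_iota2_heckeNorm q M l hqM hl hlN s hζ,
        map_mul (MazurP.heckeProd l ζ), MazurP.algebraMap_eq_C, MazurP.algebraMap_eq_C,
        MazurP.heckeProd_C,
        qExpand_C, ← zpow_natCast ((q : QBar) ^ (-n)), ← zpow_mul]
      push_cast
      ring_nf
    rw [key]
    exact ⟨hp, by rw [ep]; exact MazurP.heckeProd_ne_zero l _ hne⟩
  rw [dlt, dlt, h, h]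
  ring

omit hA in
theorem inertiaFixed_heckeNorm {l : ℕ} [NeZero l] (hl : l.Prime) (hlN : ¬ l ∣ q * M)
    {x : FB (q * M)} (hfx : InertiaFixed A (x : LSer)) :
    InertiaFixed A ((MazurP.heckeNorm (q * M) l x : FB (q * M)) : LSer) := fun τ hτ => by
  rw [← coe_arithmeticRingAut, show arithmeticRingAut _ τ (MazurP.heckeNorm (q * M) l x) =
    galF (q * M) τ (MazurP.heckeNorm (q * M) l x) from rfl, ← MazurP.heckeNorm_galF hl hlN,
    galF_eq_self hfx hτ]

omit hA

/-! ### The pair -/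

variable [CharP (Res A) q] [FF.IsFunctionField (Res A) (KM A M)] (h : Setup A M q)

/-- The reductions at the two cusps of a fixed Kummer function of `y` with exponent `m` have
divisors `m` times representatives of `z`. -/
def IsRedPair (m : ℕ) (y : JZero (q * M)) (z : Fin 2 → Pic0 (Res A) (KM A M)) : Prop :=
  ∃ (D : Divisor.degZero (K := QBar) (F := FB (q * M))) (f : loc2 A (iota2 M q h.hqM))
    (E : Fin 2 → Divisor.degZero (K := Res A) (F := KM A M)),
    Pic0.mk D = y ∧ InertiaFixed A ((f : FB (q * M)) : LSer) ∧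
      (∀ v, v.ord (f : FB (q * M)) = (m : ℤ) * (D : Divisor QBar (FB (q * M))) v) ∧
      (∀ s, red2 A (iota2 M q h.hqM) f s ≠ 0) ∧
      (∀ s P, P.ord (redK h.hM f s) = (m : ℤ) * (E s : Divisor (Res A) (KM A M)) P) ∧
      ∀ s, Pic0.mk (E s) = z s

variable {h}

omit [FF.IsFunctionField (Res A) (KM A M)] in
theorem redK_ne_zero {hqM : ¬ q ∣ M} {hM : (M : Res A) ≠ 0} {f : loc2 A (iota2 M q hqM)}
    (hne : ∀ s, red2 A (iota2 M q hqM) f s ≠ 0) (s : Fin 2) : redK hM f s ≠ 0 :=
  fun h0 => hne s (congrArg Subtype.val h0)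

omit [FF.IsFunctionField (Res A) (KM A M)] [CharP (Res A) q] in
theorem coe_ne_zero {hqM : ¬ q ∣ M} {f : loc2 A (iota2 M q hqM)}
    (hne : ∀ s, red2 A (iota2 M q hqM) f s ≠ 0) : (f : FB (q * M)) ≠ 0 := fun h0 => hne 0 (by
  rw [show f = 0 from Subtype.ext h0, map_zero]; rfl)

omit [FF.IsFunctionField (Res A) (KM A M)] [CharP (Res A) q] in
theorem exists_eq_algebraMap {K F : Type*} [Field K] [IsAlgClosed K] [Field F] [Algebra K F]
    [FF.IsFunctionField K F] {x : F} (hx : ∀ v : Place K F, v.ord x = 0) :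
    ∃ c : K, x = algebraMap K F c :=
  FF.eq_algebraMap_of_ord_nonneg fun v => (hx v).ge

omit [FF.IsFunctionField (Res A) ↥(KM A M)] in
theorem IsRedPair.zero (m : ℕ) : IsRedPair h m 0 0 :=
  ⟨0, 1, 0, rfl, by push_cast; exact inertiaFixed_one,
    fun v => by simp, fun s => by simp, fun s P => by
      rw [show redK h.hM (1 : loc2 A (iota2 M q h.hqM)) s = 1 from
        Subtype.ext (by rw [coe_redK, map_one]; rfl)]
      simp, fun _ => rfl⟩

omit [FF.IsFunctionField (Res A) ↥(KM A M)] in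
theorem IsRedPair.add {m : ℕ} {y y' : JZero (q * M)} {z z' : Fin 2 → Pic0 (Res A) (KM A M)}
    (hy : IsRedPair h m y z) (hy' : IsRedPair h m y' z') : IsRedPair h m (y + y') (z + z') := by
  obtain ⟨D, f, E, rfl, hf, hD, hne, hE, hz⟩ := hy
  obtain ⟨D', f', E', rfl, hf', hD', hne', hE', hz'⟩ := hy'
  refine ⟨D + D', f * f', E + E', rfl, by push_cast; exact hf.mul hf', fun v => ?_, fun s => ?_,
    fun s P => ?_, fun s => ?_⟩
  · rw [MulMemClass.coe_mul, v.ord_mul (coe_ne_zero hne) (coe_ne_zero hne'), hD, hD',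
      AddSubgroup.coe_add, Finsupp.add_apply]
    ring
  · rw [map_mul, Pi.mul_apply]; exact mul_ne_zero (hne s) (hne' s)
  · rw [redK_mul, P.ord_mul (redK_ne_zero hne s) (redK_ne_zero hne' s), hE, hE', Pi.add_apply,
      AddSubgroup.coe_add, Finsupp.add_apply]
    ring
  · rw [Pi.add_apply, Pi.add_apply, ← hz s, ← hz' s]; rfl

omit [FF.IsFunctionField (Res A) ↥(KM A M)] in
theorem IsRedPair.neg {m : ℕ} {y : JZero (q * M)} {z : Fin 2 → Pic0 (Res A) (KM A M)}
    (hy : IsRedPair h m y z) : IsRedPair h m (-y) (-z) := by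
  obtain ⟨D, f, E, rfl, hf, hD, hne, hE, hz⟩ := hy
  obtain ⟨hi, hi'⟩ := inv_mem_loc2 (iota2 M q h.hqM) f hne
  refine ⟨-D, ⟨_, hi⟩, -E, rfl, ?_, fun v => ?_, fun s => ?_, fun s P => ?_, fun s => ?_⟩
  · show InertiaFixed A (((f : FB (q * M))⁻¹ : FB (q * M)) : LSer)
    push_cast
    exact hf.inv
  · rw [v.ord_inv, hD, NegMemClass.coe_neg, Finsupp.neg_apply, mul_neg]
  · rw [hi' s]; exact inv_ne_zero (hne s)
  · rw [show redK h.hM ⟨_, hi⟩ s = (redK h.hM f s)⁻¹ from
      Subtype.ext (by rw [coe_redK, hi' s]; rfl), P.ord_inv, hE, Pi.neg_apply,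
      NegMemClass.coe_neg, Finsupp.neg_apply, mul_neg]
  · rw [Pi.neg_apply, Pi.neg_apply, ← hz s]; rfl

omit [FF.IsFunctionField (Res A) ↥(KM A M)] in
theorem IsRedPair.zsmul {m : ℕ} {y : JZero (q * M)} {z : Fin 2 → Pic0 (Res A) (KM A M)}
    (hy : IsRedPair h m y z) (k : ℤ) : IsRedPair h m (k • y) (k • z) := by
  induction k with
  | zero => rw [zero_zsmul, zero_zsmul]; exact IsRedPair.zero m
  | succ k ih =>
    rw [show ((k : ℤ) + 1) • y = (k : ℤ) • y + y by rw [add_zsmul, one_zsmul],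
      show ((k : ℤ) + 1) • z = (k : ℤ) • z + z by rw [add_zsmul, one_zsmul]]
    exact ih.add hy
  | pred k ih =>
    rw [show (-(k : ℤ) - 1) • y = (-(k : ℤ)) • y + -y by
        rw [sub_zsmul, one_zsmul],
      show (-(k : ℤ) - 1) • z = (-(k : ℤ)) • z + -z by rw [sub_zsmul, one_zsmul]]
    exact ih.add hy.neg

omit [FF.IsFunctionField (Res A) ↥(KM A M)] in
/-- The pair of the trivial class is trivial. -/
theorem IsRedPair.eq_zero {m : ℕ} (hm : m ≠ 0) {z : Fin 2 → Pic0 (Res A) (KM A M)}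
    (hy : IsRedPair h m 0 z) : z = 0 := by
  have := Arith.residueField_isAlgClosed A
  have : FF.IsFunctionField QBar (FB (q * M)) := ModFun.isFunctionField_bar _
  obtain ⟨D, f, E, hmk, hf, hD, hne, hE, hz⟩ := hy
  obtain ⟨u, hu, hu'⟩ := (FF.pic0_mk_eq_zero_iff D).mp hmk
  have hf0 : (f : FB (q * M)) ≠ 0 := coe_ne_zero hne
  -- `f` is a constant times a power of `u`
  obtain ⟨c, hc⟩ : ∃ c : QBar, (f : FB (q * M)) / u ^ m = algebraMap QBar (FB (q * M)) c := by
    refine exists_eq_algebraMap (fun v => ?_)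
    rw [FF.ord_div v hf0 (pow_ne_zero m hu), FF.ord_pow, hD, hu', sub_self]
  have hc0 : c ≠ 0 := fun h0 => div_ne_zero hf0 (pow_ne_zero m hu) (by rw [hc, h0, map_zero])
  have hfu : (f : FB (q * M)) = algebraMap QBar (FB (q * M)) c * u ^ m := by
    rw [← hc, div_mul_cancel₀ _ (pow_ne_zero m hu)]
  obtain ⟨b, hb, hbu⟩ := exists_fixed_smul (A := A) hu fun τ hτ => by
    have hgu : galF (q * M) τ u ≠ 0 := (_root_.map_ne_zero _).mpr hu
    obtain ⟨a, ha⟩ : ∃ a : QBar, galF (q * M) τ u / u = algebraMap QBar (FB (q * M)) a := by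
      refine exists_eq_algebraMap (fun v => ?_)
      set g := arithmeticGalois (L := QBar) (modularFunctionFieldFull (q * M)) τ
      have h1 := SemilinearAut.ord_smul g (g⁻¹ • v) u
      rw [smul_inv_smul] at h1
      have h2 := SemilinearAut.ord_smul g (g⁻¹ • v) (f : FB (q * M))
      rw [smul_inv_smul, show g • (f : FB (q * M)) = f from galF_eq_self hf hτ, hD, hD] at h2
      rw [FF.ord_div v hgu hu, show galF (q * M) τ u = g • u from rfl, h1, ← hu', ← hu',
        ← mul_left_cancel₀ (Nat.cast_ne_zero.mpr hm) h2, sub_self]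
    exact ⟨a, by rw [← ha, div_mul_cancel₀ _ hu]⟩
  set u' := algebraMap QBar (FB (q * M)) b * u with hu'def
  have hu'0 : u' ≠ 0 := mul_ne_zero ((_root_.map_ne_zero _).mpr hb) hu
  have hfu' : (f : FB (q * M)) = algebraMap QBar (FB (q * M)) (c / b ^ m) * u' ^ m := by
    rw [hfu, hu'def, mul_pow, ← map_pow, ← mul_assoc, ← map_mul,
      div_mul_cancel₀ _ (pow_ne_zero m hb)]
  -- equal orders
  have hdu : dlt A h.hqM u' = 0 := by
    have h1 : dlt A h.hqM (f : FB (q * M)) = 0 := by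
      rw [dlt, gOrd_of_isGUnit h.hA hq.out ⟨(mem_loc2 _).mp f.2 1, by
          rw [← red2_apply]; exact hne 1⟩,
        gOrd_of_isGUnit h.hA hq.out ⟨(mem_loc2 _).mp f.2 0, by rw [← red2_apply]; exact hne 0⟩,
        sub_self]
    have hpow : InertiaFixed A ((u' ^ m : FB (q * M)) : LSer) := by push_cast; exact hbu.pow m
    have hcst : InertiaFixed A ((algebraMap QBar (FB (q * M)) (c / b ^ m) : FB (q * M))
        : LSer) := by
      have h2 := hf.mul hpow.inv
      rw [hfu', IntermediateField.coe_mul, mul_assoc, mul_inv_cancel₀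
        (fun h0 => pow_ne_zero m hu'0 (Subtype.ext h0)), mul_one] at h2
      exact h2
    rw [hfu', dlt_mul h.hA h.hqM ((_root_.map_ne_zero _).mpr
        (div_ne_zero hc0 (pow_ne_zero m hb))) (pow_ne_zero m hu'0) hcst hpow,
      dlt_const, zero_add, ← zpow_natCast, dlt_zpow h.hA h.hqM hu'0 hbu] at h1
    exact (mul_eq_zero.mp h1).resolve_left (by exact_mod_cast hm)
  obtain ⟨e, w, he, hw, -, hwne⟩ := exists_scale_dlt h.hA h.hqM hu'0 hbu hdu
  obtain ⟨wi, hwi'⟩ := inv_mem_loc2 (iota2 M q h.hqM) (w ^ m) (fun s => by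
    rw [map_pow, Pi.pow_apply]; exact pow_ne_zero m (hwne s))
  have hcA : algebraMap QBar (FB (q * M)) (c / b ^ m / e ^ m) =
      (f : FB (q * M)) * ((w ^ m : loc2 A (iota2 M q h.hqM)) : FB (q * M))⁻¹ := by
    rw [SubmonoidClass.coe_pow, hw, hfu', mul_pow (algebraMap QBar (FB (q * M)) e) u', ← map_pow,
      mul_inv, ← map_inv₀, mul_mul_mul_comm, ← map_mul, mul_inv_cancel₀ (pow_ne_zero m hu'0),
      mul_one, div_eq_mul_inv (c / b ^ m)]
  have hC : algebraMap QBar (FB (q * M)) (c / b ^ m / e ^ m) ∈ loc2 A (iota2 M q h.hqM) :=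
    hcA ▸ mul_mem f.2 wi
  set C : loc2 A (iota2 M q h.hqM) := ⟨_, hC⟩
  have hCw : C * w ^ m = f := Subtype.ext (by
    show algebraMap QBar (FB (q * M)) (c / b ^ m / e ^ m) * _ = _
    rw [hcA, inv_mul_cancel_right₀]
    exact fun h0 => pow_ne_zero m (coe_ne_zero hwne) (by rwa [← SubmonoidClass.coe_pow]))
  funext s
  have hC0 : redK h.hM C s ≠ 0 := fun h0 => redK_ne_zero hne s (by
    rw [← hCw, redK_mul, h0, zero_mul])
  obtain ⟨k, hk⟩ : ∃ k : Res A, redK h.hM C s = algebraMap (Res A) (KM A M) k := by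
    have hl := (mem_loc2 _).mp hC s
    rw [AlgHom.commutes] at hl
    have hne' : redL A ⟨_, hl⟩ ≠ 0 := fun h0 => hC0 (Subtype.ext (by
      rw [coe_redK, red2_apply, redL_congr _ hl (AlgHom.commutes _ _), h0]; rfl))
    obtain ⟨hk, -⟩ := Semistable.mem_of_algebraMap_mem_locS hl hne'
    refine ⟨IsLocalRing.residue A ⟨_, hk⟩, Subtype.ext ?_⟩
    rw [coe_redK, red2_apply, redL_congr _ (algebraMap_mem_locS hk) (AlgHom.commutes _ _),
      redL_algebraMap hk]
    rfl
  rw [Pi.zero_apply, ← hz s, FF.pic0_mk_eq_zero_iff]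
  refine ⟨redK h.hM w s, redK_ne_zero hwne s, fun P => ?_⟩
  have h1 := hE s P
  rw [← hCw, redK_mul, redK_pow, P.ord_mul hC0 (pow_ne_zero m (redK_ne_zero hwne s)), FF.ord_pow,
    hk, FF.ord_algebraMap, zero_add] at h1
  exact (mul_left_cancel₀ (Nat.cast_ne_zero.mpr hm) h1).symm

omit [FF.IsFunctionField (Res A) ↥(KM A M)] in
theorem IsRedPair.unique {m : ℕ} (hm : m ≠ 0) {y : JZero (q * M)}
    {z z' : Fin 2 → Pic0 (Res A) (KM A M)}
    (hy : IsRedPair h m y z) (hy' : IsRedPair h m y z') : z = z' := by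
  have h1 := hy.add hy'.neg
  rw [add_neg_cancel] at h1
  have h2 := h1.eq_zero hm
  rwa [add_neg_eq_zero] at h2

/-- **Hecke.** The pair commutes with the Hecke operators. -/
theorem IsRedPair.hecke {m : ℕ} {y : JZero (q * M)} {z : Fin 2 → Pic0 (Res A) (KM A M)}
    (hy : IsRedPair h m y z) {l : ℕ} [NeZero l] (hl : l.Prime) (hlN : ¬ l ∣ q * M)
    [FF.IsFunctionField (Res A) (KM A (M * l))] :
    IsRedPair h m (heckeOperatorBar (q * M) ⟨l, hl⟩ y) (fun s => resTJ A M l (z s)) := by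
  have hA := h.hA
  have := Arith.residueField_isAlgClosed A
  have hlq : ¬ q ∣ l := fun hd =>
    hlN ((((Nat.prime_dvd_prime_iff_eq hq.out hl).mp hd)) ▸ dvd_mul_right q M)
  have hlM : ¬ l ∣ M := fun hd => hlN (dvd_mul_of_dvd_right hd q)
  have hMl : ((M * l : ℕ) : Res A) ≠ 0 := fun hd => by
    rcases hq.out.dvd_mul.mp ((CharP.cast_eq_zero_iff (Res A) q _).mp hd) with hd | hd
    · exact h.hqM hd
    · exact hlq hd
  have : FF.IsFunctionField QBar (FB (q * M)) := ModFun.isFunctionField_bar _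
  have : FF.IsFunctionField QBar (FB (q * M * l)) := ModFun.isFunctionField_bar _
  have : FF.IsFunctionField QBar (FB M) := ModFun.isFunctionField_bar _
  have : FF.IsFunctionField QBar (FB (M * l)) := ModFun.isFunctionField_bar _
  obtain ⟨D, f, E, rfl, hf, hD, hne, hE, hz⟩ := hy
  have hf0 : (f : FB (q * M)) ≠ 0 := coe_ne_zero hne
  -- reductions of the norm
  obtain ⟨ζ, hζ⟩ := MazurP.exists_primitive (l := l)
  have key : ∀ s, ∃ hm : iota2 M q h.hqM s (MazurP.heckeNorm (q * M) l (f : FB (q * M))) ∈ locS A,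
      redL A ⟨_, hm⟩ = (resNorm A M l (redK h.hM f s) : LaurentSeries (Res A)) := by
    intro s
    have hfs := (mem_loc2 _).mp f.2 s
    obtain ⟨hp, ep⟩ := MazurP.heckeProd_mem_locS hζ.pow_eq_one hfs
    have hq' := MazurP.qExpand_iota2_heckeNorm q M l h.hqM hl hlN s hζ (f : FB (q * M))
    obtain ⟨hm, em⟩ := MazurP.locS_of_qExpand (l := l) hA hq.out (iota2_fracS M q h.hqM s _)
      (hq' ▸ hp)
    refine ⟨hm, qExpand_injective l ?_⟩
    rw [em, redL_congr _ hp hq', ep, resNorm_series h.hM hMl hA hq.out hl hlM hlq (redK h.hM f s)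
      (MazurP.resRoot A ζ hζ.pow_eq_one) (MazurP.resRoot_primitive hA hq.out hlq hζ)]
    rw [coe_redK, red2_apply]
  choose hm hmr using key
  let F : loc2 A (iota2 M q h.hqM) := ⟨_, (mem_loc2 _).mpr hm⟩
  have hFred : ∀ s, redK h.hM F s = resNorm A M l (redK h.hM f s) := fun s =>
    Subtype.ext (by rw [coe_redK, red2_apply]; exact hmr s)
  have hin : ∀ X : Divisor.degZero (K := QBar) (F := FB (q * M)),
      heckeOperatorBar (q * M) ⟨l, hl⟩ (Pic0.mk X) = Pic0.mk (Pic0.degZeroCorrespondence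
        (heckeBetaBar QBar (q * M) l) (heckeAlphaBar QBar (q * M) l) (FF.isIntegralAlong _)
        (FF.isIntegralAlong _) (FF.fundamentalIdentityAlong _ _) X) := fun X => by
    refine (heckeOperatorBar_apply (q * M) ⟨l, hl⟩ _).trans ?_
    exact DFunLike.congr_fun (heckeOperatorAlong_eq (L := QBar) (N := q * M) (ℓ := l)
      (FF.isIntegralAlong _) (FF.isIntegralAlong _) (FF.fundamentalIdentityAlong _ _)
      (FF.finiteAlong _) (FF.normFormulaAlong _ _)) _
  refine ⟨_, F, fun s => Pic0.degZeroCorrespondence (resBeta A M l) (resAlpha A M l)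
    (FF.isIntegralAlong _) (FF.isIntegralAlong _) (FF.fundamentalIdentityAlong _ _) (E s),
    (hin D).symm, inertiaFixed_heckeNorm hl hlN hf, fun v => ?_, fun s h0 => ?_, fun s P => ?_,
    fun s => ?_⟩
  · show v.ord (MazurP.heckeNorm (q * M) l (f : FB (q * M))) =
      (m : ℤ) * barT (q * M) l (D : Divisor QBar (FB (q * M))) v
    have e : FF.div QBar (f : FB (q * M)) = (m : ℤ) • (D : Divisor QBar (FB (q * M))) :=
      Finsupp.ext fun w => by rw [FF.div_apply, hD, Finsupp.smul_apply, smul_eq_mul]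
    have e2 : barT (q * M) l (FF.div QBar (f : FB (q * M))) =
        FF.div QBar (MazurP.heckeNorm (q * M) l (f : FB (q * M))) := correspondence_div _ _ hf0
    rw [e, map_zsmul] at e2
    rw [← FF.div_apply, ← e2, Finsupp.smul_apply, smul_eq_mul]
  · exact resNorm_ne_zero (redK_ne_zero hne s)
      ((hFred s).symm.trans (Subtype.ext ((coe_redK h.hM F s).trans h0)))
  · show P.ord (redK h.hM F s) = (m : ℤ) * resT A M l (E s : Divisor (Res A) (KM A M)) P
    have e : FF.div (Res A) (redK h.hM f s) = (m : ℤ) • (E s : Divisor (Res A) (KM A M)) :=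
      Finsupp.ext fun w => by rw [FF.div_apply, hE, Finsupp.smul_apply, smul_eq_mul]
    have e2 := resT_div (l := l) (z := redK h.hM f s) (redK_ne_zero hne s)
    rw [e, map_zsmul, ← hFred] at e2
    rw [← FF.div_apply, ← e2, Finsupp.smul_apply, smul_eq_mul]
  · rw [← resTJ_mk, hz s]

/-- **Kernel.** A class with trivial pair is toric: Frobenius is `-q w`. -/
theorem IsRedPair.frobenius {m : ℕ} (hm : m ≠ 0) (hmq : ¬ q ∣ m) {y : JZero (q * M)}
    (hy : IsRedPair h m y 0) {σ : GQ} (hσ : A.IsFrobeniusAt σ q) :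
    σ • y + q • (Fermat.Agent.Semistable.wAut h • y) = 0 := by
  have := Arith.residueField_isAlgClosed A
  have : FF.IsFunctionField QBar (FB (q * M)) := ModFun.isFunctionField_bar _
  obtain ⟨D, f, E, rfl, hf, hD, hne, hE, hz⟩ := hy
  choose g hg hgE using fun s => (FF.pic0_mk_eq_zero_iff (E s)).mp (hz s)
  -- The reductions of the Kummer function are constants times `m`-th powers.
  have hq0 : ∀ s, ∃ k : Res A, k ≠ 0 ∧ red2 A (iota2 M q h.hqM) f s =
      algebraMap (Res A) (LaurentSeries (Res A)) k *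
        ((g s : KM A M) : LaurentSeries (Res A)) ^ m := by
    intro s
    obtain ⟨k, hk⟩ : ∃ k : Res A, redK h.hM f s / g s ^ m = algebraMap (Res A) (KM A M) k := by
      refine exists_eq_algebraMap (fun v => ?_)
      rw [FF.ord_div v (redK_ne_zero hne s) (pow_ne_zero m (hg s)), FF.ord_pow, hE, hgE, sub_self]
    refine ⟨k, fun h0 => div_ne_zero (redK_ne_zero hne s) (pow_ne_zero m (hg s))
      (by rw [hk, h0, map_zero]), ?_⟩
    have e : redK h.hM f s = algebraMap (Res A) (KM A M) k * g s ^ m := by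
      rw [← hk, div_mul_cancel₀ _ (pow_ne_zero m (hg s))]
    have := congrArg Subtype.val e
    rw [coe_redK] at this
    rw [this]
    push_cast
    rfl
  choose k hk0 hk using hq0
  have hinv : ∀ s, ((g s : KM A M) : LaurentSeries (Res A))⁻¹ ∈ KM A M := fun s =>
    inv_mem (g s).2
  -- Lift the inverse roots and change the divisor by the lift.
  obtain ⟨y, hy⟩ := red2_surjective M q h.hqM h.hM (hinv 0) (hinv 1)
  have hys : ∀ s, red2 A (iota2 M q h.hqM) y s = ((g s : KM A M) : LaurentSeries (Res A))⁻¹ := by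
    intro s
    rw [hy]
    fin_cases s <;> rfl
  have hgs : ∀ s, ((g s : KM A M) : LaurentSeries (Res A)) ≠ 0 := fun s h0 =>
    hg s (Subtype.ext h0)
  have hy0 : (y : FB (q * M)) ≠ 0 := coe_ne_zero fun s => by
    rw [hys]; exact inv_ne_zero (hgs s)
  have hk' : HasKummer h ((D : Divisor QBar (FB (q * M))) + FF.div QBar (y : FB (q * M))) m k := by
    refine ⟨hk0, f * y ^ m, fun v => ?_, fun s => ?_⟩
    · rw [MulMemClass.coe_mul, SubmonoidClass.coe_pow,
        v.ord_mul (coe_ne_zero hne) (pow_ne_zero m hy0), FF.ord_pow, hD, Finsupp.add_apply,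
        FF.div_apply]
      ring
    · rw [map_mul, map_pow, Pi.mul_apply, Pi.pow_apply, hk, hys, inv_pow, mul_assoc,
        mul_inv_cancel₀ (pow_ne_zero m (hgs s)), mul_one]
  -- Then the gluing statement applies.
  have hP := h.frobenius_add_wAut_principal hσ hm hmq hk'
  let DY : Divisor.degZero (K := QBar) (F := FB (q * M)) :=
    ⟨FF.div QBar (y : FB (q * M)), Divisor.mem_degZero.mpr (FF.degree_div _)⟩
  let D' : Divisor.degZero (K := QBar) (F := FB (q * M)) := D + DY
  have hmk : (Pic0.mk D' : JZero (q * M)) = Pic0.mk D := by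
    show Pic0.mk D + Pic0.mk DY = Pic0.mk D
    rw [(FF.pic0_mk_eq_zero_iff DY).mpr (FF.div_mem_principal hy0), add_zero]
  rw [← hmk]
  exact (FF.pic0_mk_eq_zero_iff (SemilinearAut.degZeroSMulHom
      (arithmeticGalois (L := QBar) (modularFunctionFieldFull (q * M)) σ) D' +
      q • SemilinearAut.degZeroSMulHom (Fermat.Agent.Semistable.wAut h) D')).mpr hP

omit [CharP (Res A) q] [FF.IsFunctionField (Res A) ↥(KM A M)] in
/-- A fixed torsion class times `T_l - (l + 1)` has a fixed Kummer function with nonzero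
reductions at both cusps: the Hecke norm multiplies the difference of orders by `l + 1`. -/
theorem exists_balanced {m : ℕ} (hm : m ≠ 0) {x : JZero (q * M)} (hx : m • x = 0)
    (hfix : ∀ τ ∈ A.inertiaSubgroupIn ℚ, τ • x = x) {l : ℕ} (hl : l.Prime)
    (hlN : ¬ l ∣ q * M) :
    ∃ (D : Divisor.degZero (K := QBar) (F := FB (q * M))) (F : loc2 A (iota2 M q h.hqM)),
      Pic0.mk D = heckeOperatorBar (q * M) ⟨l, hl⟩ x - ((l : ℤ) + 1) • x ∧
      InertiaFixed A ((F : FB (q * M)) : LSer) ∧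
      (∀ v, v.ord (F : FB (q * M)) = (m : ℤ) * (D : Divisor QBar (FB (q * M))) v) ∧
      ∀ s, red2 A (iota2 M q h.hqM) F s ≠ 0 := by
  have hA := h.hA
  have : FF.IsFunctionField QBar (FB (q * M)) := ModFun.isFunctionField_bar _
  have : NeZero l := ⟨hl.ne_zero⟩
  have : FF.IsFunctionField QBar (FB (q * M * l)) := ModFun.isFunctionField_bar _
  have : NeZero m := ⟨hm⟩
  let x' : Pic0.torsion QBar (FB (q * M)) m :=
    ⟨x, Pic0.mem_torsion.mpr (by rw [natCast_zsmul]; exact hx)⟩
  -- An inertia fixed Kummer function of `x`.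
  obtain ⟨φ, hφx, -, hφf⟩ := exists_rational_kummer A x' hfix
  set f : FB (q * M) := ((φ : (FB (q * M))ˣ) : FB (q * M)) with hf
  have hf0 : f ≠ 0 := Units.ne_zero _
  let D : Divisor.degZero (K := QBar) (F := FB (q * M)) :=
    ⟨JacTorsion.divQuot φ, JacTorsion.divQuot_mem_degZero _⟩
  have hDx : (Pic0.mk D : JZero (q * M)) = x := congrArg Subtype.val hφx
  have hord : ∀ v, v.ord f = (m : ℤ) * (D : Divisor QBar (FB (q * M))) v := fun v => by
    have h3 := DFunLike.congr_fun (JacTorsion.smul_divQuot φ) v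
    rw [Finsupp.smul_apply, smul_eq_mul, FF.div_apply] at h3
    exact h3.symm
  let DT : Divisor.degZero (K := QBar) (F := FB (q * M)) := Pic0.degZeroCorrespondence
    (heckeBetaBar QBar (q * M) l) (heckeAlphaBar QBar (q * M) l) (FF.isIntegralAlong _)
    (FF.isIntegralAlong _) (FF.fundamentalIdentityAlong _ _) D
  have hin : (Pic0.mk DT : JZero (q * M)) = heckeOperatorBar (q * M) ⟨l, hl⟩ x := by
    rw [← hDx]
    refine Eq.symm ((heckeOperatorBar_apply (q * M) ⟨l, hl⟩ _).trans ?_)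
    exact DFunLike.congr_fun (heckeOperatorAlong_eq (L := QBar) (N := q * M) (ℓ := l)
      (FF.isIntegralAlong _) (FF.isIntegralAlong _) (FF.fundamentalIdentityAlong _ _)
      (FF.finiteAlong _) (FF.normFormulaAlong _ _)) _
  -- Its Hecke norm is a Kummer function of `T_l x`.
  set N := MazurP.heckeNorm (q * M) l f with hNdef
  have hN0 : N ≠ 0 := MazurP.heckeNorm_ne_zero hf0
  have hNfix := inertiaFixed_heckeNorm (q := q) (M := M) hl hlN hφf
  have hordN : ∀ v, v.ord N = (m : ℤ) * (DT : Divisor QBar (FB (q * M))) v := fun v => by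
    show v.ord N = (m : ℤ) * barT (q * M) l (D : Divisor QBar (FB (q * M))) v
    have e : FF.div QBar f = (m : ℤ) • (D : Divisor QBar (FB (q * M))) :=
      Finsupp.ext fun w => by rw [FF.div_apply, hord, Finsupp.smul_apply, smul_eq_mul]
    have e2 : barT (q * M) l (FF.div QBar f) = FF.div QBar N := correspondence_div _ _ hf0
    rw [e, map_zsmul] at e2
    rw [← FF.div_apply, ← e2, Finsupp.smul_apply, smul_eq_mul]
  set x₁ := N * f ^ (-((l : ℤ) + 1)) with hx₁
  have hfl : InertiaFixed A ((f ^ (-((l : ℤ) + 1)) : FB (q * M)) : LSer) := by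
    exact hφf.zpow _
  -- The difference of the orders at the two cusps cancels against `l + 1`; rescale.
  have hd1 : dlt A h.hqM x₁ = 0 := by
    rw [hx₁, dlt_mul hA h.hqM hN0 (zpow_ne_zero _ hf0) hNfix hfl,
      dlt_zpow hA h.hqM hf0 hφf, hNdef, dlt_heckeNorm hA h.hqM hl hlN hf0 hφf]
    ring
  obtain ⟨c, F, hc, hF, hFfix, hFne⟩ := exists_scale_dlt hA h.hqM
    (mul_ne_zero hN0 (zpow_ne_zero _ hf0))
    (by rw [IntermediateField.coe_mul]; exact hNfix.mul hfl) hd1
  refine ⟨DT + (-((l : ℤ) + 1)) • D, F, ?_, hFfix, fun v => ?_, hFne⟩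
  · show Pic0.mk DT + Pic0.mk ((-((l : ℤ) + 1)) • D) = _
    have e1 : (Pic0.mk ((-((l : ℤ) + 1)) • D) : JZero (q * M)) =
        (-((l : ℤ) + 1)) • Pic0.mk D := QuotientAddGroup.mk_zsmul _ _ _
    rw [e1, hin, hDx, neg_smul, sub_eq_add_neg]
  · rw [hF, v.ord_mul ((_root_.map_ne_zero _).mpr hc) (mul_ne_zero hN0 (zpow_ne_zero _ hf0)),
      FF.ord_algebraMap, zero_add, v.ord_mul hN0 (zpow_ne_zero _ hf0), v.ord_zpow, hord, hordN,
      AddSubgroup.coe_add, AddSubgroupClass.coe_zsmul, Finsupp.add_apply, Finsupp.smul_apply,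
      smul_eq_mul]
    ring

/-- The pair of a balanced function whose reductions have orders divisible by the exponent. -/
theorem exists_isRedPair_of_dvd {m : ℕ} (hm : m ≠ 0)
    {D : Divisor.degZero (K := QBar) (F := FB (q * M))} {F : loc2 A (iota2 M q h.hqM)}
    (hfix : InertiaFixed A ((F : FB (q * M)) : LSer))
    (hord : ∀ v, v.ord (F : FB (q * M)) = (m : ℤ) * (D : Divisor QBar (FB (q * M))) v)
    (hne : ∀ s, red2 A (iota2 M q h.hqM) F s ≠ 0)
    (hdvd : ∀ s (P : Place (Res A) (KM A M)), (m : ℤ) ∣ P.ord (redK h.hM F s)) :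
    ∃ z, IsRedPair h m (Pic0.mk D) z := by
  have := Arith.residueField_isAlgClosed A
  have hm' : (m : ℤ) ≠ 0 := Nat.cast_ne_zero.mpr hm
  let E : Fin 2 → Divisor (Res A) (KM A M) := fun s =>
    divFloor (m : ℤ) (FF.div (Res A) (redK h.hM F s))
  have hE : ∀ s P, P.ord (redK h.hM F s) = (m : ℤ) * E s P := fun s P => by
    rw [divFloor_apply, FF.div_apply, Int.mul_ediv_cancel' (hdvd s P)]
  have hEdeg : ∀ s, Divisor.degree (E s) = 0 := fun s => by
    have e : (m : ℤ) • E s = FF.div (Res A) (redK h.hM F s) := Finsupp.ext fun P => by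
      rw [Finsupp.smul_apply, smul_eq_mul, FF.div_apply, hE]
    have h5 := congrArg Divisor.degree e
    rw [map_zsmul, FF.degree_div, smul_eq_mul] at h5
    exact (mul_eq_zero.mp h5).resolve_left hm'
  exact ⟨fun s => Pic0.mk ⟨E s, Divisor.mem_degZero.mpr (hEdeg s)⟩, D, F, _, rfl, hfix, hord, hne,
    hE, fun s => rfl⟩

/-- **Existence at an even level.** The pair of `2 (T_l - (l + 1)) x` at half the exponent. -/
theorem exists_isRedPair {m : ℕ} (hm : m ≠ 0) {x : JZero (q * M)} (hx : (2 * m) • x = 0)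
    (hfix : ∀ τ ∈ A.inertiaSubgroupIn ℚ, τ • x = x) (h2M : 2 ∣ M)
    {l : ℕ} (hl : l.Prime) (hlN : ¬ l ∣ q * M) :
    ∃ z, IsRedPair h m (2 • (heckeOperatorBar (q * M) ⟨l, hl⟩ x - ((l : ℤ) + 1) • x)) z := by
  obtain ⟨D, F, hD, hF, hord, hne⟩ := exists_balanced (h := h) (mul_ne_zero two_ne_zero hm) hx
    hfix hl hlN
  have hqM2 : ¬ q ∣ M * 2 := fun hd => by
    rcases hq.out.dvd_mul.mp hd with hd | hd
    · exact h.hqM hd
    · exact h.hqM (((Nat.prime_dvd_prime_iff_eq hq.out Nat.prime_two).mp hd) ▸ h2M)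
  have hord' : ∀ v, v.ord (F : FB (q * M)) =
      (m : ℤ) * (((2 : ℕ) • D : Divisor.degZero (K := QBar) (F := FB (q * M))) :
        Divisor QBar (FB (q * M))) v := fun v => by
    rw [hord, AddSubgroupClass.coe_nsmul, Finsupp.smul_apply, nsmul_eq_mul]
    push_cast
    ring
  obtain ⟨z, hz⟩ := exists_isRedPair_of_dvd (h := h) hm hF hord' hne fun s P => by
    have h4 := dvd_two_mul_ord_red h.hqM hqM2 h.hA h2M
      (Nat.pos_of_ne_zero (mul_ne_zero two_ne_zero hm)) hF
      (fun v => by rw [hord]; exact dvd_mul_right _ _) hne h.hM rfl s P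
    push_cast at h4
    exact (mul_dvd_mul_iff_left (two_ne_zero)).mp h4
  refine ⟨z, ?_⟩
  rwa [show (Pic0.mk ((2 : ℕ) • D) : JZero (q * M)) = 2 • Pic0.mk D from
    QuotientAddGroup.mk_nsmul _ _ _, hD] at hz

end Fermat.Agent.LT.Lower

end
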