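import Fermat.Agent.Arith.ResidueLift
import Fermat.Agent.RT.Mazur.ResHecke
import Fermat.Agent.RedTorsion.InjTorsion
import Fermat.Agent.CurveTorsion.Main
import Fermat.Agent.CurveTorsion.FrobBuild

/-!
# Reduction is bijective on prime-to-`q` torsion of prime power order

The reduction of divisor classes at a level invertible in the residue field is injective on the
torsion prime to the residue characteristic, and source and target have the same number of
`p ^ k`-torsion classes.
-/

set_option autoImplicit false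

noncomputable section

open AlgebraicCurve ModularCurve IsLocalRing

namespace Fermat.Agent.LT.Lower

open Fermat.Agent.Semistable Fermat.Agent.RT.Mazur
open Arith (QBar GQ)

variable {A : ValuationSubring QBar} {q M : ℕ} [hq : Fact q.Prime] [NeZero M]

variable [FF.IsFunctionField QBar (FB M)] [FF.IsFunctionField (Res A) (KM A M)]

/-- Reduction is injective on the torsion prime to `q`. -/
theorem redJ_eq_zero (hA : A.LiesOverPrime q) (hM : (M : Res A) ≠ 0) {m : ℕ} (hmq : ¬ q ∣ m)
    {x : JZero M} (hx : m • x = 0) (h : redJ hM x = 0) : x = 0 := by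
  have := Arith.residueField_charP hA hq.out
  obtain ⟨D, rfl⟩ := Pic0.mk_surjective x
  rw [redJ_mk, FF.pic0_mk_eq_zero_iff] at h
  rw [FF.pic0_mk_eq_zero_iff]
  have hx' : Pic0.mk (m • D) = 0 := (QuotientAddGroup.mk_nsmul _ D m).trans hx
  rw [FF.pic0_mk_eq_zero_iff] at hx'
  refine FiniteFlat.Torsion.isPrincipal_of_redDiv hM hA hq.out ?_ hx' h
  rw [← residue_ne_zero_iff_isUnit, map_natCast, Ne, CharP.cast_eq_zero_iff _ q]
  exact hmq

omit [FF.IsFunctionField QBar ↥(FB M)] [NeZero M] in
/-- The number of torsion classes of the reduced curve. -/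
theorem natCard_torsion_res (hA : A.LiesOverPrime q) (p : ℕ)
    [Fact p.Prime] (hpq : p ≠ q) (k : ℕ) :
    Nat.card (Pic0.torsion (Res A) (KM A M) (p ^ k)) =
      p ^ (2 * genusFF (Res A) (KM A M) * k) := by
  have := Arith.residueField_charP hA hq.out
  have := Arith.residueField_isAlgClosed A
  have hK := Arith.exists_frobenius_period hA hq.out
  refine CurveTorsion.natCard_torsion_of_isFrob (q := q ^ 1)
    (φ := EichlerShimura.coeffAut M (EichlerShimura.frobRing A q)) ?_ p ?_ k
  · refine CurveTorsion.IsFrob.of_generated Nat.one_pos hK _ (fun a => ?_)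
      ((Subtype.val : KM A M → LaurentSeries (Res A)) ⁻¹' divisorExpansionsC (Res A) M) ?_ ?_ ?_
    · rw [pow_one]; rfl
    · refine IntermediateField.map_injective (KM A M).val ?_
      rw [IntermediateField.adjoin_map, ← AlgHom.fieldRange_eq_map]
      refine le_antisymm ?_ ?_
      · refine IntermediateField.adjoin_le_iff.mpr ?_
        rintro _ ⟨z, -, rfl⟩
        rw [IntermediateField.fieldRange_val]
        exact z.2
      · rw [IntermediateField.fieldRange_val]
        exact IntermediateField.adjoin.mono _ _ _ fun z hz =>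
          ⟨⟨z, IntermediateField.subset_adjoin _ _ hz⟩, hz, rfl⟩
    · rintro z ⟨d, hd, hdM, hz⟩
      refine Subtype.ext ?_
      rw [EichlerShimura.coe_coeffAut_smul, hz, coeffMap_qExpand, ModularCurve.coeffMap_jqModC]
    · refine ⟨jK A M, jK_transcendental A M, Subtype.ext ?_⟩
      rw [EichlerShimura.coe_coeffAut_smul, coe_jK, ModularCurve.coeffMap_jqModC]
  · rw [pow_one]
    exact fun h => hpq ((Nat.prime_dvd_prime_iff_eq Fact.out hq.out).mp h)

/-- Every torsion class of the reduced curve is the reduction of a unique one. -/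
theorem exists_redJ_eq (hA : A.LiesOverPrime q) (hM : (M : Res A) ≠ 0) (p : ℕ)
    [hp : Fact p.Prime] (hpq : p ≠ q) (k : ℕ) {z : Pic0 (Res A) (KM A M)}
    (hz : p ^ k • z = 0) : ∃ x : JZero M, p ^ k • x = 0 ∧ redJ hM x = z := by
  have hq' : ¬ q ∣ p ^ k := fun h =>
    hpq ((Nat.prime_dvd_prime_iff_eq hq.out hp.out).mp (hq.out.dvd_of_dvd_pow h)).symm
  let r : Pic0.torsion QBar (FB M) (p ^ k) → Pic0.torsion (Res A) (KM A M) (p ^ k) := fun x =>
    ⟨redJ hM x, by
      have := x.2
      rw [Pic0.mem_torsion] at this ⊢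
      exact (map_zsmul (redJ hM) _ _).symm.trans (by rw [this, map_zero])⟩
  have hr : Function.Injective r := fun x y hxy => by
    refine Subtype.ext (sub_eq_zero.mp (redJ_eq_zero hA hM hq' (x := (x : JZero M) - y) ?_ ?_))
    · have hx := x.2
      have hy := y.2
      rw [Pic0.mem_torsion, natCast_zsmul] at hx hy
      rw [nsmul_sub, hx, hy, sub_zero]
    · rw [map_sub, sub_eq_zero]
      exact congrArg Subtype.val hxy
  have hcard := natCard_torsion_res (q := q) (M := M) hA p hpq k
  have : Finite (Pic0.torsion (Res A) (KM A M) (p ^ k)) :=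
    Nat.finite_of_card_ne_zero (by rw [hcard]; exact pow_ne_zero _ hp.out.ne_zero)
  have hg : genusFF (Res A) (KM A M) = genusFF QBar (FB M) :=
    FiniteFlat.genusFF_residue_eq hM
  obtain ⟨x, hx⟩ := (hr.bijective_of_nat_card_le (by
    rw [hcard, CurveTorsion.natCard_torsion_pow_of_charZero QBar (FB M) p k, hg])).2
    ⟨z, by rw [Pic0.mem_torsion, natCast_zsmul]; exact hz⟩
  refine ⟨x, ?_, congrArg Subtype.val hx⟩
  have := x.2
  rwa [Pic0.mem_torsion, natCast_zsmul] at this

end Fermat.Agent.LT.Lower

end
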