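import Fermat.Agent.LT.Lower.EigTors
import Fermat.Agent.LT.Lower.RedPair
import Fermat.Agent.LT.Lower.RedTorsion
import Fermat.Agent.Arith.Chebotarev.Main

/-!
# One step of level lowering modulo powers of `2`

If `2` and the primes of `d` divide `M`, an eigen class of exact order `2 ^ (m + 1)` at level `q M`,
`q` prime to `M` and with nontrivial residual Frobenius, gives an eigen class of exact order `2 ^ m`
at level `M`.
-/

set_option autoImplicit false

noncomputable section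

open AlgebraicCurve ModularCurve Matrix

namespace Fermat.Agent.LT.Lower

open Fermat.Agent.Semistable Fermat.Agent.RT.Mazur
open Arith (QBar GQ)

variable {n d : ℕ} {a : ℕ → ℤ}

theorem mod2_comp {k n : ℕ} (hk : 0 < k) (hkn : k ≤ n) :
    (mod2 k hk).comp (ZMod.castHom (pow_dvd_pow 2 hkn) (ZMod (2 ^ k))) =
      mod2 n (hk.trans_le hkn) :=
  RingHom.ext_zmod _ _

/-- The reduction of a representation modulo a smaller power of `2`. -/
def RepData.reduce (ρ : RepData n d a) {k : ℕ} (hk : 0 < k) (hkn : k ≤ n) : RepData k d a where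
  pos := hk
  rep := (ZMod.castHom (pow_dvd_pow 2 hkn) (ZMod (2 ^ k))).mapMatrix.toMonoidHom.comp ρ.rep
  exists_level := by
    obtain ⟨K, hK, hfix⟩ := ρ.exists_level
    refine ⟨K, hK, fun σ hσ => ?_⟩
    rw [MonoidHom.comp_apply, hfix σ hσ, map_one]
  unram l hl hld A hA σ hσ := by rw [MonoidHom.comp_apply, ρ.unram l hl hld A hA σ hσ, map_one]
  trace_frob l hl hld A hA σ hσ := by
    set c := ZMod.castHom (pow_dvd_pow 2 hkn) (ZMod (2 ^ k))
    rw [MonoidHom.comp_apply]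
    refine (AddMonoidHom.map_trace c.toAddMonoidHom _).symm.trans ?_
    rw [ρ.trace_frob l hl hld A hA σ hσ]
    exact map_intCast c _
  det_frob l hl hld A hA σ hσ := by
    set c := ZMod.castHom (pow_dvd_pow 2 hkn) (ZMod (2 ^ k))
    rw [MonoidHom.comp_apply]
    refine (RingHom.map_det c _).symm.trans ?_
    rw [ρ.det_frob l hl hld A hA σ hσ]
    exact map_natCast c _
  full g hg := by
    obtain ⟨σ, hσ⟩ := ρ.full g hg
    refine ⟨σ, ?_⟩
    rw [← hσ, ← mod2_comp hk hkn]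
    rfl

/-- There are good primes with odd trace. -/
theorem exists_odd_trace (ρ : RepData n d a) (hd : d ≠ 0) (S : Finset ℕ) :
    ∃ l : ℕ, l.Prime ∧ l ∉ S ∧ ¬ l ∣ 2 * d ∧ Odd (a l) := by
  classical
  obtain ⟨σ, hσ⟩ := ρ.full !![0, 1; 1, 1] (by simp [Matrix.det_fin_two])
  obtain ⟨K, hK, hfix⟩ := ρ.exists_level
  obtain ⟨l, hl, hlS, A, hA, τ, hτ, hτσ⟩ :=
    Arith.Chebotarev.exists_frobenius_eq ρ.rep K hfix σ (S ∪ (2 * d).primeFactors)
  rw [Finset.mem_union, not_or] at hlS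
  have hld : ¬ l ∣ 2 * d := fun h => hlS.2 (Nat.mem_primeFactors.mpr ⟨hl, h, by omega⟩)
  refine ⟨l, hl, hlS.1, hld, ?_⟩
  have h1 := ρ.trace_frob l hl hld A hA τ hτ
  rw [hτσ] at h1
  have h2 := congrArg (mod2 n ρ.pos) h1
  rw [map_intCast] at h2
  rw [← ZMod.intCast_eq_one_iff_odd, ← h2]
  refine (AddMonoidHom.map_trace (mod2 n ρ.pos).toAddMonoidHom (ρ.rep σ)).trans ?_
  show ((ρ.rep σ).map (mod2 n ρ.pos)).trace = 1
  rw [hσ]
  decide

theorem isUnit_det_residual (ρ : RepData n d a) (σ : GQ) :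
    IsUnit ((ρ.rep σ).map (mod2 n ρ.pos)).det := by
  rw [← RingHom.mapMatrix_apply, ← RingHom.map_det]
  exact ((Group.isUnit σ).map ρ.rep |>.map Matrix.detMonoidHom).map _

theorem eq_one_of_central {g : Matrix (Fin 2) (Fin 2) (ZMod 2)} (hg : IsUnit g.det)
    (h₁ : g * !![0, 1; 1, 0] = !![0, 1; 1, 0] * g)
    (h₂ : g * !![1, 1; 0, 1] = !![1, 1; 0, 1] * g) : g = 1 := by
  have h0 : g.det = 1 := by
    revert hg
    generalize g.det = z
    revert z
    decide
  clear hg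
  revert h0 h₁ h₂ g
  decide

theorem zsmul_eq_self_of_odd {V : Type*} [AddCommGroup V] {u : V} (hu : 2 • u = 0) {k : ℤ}
    (hk : Odd k) : k • u = u := by
  obtain ⟨j, rfl⟩ := hk
  rw [add_zsmul, one_zsmul, mul_comm, mul_smul, show (2 : ℤ) • u = 2 • u from natCast_zsmul u 2,
    hu, smul_zero, zero_add]

/-- A class with a reduced pair of exact order `2 ^ m` gives an eigen class of exact order `2 ^ m`
at level `M`. -/
private theorem exists_eigTors_of_isRedPair {M q m : ℕ} [NeZero M] [NeZero (q * M)] [Fact q.Prime]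
    (hqM : ¬ q ∣ M) (h2M : 2 ∣ M) (hdM : ∀ l : ℕ, l.Prime → l ∣ d → l ∣ M) (hm : 0 < m)
    (ρ : RepData (m + 1) d a) {A : ValuationSubring QBar} (hA : A.LiesOverPrime q)
    [CharP (Res A) q] (hM : (M : Res A) ≠ 0) [FF.IsFunctionField (Res A) (KM A M)]
    [FF.IsFunctionField QBar (FB M)] {h : Setup A M q} {c : ℤ}
    {w : eigTors (q * M) (m + 1) a ∅} {z : Fin 2 → Pic0 (Res A) (KM A M)} {s : Fin 2}
    (hz : IsRedPair h (2 ^ m) ((2 : ℤ) • c • (w : JZero (q * M))) z)
    (hzs : 2 ^ (m - 1) • z s ≠ 0) : ∃ y ∈ eigTors M m a ∅, 2 ^ (m - 1) • y ≠ 0 := by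
  have hq : q.Prime := Fact.out
  have hq2 : ¬ q ∣ 2 := fun hd => hqM (hd.trans h2M)
  -- The reduced class is killed by `2 ^ m`, hence lifts to level `M`.
  have hz0 : 2 ^ m • z s = 0 := by
    have h1 := hz.zsmul ((2 ^ m : ℕ) : ℤ)
    have e0 : ((2 ^ m : ℕ) : ℤ) • (2 : ℤ) • c • (w : JZero (q * M)) =
        c • ((2 ^ (m + 1) : ℕ) • (w : JZero (q * M))) := by
      rw [← natCast_zsmul _ (2 ^ (m + 1)), smul_smul, smul_smul, smul_smul]
      congr 1
      push_cast
      ring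
    rw [e0, w.2.1, smul_zero] at h1
    have h2 := congrFun (h1.eq_zero (pow_ne_zero m two_ne_zero)) s
    rwa [Pi.smul_apply, Pi.zero_apply, natCast_zsmul] at h2
  obtain ⟨y, hy, hyz⟩ := exists_redJ_eq (q := q) hA hM 2
    (fun hd => hq2 (hd ▸ dvd_rfl)) m hz0
  have hq2m : ¬ q ∣ 2 ^ m := fun hd => hq2 (hq.dvd_of_dvd_pow hd)
  -- The lift is eigen away from `q`: reduction is injective on it and commutes with `T_l`.
  have hyW : y ∈ eigTors M m a {q} := by
    refine ⟨hy, fun l' hl' hl'M hl'q => ?_⟩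
    rw [Finset.mem_singleton] at hl'q
    have : NeZero l' := ⟨hl'.ne_zero⟩
    have hl'N : ¬ l' ∣ q * M := fun hd => (hl'.dvd_mul.mp hd).elim
      (fun hd => hl'q ((Nat.prime_dvd_prime_iff_eq hl' hq).mp hd)) hl'M
    have hMl : ((M * l' : ℕ) : Res A) ≠ 0 := fun hd => by
      rcases hq.dvd_mul.mp ((CharP.cast_eq_zero_iff (Res A) q _).mp hd) with hd | hd
      · exact hqM hd
      · exact hl'q ((Nat.prime_dvd_prime_iff_eq hq hl').mp hd).symm
    have : FF.IsFunctionField (Res A) (KM A (M * l')) := isFunctionField_KM A hMl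
    have : FF.IsFunctionField QBar (FB (M * l')) := ModFun.isFunctionField_bar _
    have h1 := hz.hecke (l := l') hl' hl'N
    rw [map_zsmul, map_zsmul, w.2.2 l' hl' hl'N (Finset.notMem_empty l'),
      smul_comm c (a l'), smul_comm (2 : ℤ) (a l')] at h1
    have h2 := congrFun (h1.unique (pow_ne_zero m two_ne_zero) (hz.zsmul (a l'))) s
    rw [Pi.smul_apply] at h2
    refine sub_eq_zero.mp (redJ_eq_zero (q := q) hA hM hq2m ?_ ?_)
    · rw [nsmul_sub, ← map_nsmul, hy, map_zero, smul_comm, hy, smul_zero, sub_zero]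
    · rw [map_sub, redJ_hecke hM hMl hl', map_zsmul, hyz, h2, sub_self]
  -- It has exact order, and the quadratic relations recover the operator at `q`.
  have hy' : 2 ^ (m - 1) • y ≠ 0 := fun h0 => hzs (by rw [← hyz, ← map_nsmul, h0, map_zero])
  exact exists_eigTors_full h2M hdM hyW hy' (ρ.reduce hm (Nat.le_succ m))

/-- If every reduced pair is killed by `2 ^ (m - 1)`, the residual Frobenius at `q` is trivial. -/
private theorem map_frobenius_eq_one_of_toric {M q m : ℕ} [NeZero M] [NeZero (q * M)] [Fact q.Prime]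
    (hqM : ¬ q ∣ M) (h2M : 2 ∣ M) (hm : 0 < m) (ρ : RepData (m + 1) d a)
    (hW : QuadModule ρ.rep (eigTors (q * M) (m + 1) a ∅)) {x : JZero (q * M)}
    (hx : x ∈ eigTors (q * M) (m + 1) a ∅) (hx' : 2 ^ m • x ≠ 0) {A : ValuationSubring QBar}
    [CharP (Res A) q] [FF.IsFunctionField (Res A) (KM A M)] [FF.IsFunctionField QBar (FB M)]
    {h : Setup A M q} {c : ℤ} (hcodd : Odd c)
    (hpair : ∀ w : eigTors (q * M) (m + 1) a ∅, ∃ z,
      IsRedPair h (2 ^ m) ((2 : ℤ) • c • (w : JZero (q * M))) z)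
    (htoric : ∀ (w : eigTors (q * M) (m + 1) a ∅) (z : Fin 2 → Pic0 (Res A) (KM A M)) (s : Fin 2),
      IsRedPair h (2 ^ m) ((2 : ℤ) • c • (w : JZero (q * M))) z → 2 ^ (m - 1) • z s = 0)
    {σ : GQ} (hσ : A.IsFrobeniusAt σ q) : (ρ.rep σ).map (mod2 (m + 1) ρ.pos) = 1 := by
  have hq : q.Prime := Fact.out
  have hq2 : ¬ q ∣ 2 := fun hd => hqM (hd.trans h2M)
  have hqodd : Odd q := hq.odd_of_ne_two fun hd => hq2 (hd ▸ dvd_rfl)
  -- the classes `2 ^ m w` are toric
  have hU : ∀ w : eigTors (q * M) (m + 1) a ∅, σ • (2 ^ m • (w : JZero (q * M))) =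
      Fermat.Agent.Semistable.wAut h • (2 ^ m • (w : JZero (q * M))) := by
    intro w
    obtain ⟨z, hz⟩ := hpair w
    have h1 := hz.zsmul ((2 ^ (m - 1) : ℕ) : ℤ)
    rw [show ((2 ^ (m - 1) : ℕ) : ℤ) • z = 0 from funext fun s => by
      rw [Pi.smul_apply, natCast_zsmul]; exact htoric w z s hz] at h1
    set u := 2 ^ m • (w : JZero (q * M)) with hu
    have hu2 : 2 • u = 0 := by rw [hu, smul_smul, ← pow_succ']; exact w.2.1
    have hcu : c • u = u := zsmul_eq_self_of_odd hu2 hcodd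
    rw [show ((2 ^ (m - 1) : ℕ) : ℤ) • (2 : ℤ) • c • (w : JZero (q * M)) = c • u by
      rw [hu, smul_smul, smul_smul, ← natCast_zsmul _ (2 ^ m), smul_smul]
      congr 1
      push_cast
      rw [mul_comm c ((2 : ℤ) ^ m), ← pow_succ, show m - 1 + 1 = m by omega], hcu] at h1
    have h2 := h1.frobenius (pow_ne_zero m two_ne_zero)
      (fun hd => hq2 (hq.dvd_of_dvd_pow hd)) hσ
    have hw2 : (2 : ℕ) • (Fermat.Agent.Semistable.wAut h • u) = 0 := by
      refine (map_nsmul (DistribSMul.toAddMonoidHom (JZero (q * M))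
        (Fermat.Agent.Semistable.wAut h)) 2 u).symm.trans ?_
      rw [hu2, map_zero]
    have h3 : q • (Fermat.Agent.Semistable.wAut h • u) = Fermat.Agent.Semistable.wAut h • u := by
      have h4 := zsmul_eq_self_of_odd (k := (q : ℤ)) hw2 (by exact_mod_cast hqodd)
      rwa [natCast_zsmul] at h4
    rw [h3, add_eq_zero_iff_eq_neg] at h2
    rw [h2, neg_eq_iff_add_eq_zero, ← two_nsmul, hw2]
  -- there `σ` acts as an automorphism commuting with Galois, so it commutes with every `τ`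
  have hcomm : ∀ (τ : GQ) (w : eigTors (q * M) (m + 1) a ∅),
      2 ^ m • (σ • τ • w) = 2 ^ m • (τ • σ • w) := by
    intro τ w
    have hout : ∀ (g : GQ) (y : JZero (q * M)), 2 ^ m • (g • y) = g • (2 ^ m • y) := fun g y =>
      (map_nsmul (DistribSMul.toAddMonoidHom (JZero (q * M)) g) (2 ^ m) y).symm
    refine Subtype.ext ?_
    simp only [AddSubgroupClass.coe_nsmul, coe_smul_eigTors]
    rw [hout σ (τ • (w : JZero (q * M))), hout τ (σ • (w : JZero (q * M))),
      hout σ (w : JZero (q * M)), ← coe_smul_eigTors, hU, coe_smul_eigTors,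
      hout τ (w : JZero (q * M)), Semistable.wAut_smul_galois, hU]
  obtain ⟨j, hj, hjg⟩ := hW.exists_embedding (x := ⟨x, hx⟩)
    (fun h0 => hx' (by simpa using congrArg Subtype.val h0))
  -- through a copy of `ρ` in the module, `2 ^ m` kills the commutator: it vanishes modulo `2`
  have hres : ∀ τ : GQ, (ρ.rep σ).map (mod2 (m + 1) ρ.pos) * (ρ.rep τ).map (mod2 (m + 1) ρ.pos) =
      (ρ.rep τ).map (mod2 (m + 1) ρ.pos) * (ρ.rep σ).map (mod2 (m + 1) ρ.pos) := by
    intro τ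
    rw [← RingHom.mapMatrix_apply, ← RingHom.mapMatrix_apply,
      ← map_mul (mod2 (m + 1) ρ.pos).mapMatrix, ← map_mul (mod2 (m + 1) ρ.pos).mapMatrix,
      ← sub_eq_zero, ← map_sub]
    ext i k
    have h1 : (2 ^ m : ℕ) • ((ρ.rep σ * ρ.rep τ - ρ.rep τ * ρ.rep σ) *ᵥ Pi.single k 1) = 0 := by
      refine hj ?_
      rw [map_zero, map_nsmul, sub_mulVec, map_sub, ← mulVec_mulVec, ← mulVec_mulVec, hjg, hjg,
        hjg, hjg, nsmul_sub, hcomm, sub_self]
    have h2 := congrFun h1 i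
    rw [Pi.smul_apply, Pi.zero_apply, mulVec_single_one, Matrix.col_apply, nsmul_eq_mul] at h2
    obtain ⟨k', hk'⟩ := ZMod.intCast_surjective
      ((ρ.rep σ * ρ.rep τ - ρ.rep τ * ρ.rep σ) i k)
    rw [RingHom.mapMatrix_apply, Matrix.map_apply, ← hk', map_intCast, Matrix.zero_apply,
      ZMod.intCast_zmod_eq_zero_iff_dvd]
    rw [← hk', ← Int.cast_natCast, ← Int.cast_mul, ZMod.intCast_zmod_eq_zero_iff_dvd] at h2
    push_cast at h2
    rw [pow_succ] at h2
    exact_mod_cast (mul_dvd_mul_iff_left (pow_ne_zero m (two_ne_zero : (2 : ℤ) ≠ 0))).mp h2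
  -- a central element of the residual image `GL₂(𝔽₂)` is `1`
  refine eq_one_of_central (isUnit_det_residual ρ σ) ?_ ?_
  · obtain ⟨τ, hτ⟩ := ρ.full !![0, 1; 1, 0] (by simp [Matrix.det_fin_two])
    rw [← hτ]; exact hres τ
  · obtain ⟨τ, hτ⟩ := ρ.full !![1, 1; 0, 1] (by simp [Matrix.det_fin_two])
    rw [← hτ]; exact hres τ

/-- **One step of level lowering.** -/
theorem lower_step {M q m : ℕ} [NeZero M] [NeZero (q * M)] (hq : q.Prime) (hqM : ¬ q ∣ M)
    (h2M : 2 ∣ M) (hd : d ≠ 0) (hdM : ∀ l : ℕ, l.Prime → l ∣ d → l ∣ M) (hm : 0 < m)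
    (ρ : RepData (m + 1) d a) (hmov : ρ.Moved q) {x : JZero (q * M)}
    (hx : x ∈ eigTors (q * M) (m + 1) a ∅) (hx' : 2 ^ m • x ≠ 0) :
    ∃ y ∈ eigTors M m a ∅, 2 ^ (m - 1) • y ≠ 0 := by
  classical
  have := Fact.mk hq
  obtain ⟨A, hA⟩ := Arith.exists_liesOverPrime hq
  have := Arith.residueField_charP hA hq
  have hM : (M : Res A) ≠ 0 := fun h => hqM ((CharP.cast_eq_zero_iff (Res A) q M).mp h)
  have : FF.IsFunctionField (Res A) (KM A M) := isFunctionField_KM A hM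
  have : FF.IsFunctionField QBar (FB M) := ModFun.isFunctionField_bar _
  let h : Setup A M q := ⟨hA, hqM, hM, (FiniteFlat.genusFF_residue_eq hM).ge⟩
  have hq2 : ¬ q ∣ 2 := fun hd => hqM (hd.trans h2M)
  have hqd : ¬ q ∣ 2 * d := fun hd =>
    (hq.dvd_mul.mp hd).elim hq2 fun hd => hqM (hdM q hq hd)
  have h2L : 2 ∣ q * M := dvd_mul_of_dvd_right h2M q
  have hdL : ∀ l : ℕ, l.Prime → l ∣ d → l ∣ q * M := fun l hl hld =>
    dvd_mul_of_dvd_right (hdM l hl hld) q
  have hW := quadModule_eigTors ρ h2L hdL (L := q * M) ∅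
  have hfixW : ∀ (w : eigTors (q * M) (m + 1) a ∅), ∀ τ ∈ A.inertiaSubgroupIn ℚ,
      τ • (w : JZero (q * M)) = w := fun w τ hτ =>
    congrArg Subtype.val (hW.smul_eq_of_rep (ρ.unram q hq hqd A hA τ hτ) w)
  -- at a good prime `l` with `a l` odd, `T_l - (l + 1)` acts as the odd integer `c`
  obtain ⟨l, hl, hlS, -, hal⟩ := exists_odd_trace ρ hd (q * M).primeFactors
  have hlN : ¬ l ∣ q * M := fun hd =>
    hlS (Nat.mem_primeFactors.mpr ⟨hl, hd, NeZero.ne _⟩)
  have hlodd : Odd l := hl.odd_of_ne_two fun hd => hlN (hd ▸ h2L)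
  set c : ℤ := a l - ((l : ℤ) + 1) with hc
  have hcodd : Odd c := by
    refine Odd.sub_even hal ?_
    exact_mod_cast hlodd.add_one
  have hpair : ∀ w : eigTors (q * M) (m + 1) a ∅, ∃ z,
      IsRedPair h (2 ^ m) ((2 : ℤ) • c • (w : JZero (q * M))) z := by
    intro w
    obtain ⟨z, hz⟩ := exists_isRedPair (h := h) (pow_ne_zero m two_ne_zero)
      (x := (w : JZero (q * M))) (by rw [← pow_succ']; exact w.2.1) (hfixW w) h2M hl hlN
    refine ⟨z, ?_⟩
    have e : heckeOperatorBar (q * M) ⟨l, hl⟩ (w : JZero (q * M)) -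
        ((l : ℤ) + 1) • (w : JZero (q * M)) = c • (w : JZero (q * M)) := by
      rw [w.2.2 l hl hlN (Finset.notMem_empty l)]
      rw [hc, sub_eq_add_neg (a l • (w : JZero (q * M)))]
      exact (sub_zsmul (w : JZero (q * M)) (a l) ((l : ℤ) + 1)).symm
    rwa [e, ← natCast_zsmul] at hz
  -- either some reduced pair has exact order `2 ^ m`, or the residual Frobenius is trivial
  by_cases hA' : ∃ (w : eigTors (q * M) (m + 1) a ∅) (z : Fin 2 → Pic0 (Res A) (KM A M))
      (s : Fin 2), IsRedPair h (2 ^ m) ((2 : ℤ) • c • (w : JZero (q * M))) z ∧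
        2 ^ (m - 1) • z s ≠ 0
  · obtain ⟨w, z, s, hz, hzs⟩ := hA'
    exact exists_eigTors_of_isRedPair hqM h2M hdM hm ρ hA hM hz hzs
  · push Not at hA'
    obtain ⟨σ, hσ⟩ := Arith.exists_isFrobeniusAt hA hq
    exact absurd (map_frobenius_eq_one_of_toric hqM h2M hm ρ hW hx hx' hcodd hpair hA' hσ)
      (hmov A hA σ hσ)

end Fermat.Agent.LT.Lower

end
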