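import Fermat.Agent.LT.Lower.SystemTorsion
import Fermat.Agent.LT.Lower.Step
import Fermat.Agent.LT.Lower.Character

/-!
# Level lowering modulo powers of `2`: systems at bounded depth give an eigenform

The primes removed from the level are prime to `d`, so `2 ∣ d` stays; the congruences are modulo
powers of `2`. `exists_eigenform_of_systems`: for an even `d`, representations modulo every power
of `2` with traces `a` and full residual image, and bounds `h` and `k`, suppose that for every `N`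
there is a system modulo `2 ^ N`, with local part modulo `2` of dimension at most `h`, at a level
`d ∏ T` with `#T ≤ k` and nontrivial residual Frobenius at `T`. Then there is an eigenform of level
`d` with the prescribed values. It is used in `LT/Compose/Main`.
-/

set_option autoImplicit false

noncomputable section

open CongruenceSubgroup ModularFormClass

namespace Fermat.Agent.LT.Lower

variable {d : ℕ} [NeZero d] {a : ℕ → ℤ}

/-- Removing all the primes of `T`, one bit for each. -/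
theorem exists_lowered (h2 : 2 ∣ d) (ρ : ∀ n, RepData (n + 1) d a) :
    ∀ T : Finset ℕ, (∀ q ∈ T, q.Prime ∧ ¬ q ∣ d ∧ ∀ n, (ρ n).Moved q) →
    ∀ (L : ℕ) [NeZero L], L = d * ∏ q ∈ T, q →
    ∀ m : ℕ, ∀ x ∈ eigTors L (m + T.card + 1) a ∅, 2 ^ (m + T.card) • x ≠ 0 →
      ∃ y ∈ eigTors d (m + 1) a ∅, 2 ^ m • y ≠ 0 := by
  classical
  intro T
  induction T using Finset.induction_on with
  | empty =>
    intro _ L _ hL m x hx hx'
    rw [Finset.prod_empty, mul_one] at hL
    subst hL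
    exact ⟨x, hx, hx'⟩
  | insert q T hq ih =>
    intro hT L _ hL m x hx hx'
    obtain ⟨hqp, hqd, hmov⟩ := hT q (Finset.mem_insert_self q T)
    have hT' : ∀ r ∈ T, r.Prime ∧ ¬ r ∣ d ∧ ∀ n, (ρ n).Moved r := fun r hr =>
      hT r (Finset.mem_insert_of_mem hr)
    rw [Finset.prod_insert hq, mul_left_comm] at hL
    subst hL
    rw [Finset.card_insert_of_notMem hq, ← Nat.add_assoc] at hx hx'
    have : NeZero (d * ∏ r ∈ T, r) :=
      ⟨mul_ne_zero (NeZero.ne d) (Finset.prod_ne_zero_iff.mpr fun r hr => (hT' r hr).1.ne_zero)⟩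
    have hqM : ¬ q ∣ d * ∏ r ∈ T, r := fun h => by
      rcases hqp.dvd_mul.mp h with h | h
      · exact hqd h
      · obtain ⟨r, hr, hqr⟩ := (Prime.dvd_finsetProd_iff hqp.prime id).mp h
        exact hq (((Nat.prime_dvd_prime_iff_eq hqp (hT' r hr).1).mp hqr) ▸ hr)
    obtain ⟨y, hy, hy'⟩ := lower_step hqp hqM (dvd_mul_of_dvd_left h2 _) (NeZero.ne d)
      (fun l _ hl => dvd_mul_of_dvd_left hl _) (Nat.succ_pos _) (ρ (m + T.card + 1)) (hmov _)
      hx hx'
    exact ih hT' _ rfl m y hy hy'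

/-- **The eigenform from the systems.** -/
theorem exists_eigenform_of_systems (h2 : 2 ∣ d) (ρ : ∀ n, RepData (n + 1) d a) (h k : ℕ)
    (hsys : ∀ N, ∃ T : Finset ℕ, T.card ≤ k ∧
      (∀ q ∈ T, q.Prime ∧ ¬ q ∣ d ∧ ∀ n, (ρ n).Moved q) ∧
      ∃ _ : NeZero (d * ∏ q ∈ T, q), Nonempty (System (d * ∏ q ∈ T, q) N h a)) :
    ∃ g : CuspForm (Gamma0 d) 2, g.IsNormalizedEigenform ∧
      ∀ l : ℕ, l.Prime → ¬ l ∣ d → qCoeff g l = (a l : ℂ) := by
  classical
  refine exists_eigenform_of_unbounded fun n => ?_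
  -- each prime of `T` costs one bit, so the class at level `d ∏ T` must not be killed by
  -- `2 ^ (n + #T)`; a system modulo `2 ^ N` gives one not killed by `2 ^ j` for `j h < N`
  obtain ⟨T, hTk, hT, _, ⟨S⟩⟩ := hsys ((n + k) * h + 1)
  obtain ⟨x, hx0, hxT, hxne⟩ := S.exists_torsion
  have hr : 2 ^ (n + T.card) • x ≠ 0 := hxne _ <| Nat.lt_succ_of_le <|
    Nat.mul_le_mul_right h (Nat.add_le_add_left hTk n)
  -- if `2 ^ s` is the exact order of `x`, then `2 ^ i x` has exact order `2 ^ (n + #T + 1)` for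
  -- `i = s - (n + #T + 1)`
  have hex : ∃ s, 2 ^ s • x = 0 := ⟨_, hx0⟩
  obtain ⟨s, hs, hmin⟩ : ∃ s, 2 ^ s • x = 0 ∧ ∀ i < s, 2 ^ i • x ≠ 0 :=
    ⟨Nat.find hex, Nat.find_spec hex, fun _ hi => Nat.find_min hex hi⟩
  have hlt : n + T.card < s := by
    by_contra hle
    refine hr ?_
    obtain ⟨i, hi⟩ : ∃ i, n + T.card = i + s := ⟨n + T.card - s, by omega⟩
    rw [hi, pow_add, mul_smul, hs, smul_zero]
  obtain ⟨i, hi⟩ : ∃ i, s = i + (n + T.card + 1) := ⟨s - (n + T.card + 1), by omega⟩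
  obtain ⟨y, hy, hy'⟩ := exists_lowered h2 ρ T hT _ rfl n (2 ^ i • x)
    ⟨by rw [← mul_smul, ← pow_add, add_comm, ← hi, hs],
      fun l hl hlL _ => by rw [map_nsmul, hxT l hl hlL, smul_comm]⟩
    (by rw [← mul_smul, ← pow_add]; exact hmin _ (by omega))
  exact ⟨y, ⟨n + 1, hy.1⟩, hy', fun l hl hld => hy.2 l hl hld (Finset.notMem_empty l)⟩

end Fermat.Agent.LT.Lower

end
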