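import Fermat.Agent.GaloisReps.Model

/-!
# The data of the level lowering modulo powers of `2`

`RepData n d a` is a residually `S₃` representation modulo `2 ^ n`, unramified away from `2 d`,
with Frobenius traces `a`. `System L N h a` is a reduced Hecke ring at level `L` all of whose
points are eigenforms, with the prescribed values modulo `2 ^ N` and with a local part modulo `2`
of dimension at most `h`.
-/

set_option autoImplicit false

noncomputable section

namespace Fermat.Agent.LT.Lower

open GaloisReps (AbsGal)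

/-- The reduction modulo `2`. -/
def mod2 (n : ℕ) (hn : 0 < n) : ZMod (2 ^ n) →+* ZMod 2 :=
  ZMod.castHom (dvd_pow_self 2 hn.ne') (ZMod 2)

/-- A representation modulo `2 ^ n` with residual image `GL₂(𝔽₂)`. -/
structure RepData (n d : ℕ) (a : ℕ → ℤ) where
  /-- The level is positive. -/
  pos : 0 < n
  /-- The representation. -/
  rep : AbsGal →* Matrix (Fin 2) (Fin 2) (ZMod (2 ^ n))
  exists_level : ∃ K : IntermediateField ℚ (AlgebraicClosure ℚ), FiniteDimensional ℚ K ∧
    ∀ σ : AbsGal, (∀ x ∈ K, σ x = x) → rep σ = 1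
  unram : ∀ l : ℕ, l.Prime → ¬ l ∣ 2 * d →
    ∀ A : ValuationSubring (AlgebraicClosure ℚ), A.LiesOverPrime l →
      ∀ σ ∈ A.inertiaSubgroupIn ℚ, rep σ = 1
  trace_frob : ∀ l : ℕ, l.Prime → ¬ l ∣ 2 * d →
    ∀ A : ValuationSubring (AlgebraicClosure ℚ), A.LiesOverPrime l →
      ∀ σ : AbsGal, A.IsFrobeniusAt σ l → (rep σ).trace = (a l : ZMod (2 ^ n))
  det_frob : ∀ l : ℕ, l.Prime → ¬ l ∣ 2 * d →
    ∀ A : ValuationSubring (AlgebraicClosure ℚ), A.LiesOverPrime l →
      ∀ σ : AbsGal, A.IsFrobeniusAt σ l → (rep σ).det = (l : ZMod (2 ^ n))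
  full : ∀ g : Matrix (Fin 2) (Fin 2) (ZMod 2), IsUnit g.det →
    ∃ σ : AbsGal, (rep σ).map (mod2 n pos) = g

/-- The residual image of the Frobenius elements at `q` is not trivial. -/
def RepData.Moved {n d : ℕ} {a : ℕ → ℤ} (ρ : RepData n d a) (q : ℕ) : Prop :=
  ∀ A : ValuationSubring (AlgebraicClosure ℚ), A.LiesOverPrime q →
    ∀ σ : AbsGal, A.IsFrobeniusAt σ q → (ρ.rep σ).map (mod2 n ρ.pos) ≠ 1

/-- A reduced Hecke ring at level `L` with the prescribed values modulo `2 ^ N`. -/
structure System (L N h : ℕ) [NeZero L] (a : ℕ → ℤ) where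
  /-- The ring. -/
  B : Type
  /-- The ring structure. -/
  [commRing : CommRing B]
  /-- The ring is finite over `ℤ`. -/
  [finite : Module.Finite ℤ B]
  /-- The ring is free over `ℤ`. -/
  [free : Module.Free ℤ B]
  /-- The ring is reduced. -/
  [reduced : IsReduced B]
  /-- The operators. -/
  t : ℕ → B
  /-- The operators at primes not dividing `L` generate the ring. -/
  gen : Algebra.adjoin ℤ (t '' {l | l.Prime ∧ ¬ l ∣ L}) = ⊤
  /-- Every complex point gives the system, at the primes not dividing `L`, of a normalised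
  eigenform of weight `2` and level `L`. -/
  real : ∀ χ : B →+* ℂ, ∃ g : CuspForm (CongruenceSubgroup.Gamma0 L) 2, g.IsNormalizedEigenform ∧
    ∀ l : ℕ, l.Prime → ¬ l ∣ L → ModularFormClass.qCoeff g l = χ (t l)
  /-- The prescribed values. -/
  φ : B →+* ZMod (2 ^ N)
  /-- `φ` takes the prescribed values at the operators of the primes not dividing `L`. -/
  φ_t : ∀ l : ℕ, l.Prime → ¬ l ∣ L → φ (t l) = (a l : ZMod (2 ^ N))
  /-- An element outside the maximal ideal. -/
  e : B
  /-- `φ e` is a unit. -/
  unit : IsUnit (φ e)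
  /-- Modulo `2`, `e` times the ring is spanned by at most `h` elements. -/
  small : ∃ s : Finset B, s.card ≤ h ∧
    ∀ b : B, ∃ y z : B, y ∈ Submodule.span ℤ (s : Set B) ∧ e * b = y + 2 * z

attribute [instance] System.commRing System.finite System.free System.reduced

end Fermat.Agent.LT.Lower

end
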