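import Mathlib.Tactic
import Mathlib.Topology.Compactification.OnePoint.ProjectiveLine

/-!
# Modules over a group with the quadratic relations of a residually `S₃` representation

If `g² - tr(ρ g) g + det(ρ g) = 0` holds on a `ℤ/2ⁿ`-module for all `g`, and `ρ` modulo `2` is all
of `GL₂(𝔽₂)`, then the matrix algebra acts; an element of exact order `2ⁿ` gives an equivariant
copy of `ρ`.
-/

set_option autoImplicit false

noncomputable section

open Matrix

namespace Fermat.Agent.LT.Lower

/-- Two by two matrices over `ℤ/2ⁿ`. -/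
abbrev M2N (n : ℕ) : Type := Matrix (Fin 2) (Fin 2) (ZMod (2 ^ n))

theorem sq_eq_trace_smul {R : Type*} [CommRing R] (X : Matrix (Fin 2) (Fin 2) R) :
    X * X = X.trace • X - X.det • 1 := by
  ext i j
  fin_cases i <;> fin_cases j <;>
    simp [Matrix.mul_apply, Fin.sum_univ_two, Matrix.trace_fin_two, Matrix.det_fin_two] <;> ring

theorem two_pow_eq_zero (n : ℕ) : (2 : ZMod (2 ^ n)) ^ n = 0 := by
  rw [show (2 : ZMod (2 ^ n)) ^ n = ((2 ^ n : ℕ) : ZMod (2 ^ n)) by push_cast; rfl,
    ZMod.natCast_self]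

/-- A module with the quadratic relations of `ρ`. -/
structure QuadModule {n : ℕ} {G : Type*} [Group G] (ρ : G →* M2N n) (W : Type*) [AddCommGroup W]
    [Module (ZMod (2 ^ n)) W] [DistribMulAction G W] : Prop where
  pos : 0 < n
  full : ∀ g : Matrix (Fin 2) (Fin 2) (ZMod 2), IsUnit g.det →
    ∃ σ : G, (ρ σ).map (ZMod.castHom (dvd_pow_self 2 pos.ne') (ZMod 2)) = g
  quad : ∀ (g : G) (w : W), g • g • w - (ρ g).trace • (g • w) + (ρ g).det • w = 0

variable {n : ℕ} {G : Type*} [Group G] {ρ : G →* M2N n} {W : Type*} [AddCommGroup W]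
  [Module (ZMod (2 ^ n)) W] [DistribMulAction G W]

/-- The action of an element as a linear map. -/
def gAct (_ρ : G →* M2N n) (g : G) : Module.End (ZMod (2 ^ n)) W :=
  (DistribSMul.toAddMonoidHom W g).toZModLinearMap (2 ^ n)

variable (ρ W) in
/-- The action as a monoid homomorphism. -/
def gHom : G →* Module.End (ZMod (2 ^ n)) W where
  toFun := gAct ρ
  map_one' := LinearMap.ext fun w => one_smul G w
  map_mul' g h := LinearMap.ext fun w => mul_smul g h w

theorem gHom_apply (g : G) (w : W) : gHom ρ W g w = g • w := rfl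

variable (ρ W) in
/-- The group ring acting on the module. -/
def actW : MonoidAlgebra (ZMod (2 ^ n)) G →ₐ[ZMod (2 ^ n)] Module.End (ZMod (2 ^ n)) W :=
  MonoidAlgebra.lift _ _ G (gHom ρ W)

variable (ρ) in
/-- The group ring acting on `(ℤ/2ⁿ)²`. -/
def actM : MonoidAlgebra (ZMod (2 ^ n)) G →ₐ[ZMod (2 ^ n)] M2N n :=
  MonoidAlgebra.lift _ _ G ρ

theorem actW_of (g : G) : actW ρ W (MonoidAlgebra.of _ G g) = gHom ρ W g :=
  MonoidAlgebra.lift_of _ g

theorem actM_of (g : G) : actM ρ (MonoidAlgebra.of _ G g) = ρ g :=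
  MonoidAlgebra.lift_of _ g

variable (hW : QuadModule ρ W)
include hW

/-- The conjugate `τ - g` inverts `g` up to the determinant. -/
theorem QuadModule.mul_conj (g : G) :
    gHom ρ W g * ((ρ g).trace • 1 - gHom ρ W g) = (ρ g).det • 1 := by
  refine LinearMap.ext fun w => ?_
  have hq := hW.quad g w
  simp only [Module.End.mul_apply, LinearMap.sub_apply, LinearMap.smul_apply, Module.End.one_apply,
    map_sub, map_smul, gHom_apply]
  rw [← sub_eq_zero, ← neg_eq_zero, ← hq]
  abel

theorem QuadModule.conj_eq (g : G) :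
    (ρ g).trace • 1 - gHom ρ W g = (ρ g).det • gHom ρ W g⁻¹ := by
  have h := congrArg (gHom ρ W g⁻¹ * ·) (hW.mul_conj g)
  simpa [← mul_assoc, ← map_mul] using h

/-- The conjugation is antimultiplicative. -/
theorem QuadModule.conj_mul (g h : G) :
    (ρ (g * h)).trace • 1 - gHom ρ W (g * h) =
      ((ρ h).trace • 1 - gHom ρ W h) * ((ρ g).trace • 1 - gHom ρ W g) := by
  rw [hW.conj_eq, hW.conj_eq g, hW.conj_eq h, smul_mul_smul_comm, ← map_mul (gHom ρ W),
    ← _root_.mul_inv_rev, map_mul ρ, Matrix.det_mul, mul_comm]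

theorem QuadModule.anticomm (g h : G) :
    gHom ρ W g * gHom ρ W h + gHom ρ W h * gHom ρ W g =
      (ρ h).trace • gHom ρ W g + (ρ g).trace • gHom ρ W h +
        ((ρ (g * h)).trace - (ρ g).trace * (ρ h).trace) • 1 := by
  have key := hW.conj_mul g h
  rw [map_mul (gHom ρ W), sub_mul, mul_sub, mul_sub, smul_mul_smul_comm, one_mul, smul_mul_assoc,
    one_mul, mul_smul_comm, mul_one] at key
  linear_combination (norm := module) -key

theorem QuadModule.mul_of_ker {X : MonoidAlgebra (ZMod (2 ^ n)) G} (hX : actM ρ X = 0) (h : G) :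
    actW ρ W X * gHom ρ W h = ((ρ h).trace • 1 - gHom ρ W h) * actW ρ W X := by
  -- the linear extension of the anticommutation relation
  have key : ∀ Y : MonoidAlgebra (ZMod (2 ^ n)) G,
      actW ρ W Y * gHom ρ W h + gHom ρ W h * actW ρ W Y =
        (ρ h).trace • actW ρ W Y + (actM ρ Y).trace • gHom ρ W h +
          ((actM ρ Y * ρ h).trace - (actM ρ Y).trace * (ρ h).trace) • 1 := by
    intro Y
    induction Y using MonoidAlgebra.induction_on with
    | of g => rw [actW_of, actM_of, ← map_mul ρ]; exact hW.anticomm g h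
    | add Y Z hY hZ =>
      simp only [map_add, add_mul, mul_add, Matrix.trace_add, add_smul, smul_add, sub_smul]
      linear_combination (norm := module) hY + hZ
    | smul c Y hY =>
      simp only [map_smul, smul_mul_assoc, mul_smul_comm, Matrix.trace_smul, smul_eq_mul,
        ← smul_add]
      rw [hY]
      module
  have h1 := key X
  rw [hX, zero_mul, Matrix.trace_zero, zero_smul, zero_mul, sub_self, zero_smul, add_zero,
    add_zero] at h1
  rw [sub_mul, smul_mul_assoc, one_mul, ← h1, add_sub_cancel_right]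

theorem QuadModule.commutator_mul_of_ker {X : MonoidAlgebra (ZMod (2 ^ n)) G}
    (hX : actM ρ X = 0) (g h : G) :
    (gHom ρ W g * gHom ρ W h - gHom ρ W h * gHom ρ W g) * actW ρ W X = 0 := by
  have e1 := hW.mul_of_ker hX (g * h)
  rw [hW.conj_mul g h, map_mul (gHom ρ W), ← mul_assoc, hW.mul_of_ker hX g, mul_assoc,
    hW.mul_of_ker hX h, ← mul_assoc, ← sub_eq_zero, ← sub_mul] at e1
  refine Eq.trans ?_ e1
  congr 1
  simp only [sub_mul, mul_sub, smul_mul_assoc, mul_smul_comm, one_mul, mul_one]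
  module

/-- The group ring relations of `ρ` hold on the module. -/
theorem QuadModule.ker_le {X : MonoidAlgebra (ZMod (2 ^ n)) G} (hX : actM ρ X = 0) :
    actW ρ W X = 0 := by
  obtain ⟨a, ha⟩ := hW.full !![0, 1; 1, 0] (by simp [Matrix.det_fin_two])
  obtain ⟨b, hb⟩ := hW.full !![1, 1; 0, 1] (by simp [Matrix.det_fin_two])
  let c₂ := ZMod.castHom (dvd_pow_self 2 hW.pos.ne') (ZMod 2)
  let r : G →* Matrix (Fin 2) (Fin 2) (ZMod 2) := c₂.mapMatrix.toMonoidHom.comp ρ
  -- the commutator `k` of lifts of two involutions: residually of order three, so its determinant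
  -- is `1` and its trace `t` is odd; hence `(k - (t - 1)) (k - 1) = t - 2` is a unit on the module
  set k := a * b * a⁻¹ * b⁻¹ with hk
  have hdet : (ρ k).det = 1 := by
    have h1 : ∀ g : G, (ρ g⁻¹).det * (ρ g).det = 1 := fun g => by
      rw [← Matrix.det_mul, ← map_mul, inv_mul_cancel, map_one, Matrix.det_one]
    rw [hk, map_mul, map_mul, map_mul, Matrix.det_mul, Matrix.det_mul, Matrix.det_mul]
    linear_combination ((ρ b).det * (ρ b⁻¹).det) * h1 a + h1 b
  have hrinv : ∀ g : G, r g * r g = 1 → r g⁻¹ = r g := fun g hg => by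
    have h1 : r g⁻¹ * r g = 1 := by rw [← map_mul, inv_mul_cancel, map_one]
    calc r g⁻¹ = r g⁻¹ * (r g * r g) := by rw [hg, mul_one]
      _ = r g := by rw [← mul_assoc, h1, one_mul]
  have htr : c₂ (ρ k).trace = 1 := by
    have hra : r a = !![0, 1; 1, 0] := ha
    have hrb : r b = !![1, 1; 0, 1] := hb
    rw [show c₂ (ρ k).trace = (r k).trace from AddMonoidHom.map_trace c₂.toAddMonoidHom _, hk,
      map_mul, map_mul, map_mul, hrinv a (by rw [hra]; decide), hrinv b (by rw [hrb]; decide),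
      hra, hrb]
    decide
  have hu : IsUnit ((ρ k).trace - 2) := by
    obtain ⟨t, ht⟩ := ZMod.intCast_surjective (ρ k).trace
    rw [← ht, map_intCast, ZMod.intCast_eq_one_iff_odd] at htr
    obtain ⟨w, hw⟩ := htr
    have hn : IsNilpotent (2 * ((w - 1 : ℤ) : ZMod (2 ^ n))) :=
      ⟨n, by rw [mul_pow, two_pow_eq_zero, zero_mul]⟩
    rw [← ht, hw, show ((2 * w + 1 : ℤ) : ZMod (2 ^ n)) - 2 =
      2 * ((w - 1 : ℤ) : ZMod (2 ^ n)) + 1 by push_cast; ring]
    rw [add_comm]
    exact hn.isUnit_add_left_of_commute isUnit_one (Commute.all _ _)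
  have hq : gHom ρ W k * gHom ρ W k = (ρ k).trace • gHom ρ W k - (1 : Module.End _ W) := by
    have h1 := hW.mul_conj k
    rw [hdet, one_smul, mul_sub, mul_smul_comm, mul_one] at h1
    rw [← h1, sub_sub_cancel]
  -- `k - 1` has a left inverse
  have hinj : ∀ Y : Module.End (ZMod (2 ^ n)) W, (gHom ρ W k - 1) * Y = 0 → Y = 0 := by
    intro Y hY
    have h1 : (gHom ρ W k - ((ρ k).trace - 1) • 1) * (gHom ρ W k - 1) =
        ((ρ k).trace - 2) • (1 : Module.End (ZMod (2 ^ n)) W) := by
      simp only [sub_mul, mul_sub, smul_mul_assoc, one_mul, mul_one, hq]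
      module
    have h2 : ((ρ k).trace - 2) • Y = 0 := by
      rw [← one_mul Y, ← smul_mul_assoc, ← h1, mul_assoc, hY, mul_zero]
    exact hu.smul_eq_zero.mp h2
  -- the commutator of `a` and `b`, which kills `X`, is `(k - 1) b a`
  have hbaX : gHom ρ W (b * a) * actW ρ W X = 0 := by
    refine hinj _ ?_
    rw [← mul_assoc, sub_mul, ← map_mul, one_mul, show k * (b * a) = a * b by rw [hk]; group,
      map_mul, map_mul]
    exact hW.commutator_mul_of_ker hX a b
  have := congrArg (gHom ρ W (b * a)⁻¹ * ·) hbaX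
  simpa [← mul_assoc, ← map_mul] using this

omit hW in
theorem eq_top_of_mod_two {S : Submodule (ZMod (2 ^ n)) (M2N n)}
    (h : ∀ X, ∃ s ∈ S, ∃ Y, X = s + (2 : ZMod (2 ^ n)) • Y) : S = ⊤ := by
  refine eq_top_iff.mpr fun X _ => ?_
  have key : ∀ k, ∀ X : M2N n, ∃ s ∈ S, ∃ Y, X = s + (2 : ZMod (2 ^ n)) ^ k • Y := by
    intro k
    induction k with
    | zero => exact fun X => ⟨0, S.zero_mem, X, by simp⟩
    | succ k ih =>
      intro X
      obtain ⟨s, hs, Y, rfl⟩ := ih X
      obtain ⟨s', hs', Y', rfl⟩ := h Y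
      exact ⟨s + (2 : ZMod (2 ^ n)) ^ k • s', S.add_mem hs (S.smul_mem _ hs'), Y', by
        rw [smul_add, smul_smul, ← pow_succ, add_assoc]⟩
  obtain ⟨s, hs, Y, rfl⟩ := key n X
  rwa [two_pow_eq_zero, zero_smul, add_zero]

theorem QuadModule.actM_surjective : Function.Surjective (actM ρ) := by
  let c₂ := ZMod.castHom (dvd_pow_self 2 hW.pos.ne') (ZMod 2)
  suffices h : LinearMap.range (actM ρ).toLinearMap = ⊤ from LinearMap.range_eq_top.mp h
  refine eq_top_of_mod_two fun X => ?_
  choose g hg using hW.full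
  have hexp : ∀ Y : Matrix (Fin 2) (Fin 2) (ZMod 2), ∃ p q : Matrix (Fin 2) (Fin 2) (ZMod 2),
      (IsUnit p.det ∨ p = 0) ∧ (IsUnit q.det ∨ q = 0) ∧ p + q = Y := by
    intro Y
    have hsimp : ∀ Z : Matrix (Fin 2) (Fin 2) (ZMod 2), IsUnit Z.det ↔ Z.det = 1 := fun Z => by
      generalize Z.det = z
      revert z
      decide
    simp only [hsimp]
    simp only [Matrix.det_fin_two]
    revert Y
    decide
  obtain ⟨p, q, hp, hq, hpq⟩ := hexp (X.map c₂)
  have hmem : ∀ p : Matrix (Fin 2) (Fin 2) (ZMod 2), IsUnit p.det ∨ p = 0 →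
      ∃ s ∈ LinearMap.range (actM ρ).toLinearMap, c₂.mapMatrix s = p := by
    rintro p (hp | rfl)
    · exact ⟨ρ (g p hp), ⟨MonoidAlgebra.of _ G (g p hp), actM_of _⟩, hg p hp⟩
    · exact ⟨0, Submodule.zero_mem _, map_zero _⟩
  obtain ⟨s, hs, hsp⟩ := hmem p hp
  obtain ⟨t, ht, htq⟩ := hmem q hq
  refine ⟨s + t, Submodule.add_mem _ hs ht, ?_⟩
  have h0 : c₂.mapMatrix (X - (s + t)) = 0 := by
    rw [map_sub, map_add, hsp, htq, hpq, RingHom.mapMatrix_apply, sub_self]
  have hex : ∀ i j, ∃ y : ZMod (2 ^ n), (X - (s + t)) i j = 2 * y := fun i j => by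
    have h1 : c₂ ((X - (s + t)) i j) = 0 := congrFun (congrFun h0 i) j
    obtain ⟨z, hz⟩ := ZMod.intCast_surjective ((X - (s + t)) i j)
    rw [← hz, map_intCast, ZMod.intCast_zmod_eq_zero_iff_dvd] at h1
    obtain ⟨w, hw⟩ := h1
    exact ⟨(w : ℤ), by rw [← hz, hw]; push_cast; rfl⟩
  choose Y hY using hex
  refine ⟨Matrix.of Y, eq_add_of_sub_eq' (Matrix.ext fun i j => ?_)⟩
  rw [hY, Matrix.smul_apply, Matrix.of_apply, smul_eq_mul]

/-- The matrix algebra acts. -/
theorem QuadModule.exists_algHom :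
    ∃ Φ : M2N n →ₐ[ZMod (2 ^ n)] Module.End (ZMod (2 ^ n)) W, ∀ g, Φ (ρ g) = gHom ρ W g := by
  have hs := hW.actM_surjective
  choose inv hinv using hs
  have key : ∀ X, actW ρ W (inv (actM ρ X)) = actW ρ W X := fun X => by
    rw [← sub_eq_zero, ← map_sub]
    exact hW.ker_le (by rw [map_sub, hinv, sub_self])
  have hmul : ∀ X Y, actW ρ W (inv (X * Y)) = actW ρ W (inv X) * actW ρ W (inv Y) := fun X Y => by
    rw [← map_mul, ← key (inv X * inv Y), map_mul (actM ρ), hinv, hinv]
  let f : M2N n →ₗ[ZMod (2 ^ n)] Module.End (ZMod (2 ^ n)) W :=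
    { toFun := fun X => actW ρ W (inv X)
      map_add' := fun X Y => by rw [← map_add, ← key (inv X + inv Y), map_add, hinv, hinv]
      map_smul' := fun c X => by
        rw [RingHom.id_apply, ← map_smul, ← key (c • inv X), map_smul, hinv] }
  refine ⟨AlgHom.ofLinearMap f ?_ hmul, fun g => ?_⟩
  · show actW ρ W (inv 1) = 1
    rw [← map_one (actM ρ), key, map_one]
  · show actW ρ W (inv (ρ g)) = _
    rw [← actM_of, key, actW_of]

/-- Elements where `ρ` is trivial fix the module. -/
theorem QuadModule.smul_eq_of_rep {g : G} (hg : ρ g = 1) (w : W) : g • w = w := by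
  obtain ⟨Φ, hΦ⟩ := hW.exists_algHom
  rw [← gHom_apply (ρ := ρ), ← hΦ, hg, map_one, Module.End.one_apply]

/-- **An element of exact order `2ⁿ` gives an equivariant copy of `ρ`.** -/
theorem QuadModule.exists_embedding {x : W} (hx : 2 ^ (n - 1) • x ≠ 0) :
    ∃ j : (Fin 2 → ZMod (2 ^ n)) →ₗ[ZMod (2 ^ n)] W,
      Function.Injective j ∧ ∀ g v, j (ρ g *ᵥ v) = g • j v := by
  obtain ⟨Φ, hΦ⟩ := hW.exists_algHom
  let E : Fin 2 → Fin 2 → M2N n := fun i k => Matrix.single i k 1
  -- some `e₀₀ y` has exact order `2 ^ n`, as `x` does; the embedding sends `v` to the image of `y`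
  -- under the matrix with columns `v` and `0`
  obtain ⟨y, hy⟩ : ∃ y, 2 ^ (n - 1) • Φ (E 0 0) y ≠ 0 := by
    by_contra! hall
    refine hx ?_
    have h1 : (1 : M2N n) = E 0 0 + E 1 0 * E 0 0 * E 0 1 := by
      ext i k; fin_cases i <;> fin_cases k <;> simp [E]
    rw [← Module.End.one_apply (R := ZMod (2 ^ n)) x, ← map_one Φ, h1, map_add, map_mul, map_mul,
      LinearMap.add_apply, Module.End.mul_apply, Module.End.mul_apply, nsmul_add, hall, zero_add,
      ← map_nsmul, hall, map_zero]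
  let col : (Fin 2 → ZMod (2 ^ n)) →ₗ[ZMod (2 ^ n)] M2N n :=
    { toFun := fun v => Matrix.of fun i k => if k = 0 then v i else 0
      map_add' := fun v w => by ext i k; by_cases hk : k = 0 <;> simp [hk]
      map_smul' := fun c v => by ext i k; by_cases hk : k = 0 <;> simp [hk] }
  have hcol : ∀ (M : M2N n) v, col (M *ᵥ v) = M * col v := fun M v => by
    ext i k
    fin_cases i <;> fin_cases k <;>
      simp [col, Matrix.mul_apply, Fin.sum_univ_two]
  refine ⟨(LinearMap.applyₗ y).comp (Φ.toLinearMap.comp col), ?_, fun g v => ?_⟩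
  · rw [injective_iff_map_eq_zero]
    intro v hv
    have hv' : Φ (col v) y = 0 := hv
    funext i
    have h1 : E 0 i * col v = v i • E 0 0 := by
      ext k l
      fin_cases i <;> fin_cases k <;> fin_cases l <;>
        simp [E, col, Matrix.mul_apply, Fin.sum_univ_two]
    have h2 : v i • Φ (E 0 0) y = 0 := by
      rw [← LinearMap.smul_apply, ← map_smul, ← h1, map_mul, Module.End.mul_apply, hv', map_zero]
    -- a scalar killing an element of exact order is zero: if it is `2 ^ s u` with `u` odd and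
    -- `s < n`, then `2 ^ (n - 1)` kills the element
    by_contra hne
    simp only [Pi.zero_apply] at hne
    have : NeZero (2 ^ n) := ⟨pow_ne_zero n two_ne_zero⟩
    obtain ⟨s, u, hu, hsu⟩ : ∃ (s u : ℕ), Odd u ∧ (v i).val = 2 ^ s * u := by
      refine Nat.exists_eq_two_pow_mul_odd (fun h0 => hne ?_)
      exact (ZMod.val_eq_zero (v i)).mp h0
    have hs : s < n := by
      by_contra hle
      have hlt := ZMod.val_lt (v i)
      rw [hsu] at hlt
      have h3 : 2 ^ n ≤ 2 ^ s := Nat.pow_le_pow_right two_pos (not_lt.mp hle)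
      have h4 : 2 ^ s * 1 ≤ 2 ^ s * u := Nat.mul_le_mul_left _ hu.pos
      omega
    have hvi : v i = (2 : ZMod (2 ^ n)) ^ s * u := by
      rw [← ZMod.natCast_zmod_val (v i), hsu]; push_cast; rfl
    have huu : IsUnit (u : ZMod (2 ^ n)) :=
      (ZMod.isUnit_iff_coprime _ _).mpr (Nat.Coprime.pow_right n (Nat.coprime_two_right.mpr hu))
    rw [hvi, mul_comm, mul_smul, huu.smul_eq_zero] at h2
    refine hy ?_
    rw [← Nat.cast_smul_eq_nsmul (ZMod (2 ^ n)), show n - 1 = (n - 1 - s) + s by omega, pow_add,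
      Nat.cast_mul, mul_smul]
    push_cast
    rw [h2, smul_zero]
  · show Φ (col (ρ g *ᵥ v)) y = g • Φ (col v) y
    rw [hcol, map_mul, Module.End.mul_apply, hΦ, gHom_apply]

end Fermat.Agent.LT.Lower

end
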