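import Fermat.Agent.LT.Lower.Defs
import Fermat.Agent.LT.Lower.Matrix2
import Fermat.Agent.GaloisReps.Models
import Fermat.Agent.GaloisReps.Matching

/-!
# Eigen torsion classes satisfy the relations of the representation

At a level divisible by `2` and by the primes of `d`, on the classes killed by `2 ^ n` on which the
`T_l` act by the prescribed values, every Galois element satisfies the quadratic relation of the
representation, by density of Frobenius elements.
A class of exact order `2 ^ n` then gives a copy of the representation, on which `T_l` acts by the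
prescribed value at every prime not dividing the level.
-/

set_option autoImplicit false

noncomputable section

open AlgebraicCurve ModularCurve Matrix

namespace Fermat.Agent.LT.Lower

open GaloisReps (AbsGal powerTrace)

variable {L n d : ℕ} [NeZero L] {a : ℕ → ℤ}

variable (L n a) in
/-- The classes killed by `2 ^ n` on which `T_l` is `a l` at the primes outside `S` and the
level. -/
def eigTors (S : Finset ℕ) : AddSubgroup (JZero L) where
  carrier := {y | 2 ^ n • y = 0 ∧
    ∀ l (hl : l.Prime), ¬ l ∣ L → l ∉ S → heckeOperatorBar L ⟨l, hl⟩ y = a l • y}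
  add_mem' := fun {x y} hx hy => ⟨by rw [nsmul_add, hx.1, hy.1, add_zero],
    fun l hl h h' => by rw [map_add, hx.2 l hl h h', hy.2 l hl h h', zsmul_add]⟩
  zero_mem' := ⟨smul_zero _, fun l _ _ _ => by rw [map_zero, smul_zero]⟩
  neg_mem' := fun {x} hx => ⟨by
      rw [show (2 ^ n : ℕ) • (-x) = -((2 ^ n : ℕ) • x) from
          map_neg (nsmulAddMonoidHom (2 ^ n : ℕ)) x, hx.1, neg_zero],
    fun l hl h h' => by
      rw [map_neg, hx.2 l hl h h', show a l • -x = -(a l • x) from
        map_neg (zsmulAddGroupHom (a l)) x]⟩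

theorem smul_mem_eigTors {S : Finset ℕ} (g : AbsGal) {y : JZero L} (hy : y ∈ eigTors L n a S) :
    g • y ∈ eigTors L n a S := by
  refine ⟨?_, fun l hl h h' => ?_⟩
  · refine (map_nsmul (DistribSMul.toAddMonoidHom (JZero L) g) (2 ^ n) y).symm.trans ?_
    rw [hy.1, map_zero]
  · refine (GaloisReps.galois_heckeOperatorBar L ⟨l, hl⟩ g y).symm.trans ?_
    rw [hy.2 l hl h h']
    exact map_zsmul (DistribSMul.toAddMonoidHom (JZero L) g) (a l) y

instance instModuleEigTors (S : Finset ℕ) : Module (ZMod (2 ^ n)) (eigTors L n a S) :=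
  AddCommGroup.zmodModule fun x => Subtype.ext (by
    rw [AddSubgroupClass.coe_nsmul]; exact x.2.1)

instance instGaloisEigTors (S : Finset ℕ) : DistribMulAction AbsGal (eigTors L n a S) where
  smul g x := ⟨g • (x : JZero L), smul_mem_eigTors g x.2⟩
  one_smul x := Subtype.ext (one_smul AbsGal (x : JZero L))
  mul_smul g h x := Subtype.ext (mul_smul g h (x : JZero L))
  smul_zero g := Subtype.ext (smul_zero g)
  smul_add g x y := Subtype.ext (smul_add g (x : JZero L) y)

theorem coe_smul_eigTors {S : Finset ℕ} (g : AbsGal) (x : eigTors L n a S) :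
    ((g • x : eigTors L n a S) : JZero L) = g • (x : JZero L) := rfl

theorem coe_intCast_smul {S : Finset ℕ} (k : ℤ) (x : eigTors L n a S) :
    (((k : ZMod (2 ^ n)) • x : eigTors L n a S) : JZero L) = k • (x : JZero L) := by
  rw [Int.cast_smul_eq_zsmul, AddSubgroupClass.coe_zsmul]

/-- The trace of a power. -/
theorem trace_pow_eq {R : Type*} [CommRing R] (X : Matrix (Fin 2) (Fin 2) R) {l : ℕ}
    (hdet : X.det = (l : R)) (i : ℕ) : (X ^ i).trace = powerTrace X.trace (l : R) i := by
  induction i using Nat.twoStepInduction with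
  | zero => simp [powerTrace, Matrix.trace_one]
  | one => simp [powerTrace]
  | more i h1 h2 =>
    rw [show X ^ (i + 2) = (X * X) * X ^ i by rw [← pow_two, ← pow_add, add_comm],
      sq_eq_trace_smul, sub_mul, smul_mul_assoc, smul_mul_assoc, one_mul, ← pow_succ',
      Matrix.trace_sub, Matrix.trace_smul, Matrix.trace_smul, h1, h2, hdet, powerTrace,
      smul_eq_mul, smul_eq_mul]

theorem exists_fix_eigTors {S : Finset ℕ} (x : eigTors L n a S) :
    ∃ K : IntermediateField ℚ (AlgebraicClosure ℚ), FiniteDimensional ℚ K ∧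
      ∀ σ : AbsGal, (∀ z ∈ K, σ z = z) → σ • x = x := by
  have : NeZero (2 ^ n) := ⟨pow_ne_zero n two_ne_zero⟩
  obtain ⟨K, hK, hfix⟩ := GaloisReps.exists_fixing_torsion L (m := 2 ^ n)
    ⟨(x : JZero L), Pic0.mem_torsion.mpr (by rw [natCast_zsmul]; exact x.2.1)⟩
  exact ⟨K, hK, fun σ hσ => Subtype.ext (hfix σ hσ)⟩

theorem frobenius_rel {S : Finset ℕ} {l : ℕ} (hl : l.Prime) (hlL2 : ¬ l ∣ L * 2)
    {A : ValuationSubring (AlgebraicClosure ℚ)} (hA : A.LiesOverPrime l) {σ : AbsGal}
    (hσ : A.IsFrobeniusAt σ l) {y : JZero L} (hy : y ∈ eigTors L n a S) :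
    σ • σ • y - heckeOperatorBar L ⟨l, hl⟩ (σ • y) + l • y = 0 := by
  have := Fact.mk Nat.prime_two
  exact (GaloisReps.eichlerShimuraCongruence L 2 l hl hlL2 A hA n
    ⟨y, Pic0.mem_torsion.mpr (by rw [natCast_zsmul]; exact hy.1)⟩).2 σ hσ

variable (ρ : RepData n d a)

/-- **The eigen classes satisfy the quadratic relations of the representation.** -/
theorem quadModule_eigTors (h2L : 2 ∣ L) (hdL : ∀ l : ℕ, l.Prime → l ∣ d → l ∣ L) (S : Finset ℕ) :
    QuadModule ρ.rep (eigTors L n a S) where
  pos := ρ.pos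
  full := ρ.full
  quad g w := by
    classical
    obtain ⟨K₁, hK₁, h₁⟩ := exists_fix_eigTors w
    obtain ⟨K₂, hK₂, h₂⟩ := exists_fix_eigTors (g • w)
    obtain ⟨K₃, hK₃, h₃⟩ := ρ.exists_level
    -- By Chebotarev `g` acts on `w`, `g w` and in `ρ` as a power of a Frobenius at a good prime.
    obtain ⟨l, hl, hlS, A, hA, σ, hσ, i, hi⟩ :=
      GaloisReps.frobeniusDensity (K₁ ⊔ K₂ ⊔ K₃) inferInstance g (S ∪ L.primeFactors)
    rw [Finset.mem_union, not_or] at hlS
    have hlL : ¬ l ∣ L := fun h => hlS.2 (Nat.mem_primeFactors.mpr ⟨hl, h, NeZero.ne L⟩)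
    have hl2 : ¬ l ∣ 2 := fun h => hlL (h.trans h2L)
    have hl2d : ¬ l ∣ 2 * d := fun h =>
      (hl.dvd_mul.mp h).elim hl2 fun h => hlL (hdL l hl h)
    have hlL2 : ¬ l ∣ L * 2 := fun h => (hl.dvd_mul.mp h).elim hlL hl2
    have hfix := GaloisReps.inv_mul_fixes (fun x hx => (hi x hx).symm)
    have hgw : g • w = σ ^ i • w := by
      have h := h₁ _ fun x hx => hfix x ((le_sup_left : K₁ ≤ K₁ ⊔ K₂).trans le_sup_left hx)
      conv_rhs => rw [← h]
      rw [smul_smul, mul_inv_cancel_left]
    have hggw : g • g • w = σ ^ i • g • w := by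
      have h := h₂ _ fun x hx => hfix x ((le_sup_right : K₂ ≤ K₁ ⊔ K₂).trans le_sup_left hx)
      conv_rhs => rw [← h]
      rw [smul_smul (σ ^ i), mul_inv_cancel_left]
    have hrep : ρ.rep g = ρ.rep σ ^ i := by
      have h := h₃ _ fun x hx => hfix x (le_sup_right (a := K₁ ⊔ K₂) hx)
      rw [← mul_inv_cancel_left (σ ^ i) g, map_mul, h, mul_one, map_pow]
    let G0 : Module.End (ZMod (2 ^ n)) (eigTors L n a S) := gHom ρ.rep _ σ
    let f := algebraMap (ZMod (2 ^ n)) (Module.End (ZMod (2 ^ n)) (eigTors L n a S))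
    -- The Eichler–Shimura relation for that Frobenius, raised to its power.
    have hq : G0 * G0 - f (a l : ZMod (2 ^ n)) * G0 + (l : Module.End _ _) = 0 := by
      refine LinearMap.ext fun y => Subtype.ext ?_
      have hc := frobenius_rel hl hlL2 hA hσ y.2
      rw [(smul_mem_eigTors σ y.2).2 l hl hlL hlS.1] at hc
      simp only [LinearMap.add_apply, LinearMap.sub_apply, Module.End.mul_apply, f,
        Module.algebraMap_end_apply, Module.End.natCast_apply, AddSubgroup.coe_add,
        AddSubgroupClass.coe_sub, coe_intCast_smul, AddSubgroupClass.coe_nsmul,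
        LinearMap.zero_apply, ZeroMemClass.coe_zero]
      exact hc
    have h3 := GaloisReps.pow_quadratic (Algebra.commutes (a l : ZMod (2 ^ n)) G0) l hq i
    simp only [← map_natCast f l] at h3
    rw [← GaloisReps.map_powerTrace f] at h3
    have h4 := LinearMap.congr_fun h3 w
    simp only [LinearMap.add_apply, LinearMap.sub_apply, Module.End.mul_apply, G0, f, ← map_pow,
      gHom_apply, Module.algebraMap_end_apply, Module.End.natCast_apply, LinearMap.zero_apply] at h4
    -- Compare with the trace and determinant of `ρ g`.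
    have hd : (ρ.rep g).det = ((l ^ i : ℕ) : ZMod (2 ^ n)) := by
      rw [hrep, Matrix.det_pow, ρ.det_frob l hl hl2d A hA σ hσ, Nat.cast_pow]
    have ht : (ρ.rep g).trace = powerTrace (a l : ZMod (2 ^ n)) (l : ZMod (2 ^ n)) i := by
      rw [hrep, trace_pow_eq _ (ρ.det_frob l hl hl2d A hA σ hσ),
        ρ.trace_frob l hl hl2d A hA σ hσ]
    simp only [hd, ht, Nat.cast_smul_eq_nsmul]
    refine Eq.trans ?_ h4
    refine congrArg₂ (· + ·) (congrArg₂ (· - ·) ?_ ?_) rfl
    · exact hggw.trans (congrArg (fun v : eigTors L n a S => (σ ^ i) • v) hgw)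
    · exact congrArg _ hgw

/-- A class of exact order `2 ^ n` which is eigen outside `S` gives one which is eigen at every
prime not dividing the level. -/
theorem exists_eigTors_full (h2L : 2 ∣ L) (hdL : ∀ l : ℕ, l.Prime → l ∣ d → l ∣ L)
    {S : Finset ℕ} {y : JZero L} (hy : y ∈ eigTors L n a S) (hy' : 2 ^ (n - 1) • y ≠ 0)
    (ρ : RepData n d a) :
    ∃ x ∈ eigTors L n a ∅, 2 ^ (n - 1) • x ≠ 0 := by
  classical
  -- The classes contain a copy of the plane of `ρ`.
  have hQ : QuadModule ρ.rep (eigTors L n a S) := quadModule_eigTors ρ h2L hdL S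
  have hyne : 2 ^ (n - 1) • (⟨y, hy⟩ : eigTors L n a S) ≠ 0 := fun h => hy'
    ((AddSubgroupClass.coe_nsmul (⟨y, hy⟩ : eigTors L n a S) (2 ^ (n - 1))).symm.trans
      (congrArg Subtype.val h))
  obtain ⟨j, hj, hjg⟩ := hQ.exists_embedding hyne
  have hn := ρ.pos
  let v : Fin 2 → ZMod (2 ^ n) := Pi.single 0 1
  refine ⟨(j v : JZero L), ⟨(j v).2.1, fun l hl hlL _ => ?_⟩, fun h => ?_⟩
  · obtain ⟨A, hA⟩ := Arith.exists_liesOverPrime hl
    have := Fact.mk hl
    obtain ⟨σ, hσ⟩ := Arith.exists_isFrobeniusAt hA hl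
    have hl2 : ¬ l ∣ 2 := fun h => hlL (h.trans h2L)
    have hl2d : ¬ l ∣ 2 * d := fun h =>
      (hl.dvd_mul.mp h).elim hl2 fun h => hlL (hdL l hl h)
    have hlL2 : ¬ l ∣ L * 2 := fun h => (hl.dvd_mul.mp h).elim hlL hl2
    set u := ρ.rep σ⁻¹ *ᵥ v with hu
    -- On it Frobenius at `l` satisfies its characteristic polynomial; compare with Eichler–Shimura.
    have hσu : σ • j u = j v := by
      rw [hu, ← hjg, mulVec_mulVec, ← map_mul, mul_inv_cancel, map_one, one_mulVec]
    have hc := frobenius_rel hl hlL2 hA hσ (j u).2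
    have hrel : σ • σ • j u - (a l : ZMod (2 ^ n)) • σ • j u + (l : ZMod (2 ^ n)) • j u = 0 := by
      simp only [← hjg, ← map_smul, ← map_sub, ← map_add]
      rw [mulVec_mulVec,
        sq_eq_trace_smul, ρ.trace_frob l hl hl2d A hA σ hσ, ρ.det_frob l hl hl2d A hA σ hσ,
        sub_mulVec, smul_mulVec, smul_mulVec, one_mulVec, sub_sub_cancel_left, neg_add_cancel,
        map_zero]
    have h5 := congrArg Subtype.val hrel
    simp only [Nat.cast_smul_eq_nsmul, AddSubgroup.coe_add, AddSubgroupClass.coe_sub,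
      coe_intCast_smul, AddSubgroupClass.coe_nsmul, coe_smul_eigTors, ZeroMemClass.coe_zero] at h5
    rw [← hc] at h5
    have h6 := sub_right_inj.mp (add_right_cancel h5)
    rw [← coe_smul_eigTors, hσu] at h6
    exact h6.symm
  -- Its first basis vector has exact order `2 ^ n`.
  · have h1 : j ((2 ^ (n - 1) : ℕ) • v) = 0 := by
      rw [map_nsmul]
      exact Subtype.ext (by rw [AddSubgroupClass.coe_nsmul]; exact h)
    have h2 := congrFun (hj (h1.trans (map_zero j).symm)) 0
    simp only [v, Pi.smul_apply, Pi.single_eq_same, nsmul_one, Pi.zero_apply] at h2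
    have h3 := Nat.le_of_dvd (by positivity) ((ZMod.natCast_eq_zero_iff _ _).mp h2)
    have h4 : 2 ^ (n - 1) < 2 ^ n := Nat.pow_lt_pow_right one_lt_two (by omega)
    omega

end Fermat.Agent.LT.Lower

end
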