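import Fermat.Agent.LT.Lower.LatticeVec

/-!
# An eigenvector modulo `2 ^ N` of large order

If the quotient `B` has prescribed values modulo `2 ^ N` and its local part modulo `2` has
dimension at most `h`, then there is an eigenvector modulo `2 ^ N` with the prescribed values,
not killed by `2 ^ j` whenever `j h < N`.

Main result: `exists_eigenvec`.
-/

set_option autoImplicit false

noncomputable section

open Matrix

namespace Fermat.Agent.LT.Lower

/-! ## Stable rank and determinants -/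

section Rank

variable {F : Type*} [Field F] {W : Type*} [AddCommGroup W] [Module F W] [FiniteDimensional F W]

/-- The stable rank depends only on the characteristic polynomial. -/
theorem finrank_range_pow_le (f g : Module.End F W) (h : f.charpoly = g.charpoly) :
    Module.finrank F (LinearMap.range (g ^ Module.finrank F W)) ≤
      Module.finrank F (LinearMap.range f) := by
  have hg : Module.finrank F (LinearMap.ker (g ^ Module.finrank F W)) =
      Module.finrank F (f.maxGenEigenspace 0) := by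
    rw [LinearMap.finrank_maxGenEigenspace_zero_eq, h, ← LinearMap.finrank_maxGenEigenspace_zero_eq,
      Module.End.maxGenEigenspace_eq_genEigenspace_finrank, Module.End.genEigenspace_nat,
      zero_smul, sub_zero]
  have hle : LinearMap.ker f ≤ f.maxGenEigenspace 0 := fun x hx => by
    rw [Module.End.mem_maxGenEigenspace]
    exact ⟨1, by simpa using hx⟩
  have h1 := LinearMap.finrank_range_add_finrank_ker f
  have h2 := LinearMap.finrank_range_add_finrank_ker (g ^ Module.finrank F W)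
  have h3 := Submodule.finrank_mono hle
  omega

end Rank

/-- The determinant trick. -/
theorem det_smul_mem {R : Type*} [CommRing R] {W : Type*} [AddCommGroup W] [Module R W]
    {κ : Type*} [Fintype κ] [DecidableEq κ] (D : Matrix κ κ R) (w : κ → W) (S : Submodule R W)
    (h : ∀ i, ∑ l, D i l • w l ∈ S) (i : κ) : D.det • w i ∈ S := by
  have e : ∑ k, D.adjugate i k • ∑ l, D k l • w l = D.det • w i := by
    simp only [Finset.smul_sum, smul_smul]
    rw [Finset.sum_comm]
    simp only [← Finset.sum_smul, ← Matrix.mul_apply, Matrix.adjugate_mul]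
    rw [Finset.sum_eq_single i]
    · simp
    · intro l _ hl; simp [Ne.symm hl]
    · simp
  rw [← e]
  exact S.sum_mem fun k _ => S.smul_mem _ (h k)

/-- Similarity over `ℚ` by a diagonal matrix preserves the characteristic polynomial. -/
theorem charpoly_eq_of_diagonal {κ : Type*} [Fintype κ] [DecidableEq κ] (w : κ → ℤ)
    (hw : ∀ k, w k ≠ 0) {X Y : Matrix κ κ ℤ}
    (h : X * Matrix.diagonal w = Matrix.diagonal w * Y) : Y.charpoly = X.charpoly := by
  refine Polynomial.map_injective (Int.castRingHom ℚ) Int.cast_injective ?_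
  rw [← Matrix.charpoly_map, ← Matrix.charpoly_map]
  have hu : IsUnit ((Matrix.diagonal w).map (Int.castRingHom ℚ)) := by
    rw [Matrix.isUnit_iff_isUnit_det, Matrix.diagonal_map (map_zero _), Matrix.det_diagonal,
      isUnit_iff_ne_zero, Finset.prod_ne_zero_iff]
    exact fun k _ => Int.cast_ne_zero.mpr (hw k)
  obtain ⟨U, hU⟩ := hu
  have h2 := congrArg (Int.castRingHom ℚ).mapMatrix h
  rw [map_mul, map_mul] at h2
  simp only [RingHom.mapMatrix_apply] at h2
  rw [← hU] at h2
  have h3 : Y.map (Int.castRingHom ℚ) = U⁻¹.val * X.map (Int.castRingHom ℚ) * U.val := by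
    rw [mul_assoc, h2, Units.inv_mul_cancel_left]
  rw [h3]
  generalize X.map (Int.castRingHom ℚ) = Z
  simp

/-- Elements which are `1` modulo `2` are units modulo `2 ^ N`. -/
theorem isUnit_of_cast_eq_one {N : ℕ} (hN : 0 < N) {x : ZMod (2 ^ N)}
    (hx : ZMod.castHom (dvd_pow_self 2 hN.ne') (ZMod 2) x = 1) : IsUnit x := by
  obtain ⟨k, rfl⟩ := ZMod.intCast_surjective x
  rw [map_intCast, ZMod.intCast_eq_one_iff_odd] at hx
  obtain ⟨w, rfl⟩ := hx
  have hn : IsNilpotent (2 * (w : ZMod (2 ^ N))) := ⟨N, by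
    rw [mul_pow, show (2 : ZMod (2 ^ N)) ^ N = ((2 ^ N : ℕ) : ZMod (2 ^ N)) by push_cast; rfl,
      ZMod.natCast_self, zero_mul]⟩
  push_cast
  rw [add_comm]
  exact hn.isUnit_add_left_of_commute isUnit_one (Commute.all _ _)

/-! ## Sublattices -/

/-- The Smith normal form of the image of a matrix with independent rows has full rank. -/
private theorem smith_surjective {κ ι : Type*} [Fintype κ] [Fintype ι] [DecidableEq κ]
    [DecidableEq ι] (V : Matrix κ ι ℤ) (hV : ∀ c : κ → ℤ, c ᵥ* V = 0 → c = 0) {n : ℕ}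
    (bM : Module.Basis κ ℤ (κ → ℤ)) (bN : Module.Basis (Fin n) ℤ (LinearMap.range V.mulVecLin))
    (f : Fin n ↪ κ) (w : Fin n → ℤ) (snf : ∀ i, (bN i : κ → ℤ) = w i • bM (f i)) :
    Function.Surjective f := by
  intro k
  by_contra hk
  have h0 : ∀ x ∈ LinearMap.range V.mulVecLin, bM.coord k x = 0 := fun x hx => by
    have : x = ((∑ i, bN.repr ⟨x, hx⟩ i • bN i : LinearMap.range V.mulVecLin) : κ → ℤ) := by
      rw [bN.sum_repr]
    rw [this, Submodule.coe_sum, map_sum]
    refine Finset.sum_eq_zero fun i _ => ?_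
    rw [Submodule.coe_smul, map_smul, snf, map_smul, Module.Basis.coord_apply,
      Module.Basis.repr_self, Finsupp.single_eq_of_ne (fun h => hk ⟨i, h.symm⟩), smul_zero,
      smul_zero]
  have h1 : (fun l => bM.coord k (Pi.single l 1)) = 0 := hV _ <| funext fun i => by
    have := h0 (V.mulVecLin (Pi.single i 1)) ⟨_, rfl⟩
    simp only [mulVecLin_apply, mulVec_single_one] at this
    rw [show Matrix.col V i = ∑ l, V l i • (Pi.single l 1 : κ → ℤ) by
      funext l; simp [Finset.sum_apply, Pi.single_apply], map_sum] at this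
    simp only [map_smul, smul_eq_mul] at this
    simp only [vecMul, dotProduct, Pi.zero_apply]
    rw [← this]
    exact Finset.sum_congr rfl fun l _ => mul_comm _ _
  have h2 : bM.coord k = 0 := (Pi.basisFun ℤ κ).ext fun l => by
    simpa using congrFun h1 l
  have := LinearMap.congr_fun h2 (bM k)
  simp at this

/-- An endomorphism preserving a full sublattice has the same characteristic polynomial on it, in
bases adapted to the sublattice. -/
private theorem charpoly_toMatrix_sublattice {κ : Type*} [Fintype κ] [DecidableEq κ]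
    {J : Submodule ℤ (κ → ℤ)} (bM : Module.Basis κ ℤ (κ → ℤ)) (bJ : Module.Basis κ ℤ J)
    (w : κ → ℤ) (hbJ : ∀ k, (bJ k : κ → ℤ) = w k • bM k) (f : Module.End ℤ (κ → ℤ))
    (g : Module.End ℤ J) (hfg : J.subtype ∘ₗ g = f ∘ₗ J.subtype) :
    (LinearMap.toMatrixAlgEquiv bJ g).charpoly = f.charpoly := by
  have hw : ∀ k, w k ≠ 0 := fun k h0 => bJ.ne_zero k (Subtype.ext (by
    rw [hbJ, h0, zero_smul]; rfl))
  have hD : LinearMap.toMatrix bJ bM J.subtype = Matrix.diagonal w := by
    ext k l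
    rw [LinearMap.toMatrix_apply, Submodule.subtype_apply, hbJ, map_smul, Module.Basis.repr_self]
    by_cases hkl : k = l
    · subst hkl; simp
    · simp [hkl]
  have hcomm : LinearMap.toMatrix bM bM f * Matrix.diagonal w =
      Matrix.diagonal w * LinearMap.toMatrix bJ bJ g := by
    rw [← hD, ← LinearMap.toMatrix_comp, ← LinearMap.toMatrix_comp, hfg]
  rw [← LinearMap.charpoly_toMatrix f bM]
  exact charpoly_eq_of_diagonal w hw hcomm

/-- If multiples of `e` lie in `ℤ s + 2 B`, multiplication by `e` has rank at most `#s` modulo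
`2`. -/
private theorem finrank_range_leftMul_le {B : Type*} [CommRing B] {κ : Type*} [Fintype κ]
    [DecidableEq κ] (β : Module.Basis κ ℤ B) (e : B) (s : Finset B)
    (hse : ∀ b : B, ∃ y z : B, y ∈ Submodule.span ℤ (s : Set B) ∧ e * b = y + 2 * z) :
    Module.finrank (ZMod 2) (LinearMap.range
      (Matrix.toLin' ((Algebra.leftMulMatrix β e).map (Int.castRingHom (ZMod 2))))) ≤ s.card := by
  classical
  let c₂ := Int.castRingHom (ZMod 2)
  let red : B →ₗ[ℤ] (κ → ZMod 2) :=
    (Finsupp.linearEquivFunOnFinite ℤ (ZMod 2) κ).toLinearMap ∘ₗ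
      (Finsupp.mapRange.linearMap c₂.toAddMonoidHom.toIntLinearMap) ∘ₗ β.repr.toLinearMap
  have hred : ∀ b k, red b k = c₂ (β.repr b k) := fun b k => rfl
  have hle : LinearMap.range (Matrix.toLin' ((Algebra.leftMulMatrix β e).map c₂)) ≤
      Submodule.span (ZMod 2) ((s.image red : Finset (κ → ZMod 2)) : Set (κ → ZMod 2)) := by
    rintro _ ⟨x, rfl⟩
    obtain ⟨x, rfl⟩ : ∃ b : B, red b = x := by
      choose z hz using fun k => ZMod.intCast_surjective (x k)
      refine ⟨∑ k, z k • β k, funext fun k => ?_⟩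
      rw [hred, β.repr_sum_self, ← hz k]
      rfl
    obtain ⟨y, z, hy, hyz⟩ := hse x
    have e1 : Matrix.toLin' ((Algebra.leftMulMatrix β e).map c₂) (red x) = red (e * x) := by
      funext k
      rw [Matrix.toLin'_apply, hred, ← Algebra.leftMulMatrix_mulVec_repr β, mulVec, mulVec,
        dotProduct, dotProduct, map_sum]
      simp only [Matrix.map_apply, hred, map_mul, c₂]
    have e2 : red (2 * z) = 0 := funext fun k => by
      rw [hred, two_mul, map_add, Finsupp.add_apply, map_add, CharTwo.add_self_eq_zero]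
      rfl
    rw [e1, hyz, map_add, e2, add_zero]
    clear hyz
    induction hy using Submodule.span_induction with
    | mem y hy => exact Submodule.subset_span (Finset.mem_image_of_mem red hy)
    | zero => rw [map_zero]; exact Submodule.zero_mem _
    | add a b _ _ ha hb => rw [map_add]; exact Submodule.add_mem _ ha hb
    | smul c a _ ha => rw [map_smul]; exact zsmul_mem ha c
  refine (Submodule.finrank_mono hle).trans ((finrank_span_finset_le_card _).trans ?_)
  exact Finset.card_image_le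

/-- The determinant trick twice: if `2 ^ j` maps a faithful module into `ker φ` times it and an
element which is a unit under `φ` maps it into the span of `h` elements, then `φ` kills
`2 ^ (j h)`. -/
private theorem two_pow_eq_zero_of_smul_mem {B J R : Type*} [CommRing B] [AddCommGroup J]
    [Module B J] [CommRing R] (φ : B →+* R) (hfaith : ∀ b : B, (∀ x : J, b • x = 0) → b = 0)
    {h' j : ℕ} (gen : Fin h' → J) {d : B}
    (hdS : ∀ x : J, d • x ∈ Submodule.span B (Set.range gen)) (hd : IsUnit (φ d))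
    (hJ2 : ∀ x : J, ((2 : B) ^ j) • x ∈ RingHom.ker φ • (⊤ : Submodule B J)) :
    (2 : R) ^ (j * h') = 0 := by
  classical
  let S : Submodule B J := Submodule.span B (Set.range gen)
  have hIS : ∀ z ∈ RingHom.ker φ • (⊤ : Submodule B J), d • z ∈ RingHom.ker φ • S := fun z hz => by
    refine Submodule.smul_induction_on hz (fun a ha x _ => ?_) fun x y hx hy => ?_
    · rw [smul_comm]; exact Submodule.smul_mem_smul ha (hdS x)
    · rw [smul_add]; exact Submodule.add_mem _ hx hy
  have hC : ∀ l, ∃ c : Fin h' → B, (∀ k, c k ∈ RingHom.ker φ) ∧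
      ∑ k, c k • gen k = (d * 2 ^ j) • gen l := fun l => by
    obtain ⟨c, hc, hc'⟩ := (Submodule.mem_ideal_smul_span_iff_exists_sum (RingHom.ker φ) gen _).mp
      (hIS _ (hJ2 (gen l)))
    refine ⟨c, hc, ?_⟩
    rw [mul_smul]
    rw [Finsupp.sum_fintype] at hc'
    · exact hc'
    · exact fun _ => zero_smul _ _
  choose C hC hC' using hC
  -- the determinant of `d 2 ^ j - C` kills the module, and is `(φ d) ^ h' 2 ^ (j h')` under `φ`
  let D₂ : Matrix (Fin h') (Fin h') B :=
    Matrix.of fun l k => (if l = k then d * 2 ^ j else 0) - C l k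
  have hD₂ : ∀ l, D₂.det • gen l = 0 := fun l => by
    simpa using det_smul_mem D₂ gen ⊥ (fun l => by
      simp [D₂, sub_smul, Finset.sum_sub_distrib, ite_smul, hC']) l
  have hzero : D₂.det * d = 0 := hfaith _ fun x => by
    rw [mul_smul]
    refine Submodule.span_induction (p := fun y _ => D₂.det • y = 0) ?_ (smul_zero _)
      (fun a b _ _ ha hb => by rw [smul_add, ha, hb, add_zero])
      (fun c a _ ha => by rw [smul_comm, ha, smul_zero]) (hdS x)
    rintro _ ⟨l, rfl⟩
    exact hD₂ l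
  have hφ2 : φ D₂.det = (φ d) ^ h' * 2 ^ (j * h') := by
    rw [RingHom.map_det, show φ.mapMatrix D₂ = (φ d * 2 ^ j) • 1 from ?_, Matrix.det_smul,
      Matrix.det_one, mul_one, Fintype.card_fin, mul_pow, ← pow_mul]
    ext l k
    have hc0 : φ (C l k) = 0 := hC l k
    by_cases hlk : l = k
    · subst hlk; simp [D₂, hc0, map_ofNat]
    · simp [D₂, hc0, hlk]
  have := congrArg φ hzero
  rw [map_mul, hφ2, map_zero, mul_comm (φ d ^ h'), mul_assoc, ← pow_succ] at this
  exact (hd.pow _).mul_left_eq_zero.mp this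

/-! ## The rank bound -/

/-- If `e` is a unit under `φ` and `X`, the matrix of `e ^ r` on a lattice, has rank at most `h`
modulo `2`, then some `d` which is a unit under `φ` maps the lattice into the span of at most `h`
elements. -/
private theorem exists_smul_mem_span {B J κ : Type*} [CommRing B] [AddCommGroup J] [Module B J]
    [Fintype κ] [DecidableEq κ] (bJ : Module.Basis κ ℤ J) {N : ℕ} (hN : 0 < N)
    (φ : B →+* ZMod (2 ^ N)) {e : B} (he : IsUnit (φ e)) (r : ℕ) (X : Matrix κ κ ℤ)
    (hX : ∀ i, e ^ r • bJ i = ∑ k, X k i • bJ k) {h : ℕ}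
    (hR : Module.finrank (ZMod 2)
      (LinearMap.range (Matrix.toLin' (X.map (Int.castRingHom (ZMod 2))))) ≤ h) :
    ∃ h' ≤ h, ∃ (gen : Fin h' → J) (d : B), IsUnit (φ d) ∧
      ∀ x : J, d • x ∈ Submodule.span B (Set.range gen) := by
  classical
  let c₂ := Int.castRingHom (ZMod 2)
  -- `gen` lifts a basis of the range `R` of `X` modulo `2`
  obtain ⟨R, hRdef⟩ : ∃ R, R = LinearMap.range (Matrix.toLin' (X.map c₂)) := ⟨_, rfl⟩
  obtain ⟨h', hh'⟩ : ∃ h', h' = Module.finrank (ZMod 2) R := ⟨_, rfl⟩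
  let bR := Module.finBasisOfFinrankEq (ZMod 2) R hh'.symm
  choose gh hgh using fun (l : Fin h') k => ZMod.intCast_surjective ((bR l : κ → ZMod 2) k)
  let gen : Fin h' → J := fun l => ∑ k, gh l k • bJ k
  let S : Submodule B J := Submodule.span B (Set.range gen)
  -- modulo their span `S`, `e ^ r` is twice an integral matrix `Y`
  have hmem : ∀ i, ∃ Y : κ → ℤ, e ^ r • bJ i - (2 : B) • (∑ k, Y k • bJ k) ∈ S := by
    intro i
    have hcol : (fun k => c₂ (X k i)) ∈ R := by
      rw [hRdef]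
      refine ⟨Pi.single i 1, ?_⟩
      rw [Matrix.toLin'_apply, mulVec_single_one]
      rfl
    choose c hc using fun l => ZMod.intCast_surjective (bR.repr ⟨_, hcol⟩ l)
    have hdiv : ∀ k, (2 : ℤ) ∣ X k i - ∑ l, c l * gh l k := fun k => by
      rw [show (2 : ℤ) = ((2 : ℕ) : ℤ) from rfl, ← ZMod.intCast_zmod_eq_zero_iff_dvd]
      push_cast
      simp only [hc, hgh]
      have := congrFun (congrArg Subtype.val (bR.sum_repr ⟨_, hcol⟩)) k
      simp only [Submodule.coe_sum, Submodule.coe_smul, Finset.sum_apply, Pi.smul_apply,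
        smul_eq_mul] at this
      rw [this, sub_eq_zero]
      rfl
    choose Y hY using hdiv
    refine ⟨Y, ?_⟩
    have h2 : ∀ x : J, (2 : B) • x = (2 : ℤ) • x := fun x => by
      rw [← Int.cast_smul_eq_zsmul B]; norm_cast
    rw [hX, h2, Finset.smul_sum, ← Finset.sum_sub_distrib]
    simp only [smul_smul, ← sub_smul, ← hY, sub_sub_cancel, Finset.sum_smul]
    rw [Finset.sum_comm]
    simp only [← smul_smul, ← Finset.smul_sum]
    exact S.sum_mem fun l _ => zsmul_mem (Submodule.subset_span ⟨l, rfl⟩ : gen l ∈ S) _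
  choose Y hY using hmem
  -- the determinant of `e ^ r - 2 Y` maps into `S`, and is a unit under `φ`, being `1` modulo `2`
  let D₁ : Matrix κ κ B := Matrix.of fun i k => (if i = k then e ^ r else 0) - 2 * (Y i k : B)
  have hD₁ : ∀ i, D₁.det • bJ i ∈ S := det_smul_mem D₁ bJ S fun i => by
    have h1 : ∑ k, D₁ i k • bJ k = e ^ r • bJ i - (2 : B) • (∑ k, Y i k • bJ k) := by
      simp only [D₁, Matrix.of_apply, sub_smul, Finset.sum_sub_distrib, ite_smul, zero_smul,
        Finset.sum_ite_eq, Finset.mem_univ, if_true, Finset.smul_sum, mul_smul,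
        Int.cast_smul_eq_zsmul]
    rw [h1]
    exact hY i
  set d₁ := D₁.det with hd₁
  have hd₁S : ∀ x : J, d₁ • x ∈ S := fun x => by
    rw [← bJ.sum_repr x, Finset.smul_sum]
    exact S.sum_mem fun k _ => by rw [smul_comm]; exact zsmul_mem (hD₁ k) _
  let p₂ : B →+* ZMod 2 := (ZMod.castHom (dvd_pow_self 2 hN.ne') (ZMod 2)).comp φ
  have hφd : IsUnit (φ d₁) := by
    refine isUnit_of_cast_eq_one hN ?_
    show p₂ d₁ = 1
    have he2 : p₂ e = 1 := by
      have := (he.map (ZMod.castHom (dvd_pow_self 2 hN.ne') (ZMod 2))).ne_zero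
      revert this
      show p₂ e ≠ 0 → _
      generalize p₂ e = z
      revert z
      decide
    rw [hd₁, RingHom.map_det, show p₂.mapMatrix D₁ = 1 from ?_, Matrix.det_one]
    ext i k
    have hp2 : p₂ 2 = 0 := by rw [map_ofNat]; rfl
    simp [D₁, Matrix.one_apply, apply_ite p₂, he2, hp2]
  exact ⟨h', hh'.trans_le (hRdef ▸ hR), gen, d₁, hφd, hd₁S⟩

/-! ## Intertwiners -/

/-- The range of a matrix with independent rows has a basis adapted to the ambient lattice. -/
private theorem exists_adapted_basis {κ ι : Type*} [Fintype κ] [Fintype ι] [DecidableEq κ]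
    [DecidableEq ι] (V : Matrix κ ι ℤ) (hV : ∀ c : κ → ℤ, c ᵥ* V = 0 → c = 0) :
    ∃ (bM : Module.Basis κ ℤ (κ → ℤ)) (bJ : Module.Basis κ ℤ (LinearMap.range V.mulVecLin))
      (w : κ → ℤ), ∀ k, (bJ k : κ → ℤ) = w k • bM k := by
  classical
  obtain ⟨n, bM, bN, f, w, snf⟩ :=
    Submodule.smithNormalForm (Pi.basisFun ℤ κ) (LinearMap.range V.mulVecLin)
  let σ : Fin n ≃ κ := Equiv.ofBijective f ⟨f.injective, smith_surjective V hV bM bN f w snf⟩
  refine ⟨bM, bN.reindex σ, fun k => w (σ.symm k), fun k => ?_⟩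
  rw [Module.Basis.reindex_apply, snf]
  congr 2
  exact σ.apply_symm_apply k

/-- If multiples of `e` lie in `ℤ s + 2 B`, a matrix with the characteristic polynomial of
multiplication by `e` has stable rank at most `#s` modulo `2`. -/
private theorem finrank_stable_range_le {B : Type*} [CommRing B] {κ : Type*} [Fintype κ]
    [DecidableEq κ] (β : Module.Basis κ ℤ B) (e : B) (s : Finset B)
    (hse : ∀ b : B, ∃ y z : B, y ∈ Submodule.span ℤ (s : Set B) ∧ e * b = y + 2 * z)
    (X : Matrix κ κ ℤ) (hchar : X.charpoly = (Algebra.leftMulMatrix β e).charpoly) :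
    Module.finrank (ZMod 2) (LinearMap.range
      (Matrix.toLin' ((X ^ Fintype.card κ).map (Int.castRingHom (ZMod 2))))) ≤ s.card := by
  rw [show Matrix.toLin' ((X ^ Fintype.card κ).map (Int.castRingHom (ZMod 2))) =
    Matrix.toLin' (X.map (Int.castRingHom (ZMod 2))) ^ Fintype.card κ from ?_]
  · refine le_trans ?_ (finrank_range_leftMul_le β e s hse)
    rw [← Module.finrank_fintype_fun_eq_card (ZMod 2) (η := κ)]
    refine finrank_range_pow_le _ _ ?_
    rw [Matrix.charpoly_toLin', Matrix.charpoly_toLin', Matrix.charpoly_map,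
      Matrix.charpoly_map, hchar]
  · rw [← RingHom.mapMatrix_apply, map_pow]
    exact map_pow Matrix.toLinAlgEquiv' _ _

variable {ι : Type*} [Fintype ι] [DecidableEq ι]
  {A : Type*} [CommRing A] (M : A →+* Matrix ι ι ℤ)
  {B : Type*} [CommRing B] [Module.Finite ℤ B] [Module.Free ℤ B] [IsReduced B]
  {ψ : A →+* B}

/-- A matrix with independent rows which intertwines the transposes of the `M a` with those of
the multiplications by the `ψ a`. -/
private theorem exists_intertwiner {κ : Type*} [Fintype κ] [DecidableEq κ]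
    (β : Module.Basis κ ℤ B) (hψ : Function.Surjective ψ)
    (heig : ∀ χ : B →+* ℂ, ∃ w : ι → ℂ, w ≠ 0 ∧
      ∀ a, ((M a).map (Int.castRingHom ℂ)) *ᵥ w = χ (ψ a) • w) :
    ∃ V : Matrix κ ι ℤ, (∀ c : κ → ℤ, c ᵥ* V = 0 → c = 0) ∧
      ∀ a, V * (M a)ᵀ = (Algebra.leftMulMatrix β (ψ a))ᵀ * V := by
  obtain ⟨v, hv⟩ := exists_vec M hψ heig
  choose g hg using hψ
  let V : Matrix κ ι ℤ := Matrix.of fun k i => (M (g (β k)) *ᵥ v) i
  have hrow : ∀ c : κ → ℤ, c ᵥ* V = M (∑ k, c k • g (β k)) *ᵥ v := fun c => by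
    rw [map_sum, sum_mulVec]
    funext i
    simp only [vecMul, dotProduct, Finset.sum_apply, map_zsmul, smul_mulVec, Pi.smul_apply,
      smul_eq_mul, V, Matrix.of_apply]
  have hψsum : ∀ c : κ → ℤ, ψ (∑ k, c k • g (β k)) = ∑ k, c k • β k := fun c => by
    simp only [map_sum, map_zsmul, hg]
  refine ⟨V, fun c hc => ?_, fun a => ?_⟩
  · rw [hrow, hv, hψsum] at hc
    funext k
    exact Fintype.linearIndependent_iff.mp β.linearIndependent c hc k
  have hvrepr : ∀ a, M a *ᵥ v = (fun k => β.repr (ψ a) k) ᵥ* V := fun a => by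
    rw [hrow, ← sub_eq_zero, ← sub_mulVec, ← map_sub, hv, map_sub, hψsum, β.sum_repr, sub_self]
  ext k i
  have h1 : (V * (M a)ᵀ) k i = (M (a * g (β k)) *ᵥ v) i := by
    rw [map_mul, ← mulVec_mulVec]
    simp only [Matrix.mul_apply, mulVec, dotProduct, Matrix.transpose_apply, V, Matrix.of_apply]
    exact Finset.sum_congr rfl fun m _ => mul_comm _ _
  rw [h1, hvrepr, map_mul, hg]
  simp only [Matrix.mul_apply, vecMul, dotProduct, Matrix.transpose_apply,
    Algebra.leftMulMatrix_eq_repr_mul]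

omit [Module.Finite ℤ B] [Module.Free ℤ B] [IsReduced B] in
/-- An element whose transposed multiplication kills the image of a matrix with independent rows
is zero. -/
private theorem eq_zero_of_transpose_mul {κ : Type*} [Fintype κ] [DecidableEq κ]
    (β : Module.Basis κ ℤ B) (V : Matrix κ ι ℤ)
    (hV : ∀ c : κ → ℤ, c ᵥ* V = 0 → c = 0) {b : B}
    (hb : ∀ m, (Algebra.leftMulMatrix β b)ᵀ *ᵥ (V *ᵥ m) = 0) : b = 0 := by
  refine Algebra.leftMulMatrix_injective β ?_
  rw [map_zero]
  refine Matrix.ext fun k l => ?_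
  have := hV ((Algebra.leftMulMatrix β b)ᵀ l) (funext fun i => ?_)
  · exact congrFun this k
  · have h1 := congrFun (hb (Pi.single i 1)) l
    rw [mulVec_mulVec, mulVec_single_one] at h1
    exact h1

omit [Module.Finite ℤ B] [Module.Free ℤ B] [IsReduced B] in
/-- An intertwining map carries the subgroup generated by the images of the kernel of the
eigenvalue map into the kernel times the module. -/
private theorem map_closure_mem_ker_smul {J R : Type*} [AddCommGroup J] [Module B J] [CommRing R]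
    (φ : B →+* R) (u : (ι → ℤ) →+ J) (hu : ∀ a m, u ((M a)ᵀ *ᵥ m) = ψ a • u m) {y : ι → ℤ}
    (hy : y ∈ AddSubgroup.closure {y | ∃ a m', φ (ψ a) = 0 ∧ y = (M a)ᵀ *ᵥ m'}) :
    u y ∈ RingHom.ker φ • (⊤ : Submodule B J) := by
  induction hy using AddSubgroup.closure_induction with
  | mem y hy =>
    obtain ⟨a, m', ha, rfl⟩ := hy
    rw [hu]
    exact Submodule.smul_mem_smul ha Submodule.mem_top
  | zero => rw [map_zero]; exact Submodule.zero_mem _
  | add a b _ _ ha hb => rw [map_add]; exact Submodule.add_mem _ ha hb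
  | neg a _ ha => rw [map_neg]; exact Submodule.neg_mem _ ha

/-! ## The eigenvector -/

/-- The values at `j h < N` of the dual lattice are not exhausted by the eigenvalue ideal. -/
theorem exists_not_mem (hψ : Function.Surjective ψ)
    (heig : ∀ χ : B →+* ℂ, ∃ w : ι → ℂ, w ≠ 0 ∧
      ∀ a, ((M a).map (Int.castRingHom ℂ)) *ᵥ w = χ (ψ a) • w)
    {N h : ℕ} (φ : B →+* ZMod (2 ^ N)) {e : B} (he : IsUnit (φ e))
    (hsmall : ∃ s : Finset B, s.card ≤ h ∧
      ∀ b : B, ∃ y z : B, y ∈ Submodule.span ℤ (s : Set B) ∧ e * b = y + 2 * z)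
    {j : ℕ} (hj : j * h < N) :
    ∃ m : ι → ℤ, (2 : ℤ) ^ j • m ∉ AddSubgroup.closure
      {y | ∃ a m', φ (ψ a) = 0 ∧ y = (M a)ᵀ *ᵥ m'} := by
  classical
  have hN : 0 < N := by omega
  let κ := Module.Free.ChooseBasisIndex ℤ B
  let β : Module.Basis κ ℤ B := Module.Free.chooseBasis ℤ B
  let L : B →ₐ[ℤ] Matrix κ κ ℤ := Algebra.leftMulMatrix β
  obtain ⟨V, hVinj, hVM⟩ := exists_intertwiner M β hψ heig
  let J : Submodule ℤ (κ → ℤ) := LinearMap.range V.mulVecLin
  let u : (ι → ℤ) →+ J := V.mulVecLin.rangeRestrict.toAddMonoidHom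
  have hJinv : ∀ b, ∀ x ∈ J, (L b)ᵀ.mulVecLin x ∈ J := by
    rintro b _ ⟨m, rfl⟩
    obtain ⟨a, rfl⟩ := hψ b
    exact ⟨(M a)ᵀ *ᵥ m, by simp only [mulVecLin_apply, mulVec_mulVec, hVM, L]⟩
  -- `B` acts on `J`
  let ρ : B →+* Module.End ℤ J :=
    { toFun := fun b => (L b)ᵀ.mulVecLin.restrict (hJinv b)
      map_one' := by ext x : 1; refine Subtype.ext ?_; simp [LinearMap.restrict_apply]
      map_mul' := fun a b => by
        refine LinearMap.ext fun x => Subtype.ext ?_
        rw [mul_comm a b]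
        simp [LinearMap.restrict_apply, Matrix.transpose_mul]
      map_zero' := by ext x : 1; refine Subtype.ext ?_; simp [LinearMap.restrict_apply]
      map_add' := fun a b => by
        refine LinearMap.ext fun x => Subtype.ext ?_
        simp [LinearMap.restrict_apply, Matrix.transpose_add] }
  let : Module B J := Module.compHom J ρ
  have hu : ∀ a m, u ((M a)ᵀ *ᵥ m) = ψ a • u m := fun a m => Subtype.ext (by
    show V *ᵥ ((M a)ᵀ *ᵥ m) = (L (ψ a))ᵀ *ᵥ (V *ᵥ m)
    rw [mulVec_mulVec, mulVec_mulVec, hVM])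
  have hfaith : ∀ b : B, (∀ x : J, b • x = 0) → b = 0 := fun b hb =>
    eq_zero_of_transpose_mul β V hVinj fun m => congrArg Subtype.val (hb (u m))
  -- a basis of `J` adapted to the ambient lattice
  obtain ⟨bM, bJ, w, hbJ⟩ := exists_adapted_basis V hVinj
  let XJ : Matrix κ κ ℤ := LinearMap.toMatrixAlgEquiv bJ (ρ e)
  have hchar : XJ.charpoly = (L e).charpoly := by
    rw [show XJ = LinearMap.toMatrixAlgEquiv bJ (ρ e) from rfl,
      charpoly_toMatrix_sublattice bM bJ _ hbJ (L e)ᵀ.mulVecLin (ρ e) rfl,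
      ← Matrix.toLin'_apply', Matrix.charpoly_toLin', Matrix.charpoly_transpose]
  -- generators modulo `2` of the stable image
  obtain ⟨s, hs, hse⟩ := hsmall
  obtain ⟨h', hh', gen, d₁, hφd, hd₁S⟩ := exists_smul_mem_span bJ hN φ he (Fintype.card κ)
    (XJ ^ Fintype.card κ) (h := h)
    (fun i => by
      show ρ (e ^ _) (bJ i) = _
      rw [map_pow, show XJ ^ Fintype.card κ =
        LinearMap.toMatrixAlgEquiv bJ (ρ e ^ Fintype.card κ) from (map_pow _ _ _).symm]
      simp only [LinearMap.toMatrixAlgEquiv_apply]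
      exact (bJ.sum_repr _).symm)
    ((finrank_stable_range_le β e s hse XJ hchar).trans hs)
  -- the contradiction
  by_contra! hall
  have hJ2 : ∀ x : J, ((2 : B) ^ j) • x ∈ RingHom.ker φ • (⊤ : Submodule B J) := by
    intro x
    obtain ⟨m, rfl⟩ : ∃ m, u m = x := V.mulVecLin.surjective_rangeRestrict x
    convert map_closure_mem_ker_smul M φ u hu (hall m) using 1
    rw [show ((2 : B) ^ j) = (((2 : ℤ) ^ j : ℤ) : B) by push_cast; rfl, Int.cast_smul_eq_zsmul]
    exact (map_zsmul u ((2 : ℤ) ^ j) m).symm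
  have h0 : (2 : ZMod (2 ^ N)) ^ (j * h') = 0 :=
    two_pow_eq_zero_of_smul_mem φ hfaith gen hd₁S hφd hJ2
  rw [show (2 : ZMod (2 ^ N)) ^ (j * h') = ((2 ^ (j * h') : ℕ) : ZMod (2 ^ N)) by push_cast; rfl,
    ZMod.natCast_eq_zero_iff, Nat.pow_dvd_pow_iff_le_right one_lt_two] at h0
  have : j * h' ≤ j * h := Nat.mul_le_mul_left j hh'
  omega

/-- A character of a quotient of `ℤ ^ ι` killed by `m` is the pairing with a vector modulo `m`. -/
theorem exists_dot_vec (S : AddSubgroup (ι → ℤ)) {m : ℕ} [NeZero m]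
    (hS : ∀ y : ι → ℤ, (m : ℤ) • y ∈ S) {z : ι → ℤ} (hz : z ∉ S) :
    ∃ x : ι → ZMod m, (∀ y ∈ S, (fun i => (y i : ZMod m)) ⬝ᵥ x = 0) ∧
      (fun i => (z i : ZMod m)) ⬝ᵥ x ≠ 0 := by
  -- A character of `ℤ ^ ι / S` nonzero at `z`.
  obtain ⟨c, hc⟩ := CharacterModule.exists_character_apply_ne_zero_of_ne_zero
    (A := (ι → ℤ) ⧸ S) (a := QuotientAddGroup.mk z)
    (fun h => hz ((QuotientAddGroup.eq_zero_iff z).mp h))
  let c' : (ι → ℤ) →+ AddCircle (1 : ℚ) := AddMonoidHom.comp c (QuotientAddGroup.mk' S)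
  -- Its values on the unit vectors lie in `(1/m) ℤ / ℤ`.
  have hm : ∀ i, ∃ k : ℕ, c' (Pi.single i 1) = ((((k : ℚ) / m) * 1 : ℚ) : AddCircle (1 : ℚ)) := by
    intro i
    have h0 : m • c' (Pi.single i 1) = 0 := by
      rw [← map_nsmul]
      show c (QuotientAddGroup.mk' S (m • Pi.single i 1)) = 0
      rw [QuotientAddGroup.mk'_apply, (QuotientAddGroup.eq_zero_iff _).mpr
          (by rw [← natCast_zsmul]; exact hS (Pi.single i 1) : m • (Pi.single i 1 : ι → ℤ) ∈ S)]
      exact map_zero c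
    obtain ⟨k, -, hk⟩ := (AddCircle.nsmul_eq_zero_iff (NeZero.pos m)).mp h0
    exact ⟨k, hk.symm⟩
  choose k hk using hm
  -- So it is the pairing with their numerators.
  have key : ∀ y : ι → ℤ, c' y = 0 ↔ (fun i => (y i : ZMod m)) ⬝ᵥ
      (fun i => (k i : ZMod m)) = 0 := by
    intro y
    have e : c' y = ((((∑ i, y i * (k i : ℤ) : ℤ) : ℚ) / m : ℚ) : AddCircle (1 : ℚ)) := by
      conv_lhs => rw [show y = ∑ i, y i • (Pi.single i 1 : ι → ℤ) by
        funext l; simp [Finset.sum_apply, Pi.single_apply]]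
      rw [map_sum, Int.cast_sum, Finset.sum_div]
      rw [← QuotientAddGroup.mk'_apply, map_sum]
      refine Finset.sum_congr rfl fun i _ => ?_
      rw [map_zsmul, hk, QuotientAddGroup.mk'_apply, mul_one, ← AddCircle.coe_zsmul, zsmul_eq_mul]
      push_cast
      rw [mul_div_assoc]
    rw [e, AddCircle.coe_eq_zero_iff]
    have e2 : (fun i => (y i : ZMod m)) ⬝ᵥ (fun i => (k i : ZMod m)) =
        ((∑ i, y i * (k i : ℤ) : ℤ) : ZMod m) := by
      simp [dotProduct]
    rw [e2, ZMod.intCast_zmod_eq_zero_iff_dvd]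
    have hm0 : (m : ℚ) ≠ 0 := Nat.cast_ne_zero.mpr (NeZero.ne m)
    constructor
    · rintro ⟨q, hq⟩
      refine ⟨q, ?_⟩
      rw [zsmul_eq_mul, mul_one, eq_div_iff hm0] at hq
      rw [mul_comm]
      exact_mod_cast hq.symm
    · rintro ⟨q, hq⟩
      refine ⟨q, ?_⟩
      rw [zsmul_eq_mul, mul_one, eq_div_iff hm0, hq]
      push_cast
      ring
  refine ⟨fun i => (k i : ZMod m), fun y hy => (key y).mp ?_, fun h => hc ((key z).mpr h)⟩
  show c (QuotientAddGroup.mk' S y) = 0
  rw [QuotientAddGroup.mk'_apply, (QuotientAddGroup.eq_zero_iff y).mpr hy]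
  exact map_zero c

/-- **An eigenvector modulo `2 ^ N` of large order.** -/
theorem exists_eigenvec (hψ : Function.Surjective ψ)
    (heig : ∀ χ : B →+* ℂ, ∃ w : ι → ℂ, w ≠ 0 ∧
      ∀ a, ((M a).map (Int.castRingHom ℂ)) *ᵥ w = χ (ψ a) • w)
    {N h : ℕ} (φ : B →+* ZMod (2 ^ N)) {e : B} (he : IsUnit (φ e))
    (hsmall : ∃ s : Finset B, s.card ≤ h ∧
      ∀ b : B, ∃ y z : B, y ∈ Submodule.span ℤ (s : Set B) ∧ e * b = y + 2 * z) :
    ∃ x : ι → ZMod (2 ^ N),
      (∀ a, (M a).map (Int.castRingHom (ZMod (2 ^ N))) *ᵥ x = φ (ψ a) • x) ∧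
      ∀ j, j * h < N → 2 ^ j • x ≠ 0 := by
  classical
  rcases Nat.eq_zero_or_pos N with rfl | hN
  · exact ⟨0, fun a => by rw [mulVec_zero, smul_zero], fun j hj => absurd hj (Nat.not_lt_zero _)⟩
  -- the largest exponent `j₀` with `j₀ h < N`. For `h = 0` there is none; then `j₀ = N` leads to
  -- a contradiction, `2 ^ N` killing every vector, so that case does not occur
  obtain ⟨j₀, hj₀, hmax⟩ : ∃ j₀, j₀ * h < N ∧ ∀ j, j * h < N → j ≤ j₀ ∨ (h = 0 ∧ N ≤ j₀) := by
    rcases Nat.eq_zero_or_pos h with rfl | hh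
    · exact ⟨N, by simpa using hN, fun j _ => .inr ⟨rfl, le_rfl⟩⟩
    · exact ⟨(N - 1) / h, lt_of_le_of_lt (Nat.div_mul_le_self _ _) (by omega),
        fun j hj => .inl ((Nat.le_div_iff_mul_le hh).mpr (by omega))⟩
  obtain ⟨m, hm⟩ := exists_not_mem M hψ heig φ he hsmall hj₀
  -- pair modulo `2 ^ N` against `S`, which contains `2 ^ N ℤ ^ ι`: the vector found is an
  -- eigenvector, as `a - k` lies in the kernel for an integer `k` with the value of `a`
  set S := AddSubgroup.closure {y | ∃ a m', φ (ψ a) = 0 ∧ y = (M a)ᵀ *ᵥ m'} with hS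
  obtain ⟨x, hx, hxne⟩ := exists_dot_vec S (m := 2 ^ N) (fun y => AddSubgroup.subset_closure
    ⟨(2 ^ N : ℕ), y, by rw [map_natCast, map_natCast, ZMod.natCast_self],
      by rw [map_natCast, Matrix.transpose_natCast, natCast_mulVec, natCast_zsmul]⟩) hm
  have hne : 2 ^ j₀ • x ≠ 0 := fun h0 => hxne (by
    have e : (fun i => ((((2 : ℤ) ^ j₀ • m) i : ℤ) : ZMod (2 ^ N))) ⬝ᵥ x =
        (fun i => (m i : ZMod (2 ^ N))) ⬝ᵥ (2 ^ j₀ • x) := by
      simp only [dotProduct, Pi.smul_apply, smul_eq_mul, nsmul_eq_mul]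
      refine Finset.sum_congr rfl fun i _ => ?_
      push_cast
      ring
    rw [e, h0, dotProduct_zero])
  refine ⟨x, fun a => ?_, fun j hj => ?_⟩
  · obtain ⟨k, hk⟩ := ZMod.intCast_surjective (φ (ψ a))
    have h1 : (M (a - (k : A))).map (Int.castRingHom (ZMod (2 ^ N))) *ᵥ x = 0 := by
      funext i
      have := hx ((M (a - (k : A)))ᵀ *ᵥ Pi.single i 1) (AddSubgroup.subset_closure
        ⟨_, _, by rw [map_sub, map_sub, map_intCast, map_intCast, hk, sub_self], rfl⟩)
      rw [mulVec_single_one] at this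
      exact this
    rw [← RingHom.mapMatrix_apply, map_sub, map_sub, map_intCast, map_intCast,
      RingHom.mapMatrix_apply, sub_mulVec, sub_eq_zero, intCast_mulVec] at h1
    rw [h1, ← hk, Int.cast_smul_eq_zsmul]
  · rcases hmax j hj with hle | ⟨rfl, hNle⟩
    · intro h0
      refine hne ?_
      rw [show j₀ = (j₀ - j) + j by omega, pow_add, mul_smul, h0, smul_zero]
    · exfalso
      refine hne ?_
      have hz : ((2 ^ N : ℕ) : ZMod (2 ^ N)) = 0 := ZMod.natCast_self _
      rw [show j₀ = (j₀ - N) + N by omega, pow_add, mul_smul]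
      funext i
      push_cast at hz
      simp [nsmul_eq_mul, hz]

end Fermat.Agent.LT.Lower

end
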