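import Mathlib

/-!
# A lattice vector separating a reduced quotient of a commutative algebra of integral matrices

If every point of a reduced quotient `B` of an algebra of integral matrices has an eigenvector over
`ℂ`, then there is an integral vector whose annihilator is the kernel of the quotient map.
-/

set_option autoImplicit false

noncomputable section

open Matrix

namespace Fermat.Agent.LT.Lower

variable {ι : Type*} [Fintype ι] [DecidableEq ι]

omit [DecidableEq ι] in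
/-- The common kernel over `ℂ` of integral matrices is seen by integral vectors. -/
theorem exists_int_vec (S : Set (Matrix ι ι ℤ)) (X : Matrix ι ι ℤ) {w : ι → ℂ}
    (hS : ∀ M ∈ S, (M.map (Int.castRingHom ℂ)) *ᵥ w = 0)
    (hX : (X.map (Int.castRingHom ℂ)) *ᵥ w ≠ 0) :
    ∃ u : ι → ℤ, (∀ M ∈ S, M *ᵥ u = 0) ∧ X *ᵥ u ≠ 0 := by
  obtain ⟨i, hi⟩ := Function.ne_iff.mp hX
  obtain ⟨f, hf⟩ : ∃ f : Module.Dual ℚ ℂ, f ((X.map (Int.castRingHom ℂ) *ᵥ w) i) ≠ 0 := by
    by_contra! h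
    exact hi ((Module.forall_dual_apply_eq_zero_iff ℚ _).mp h)
  obtain ⟨b, hb⟩ := IsLocalization.exist_integer_multiples_of_finite (nonZeroDivisors ℤ)
    fun j => f (w j)
  choose u hu using hb
  have key : ∀ (M : Matrix ι ι ℤ) (k : ι),
      (((M *ᵥ u) k : ℤ) : ℚ) = ((b : ℤ) : ℚ) * f ((M.map (Int.castRingHom ℂ) *ᵥ w) k) := by
    intro M k
    simp only [mulVec, dotProduct, Int.cast_sum, Int.cast_mul, map_sum, Finset.mul_sum]
    refine Finset.sum_congr rfl fun j _ => ?_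
    have e : f ((M.map (Int.castRingHom ℂ)) k j * w j) = (M k j : ℚ) * f (w j) := by
      rw [Matrix.map_apply, Int.coe_castRingHom, ← zsmul_eq_mul, map_zsmul, zsmul_eq_mul]
    have hu' : ((u j : ℤ) : ℚ) = ((b : ℤ) : ℚ) * f (w j) := by
      have := hu j
      rw [zsmul_eq_mul] at this
      exact this
    rw [e, hu']
    ring
  refine ⟨u, fun M hM => funext fun k => ?_, fun h => hf ?_⟩
  · have := key M k
    rw [hS M hM, Pi.zero_apply, map_zero, mul_zero] at this
    exact_mod_cast this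
  · have := key X i
    rw [h, Pi.zero_apply, Int.cast_zero] at this
    exact (mul_eq_zero.mp this.symm).resolve_left
      (Int.cast_ne_zero.mpr (nonZeroDivisors.coe_ne_zero b))

variable {A : Type*} [CommRing A] (M : A →+* Matrix ι ι ℤ)
  {B : Type*} [CommRing B] [Module.Finite ℤ B] [Module.Free ℤ B] [IsReduced B]
  {ψ : A →+* B}

omit [Module.Finite ℤ B] [Module.Free ℤ B] [IsReduced B] in
/-- Each of finitely many pairwise incomparable primes has a selector: an element outside it lying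
in all the others. -/
private theorem exists_selector {Q : Finset (Ideal B)} (hQ : ∀ P ∈ Q, P ∈ minimalPrimes B)
    {P : Ideal B} (hP : P ∈ Q) : ∃ s : B, s ∉ P ∧ ∀ P' ∈ Q, P' ≠ P → s ∈ P' := by
  classical
  have hPp : P.IsPrime := (hQ P hP).1.1
  have h : ∀ P' ∈ Q.erase P, ∃ x ∈ P', x ∉ P := fun P' hP' => by
    obtain ⟨hne, hP'Q⟩ := Finset.mem_erase.mp hP'
    by_contra! hle
    exact hne (le_antisymm hle ((hQ P hP).2 ⟨(hQ P' hP'Q).1.1, bot_le⟩ hle))
  choose! x hx hxP using h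
  refine ⟨∏ P' ∈ Q.erase P, x P', fun hmem => ?_, fun P' hP' hne => ?_⟩
  · obtain ⟨P', hP', h⟩ := hPp.prod_mem_iff.mp hmem
    exact hxP P' hP' h
  · have hm := Finset.mem_erase.mpr ⟨hne, hP'⟩
    exact Ideal.mem_of_dvd P' (Finset.dvd_prod_of_mem x hm) (hx P' hm)

omit [Module.Free ℤ B] [IsReduced B] in
/-- An element outside a prime of characteristic zero is seen by an integral vector killed by the
kernel of `ψ`. -/
private theorem exists_int_vec_of_prime (heig : ∀ χ : B →+* ℂ, ∃ w : ι → ℂ, w ≠ 0 ∧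
      ∀ a, ((M a).map (Int.castRingHom ℂ)) *ᵥ w = χ (ψ a) • w) {P : Ideal B} (hPp : P.IsPrime)
    (hchar : ∀ n : ℤ, (n : B) ∈ P → n = 0) {a : A} (ha : ψ a ∉ P) :
    ∃ u : ι → ℤ, (∀ c, ψ c = 0 → M c *ᵥ u = 0) ∧ M a *ᵥ u ≠ 0 := by
  have : IsDomain (B ⧸ P) := (Ideal.Quotient.isDomain_iff_prime P).mpr hPp
  have : Algebra.IsIntegral ℤ (B ⧸ P) := Algebra.IsIntegral.of_finite ℤ _
  have hinj : Function.Injective (algebraMap ℤ (B ⧸ P)) := by
    refine (injective_iff_map_eq_zero _).mpr fun n hn => hchar n ?_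
    rw [eq_intCast, ← map_intCast (Ideal.Quotient.mk P), Ideal.Quotient.eq_zero_iff_mem] at hn
    exact hn
  have : FaithfulSMul ℤ (B ⧸ P) := (faithfulSMul_iff_algebraMap_injective ℤ _).mpr hinj
  have : Module.IsTorsionFree ℤ (B ⧸ P) := inferInstance
  have : Algebra.IsAlgebraic ℤ (B ⧸ P) := Algebra.IsIntegral.isAlgebraic
  let χ₀ : B ⧸ P →ₐ[ℤ] ℂ := IsAlgClosed.lift (R := ℤ) (S := B ⧸ P) (M := ℂ)
  have hχ₀ : RingHom.ker χ₀.toRingHom = ⊥ := by
    have := RingHom.ker_isPrime χ₀.toRingHom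
    refine Ideal.eq_bot_of_comap_eq_bot (R := ℤ) (eq_bot_iff.mpr fun n hn => ?_)
    rw [Ideal.mem_comap, RingHom.mem_ker] at hn
    simpa using hn
  let χ : B →+* ℂ := χ₀.toRingHom.comp (Ideal.Quotient.mk P)
  obtain ⟨w, hw0, hw⟩ := heig χ
  have hχs : χ (ψ a) ≠ 0 := fun h => by
    have h' : Ideal.Quotient.mk P (ψ a) ∈ RingHom.ker χ₀.toRingHom := h
    rw [hχ₀, Ideal.mem_bot, Ideal.Quotient.eq_zero_iff_mem] at h'
    exact ha h'
  obtain ⟨u, hu, hu'⟩ := exists_int_vec (M '' {c | ψ c = 0}) (M a) (w := w)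
    (by rintro _ ⟨c, hc, rfl⟩; rw [hw c, hc, map_zero, zero_smul])
    (by rw [hw]; exact smul_ne_zero hχs hw0)
  exact ⟨u, fun c hc => hu _ ⟨c, hc, rfl⟩, hu'⟩

/-- **A vector with annihilator the kernel of `ψ`.** -/
theorem exists_vec (hψ : Function.Surjective ψ)
    (heig : ∀ χ : B →+* ℂ, ∃ w : ι → ℂ, w ≠ 0 ∧
      ∀ a, ((M a).map (Int.castRingHom ℂ)) *ᵥ w = χ (ψ a) • w) :
    ∃ v : ι → ℤ, ∀ a, M a *ᵥ v = 0 ↔ ψ a = 0 := by
  classical
  have : IsNoetherianRing B := IsNoetherianRing.of_finite ℤ B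
  let Q : Finset (Ideal B) := (minimalPrimes.finite_of_isNoetherianRing B).toFinset
  have hQ : ∀ P, P ∈ Q ↔ P ∈ minimalPrimes B := fun P => Set.Finite.mem_toFinset _
  have hzero : ∀ b : B, (∀ P ∈ Q, b ∈ P) → b = 0 := fun b hb => by
    have : b ∈ sInf (minimalPrimes B) := by
      simp only [Submodule.mem_sInf]
      exact fun P hP => hb P ((hQ P).mpr hP)
    rw [show minimalPrimes B = (⊥ : Ideal B).minimalPrimes from rfl,
      Ideal.sInf_minimalPrimes] at this
    have hr : (⊥ : Ideal B).radical = nilradical B := rfl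
    rw [hr, mem_nilradical] at this
    exact this.eq_zero
  have hsel : ∀ P ∈ Q, ∃ s : B, s ∉ P ∧ ∀ P' ∈ Q, P' ≠ P → s ∈ P' := fun P hP =>
    exists_selector (fun P' => (hQ P').mp) hP
  choose! s hsP hsmem using hsel
  have hsne : ∀ P ∈ Q, ∀ b ∈ P, s P * b = 0 := fun P hP b hb => hzero _ fun P' hP' => by
    by_cases h : P' = P
    · rw [h]; exact Ideal.mul_mem_left _ _ hb
    · exact Ideal.mul_mem_right _ _ (hsmem P hP P' hP' h)
  have hchar : ∀ P ∈ Q, ∀ n : ℤ, (n : B) ∈ P → n = 0 := fun P hP n hn => by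
    by_contra h
    refine hsP P hP ?_
    have h0 : n • s P = 0 := by rw [zsmul_eq_mul, mul_comm]; exact hsne P hP _ hn
    rw [(smul_eq_zero.mp h0).resolve_left h]
    exact P.zero_mem
  choose a ha using fun P => hψ (s P)
  -- integral vectors seen by each selector
  have hu : ∀ P ∈ Q, ∃ u : ι → ℤ, (∀ c, ψ c = 0 → M c *ᵥ u = 0) ∧ M (a P) *ᵥ u ≠ 0 :=
    fun P hP => exists_int_vec_of_prime M heig ((hQ P).mp hP).1.1 (hchar P hP)
      (by rw [ha]; exact hsP P hP)
  choose! u hu hu' using hu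
  refine ⟨∑ P ∈ Q, M (a P) *ᵥ u P, fun c => ⟨fun hc => ?_, fun hc => ?_⟩⟩
  · refine hzero _ fun P hP => ?_
    by_contra hcP
    have hPp : P.IsPrime := ((hQ P).mp hP).1.1
    -- the component at `P`
    have h1 : M (c * a P * a P) *ᵥ u P = 0 := by
      have h0 : M (a P) *ᵥ (M c *ᵥ ∑ P' ∈ Q, M (a P') *ᵥ u P') = 0 := by rw [hc, mulVec_zero]
      rw [mulVec_mulVec, mulVec_sum, ← map_mul] at h0
      rw [← h0, Finset.sum_eq_single_of_mem P hP fun P' hP' hne => ?_]
      · rw [mulVec_mulVec, ← map_mul, mul_comm (a P) c]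
      · rw [mulVec_mulVec, ← map_mul]
        refine hu P' hP' _ ?_
        rw [map_mul, map_mul, ha, ha, mul_comm (s P), mul_assoc]
        exact mul_eq_zero_of_right _ (hzero _ fun P'' hP'' => by
          by_cases h : P'' = P
          · rw [h]; exact Ideal.mul_mem_left _ _ (hsmem P' hP' P hP hne.symm)
          · exact Ideal.mul_mem_right _ _ (hsmem P hP P'' hP'' h))
    have hd : ψ (c * a P) ∉ P := by
      rw [map_mul, ha]
      exact fun h => (hPp.mem_or_mem h).elim hcP (hsP P hP)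
    -- a nonzero integer divisible by `ψ (c a)` modulo `P`
    obtain ⟨n, hn0, hn⟩ : ∃ n : ℤ, n ≠ 0 ∧ (n : B) ∈ P ⊔ Ideal.span {ψ (c * a P)} := by
      have hlt := Ideal.comap_lt_comap_of_integral_mem_sdiff (R := ℤ)
        (le_sup_left : P ≤ P ⊔ Ideal.span {ψ (c * a P)})
        ⟨Ideal.mem_sup_right (Ideal.mem_span_singleton_self _), hd⟩
        (Algebra.IsIntegral.isIntegral (ψ (c * a P)))
      obtain ⟨n, hn, hn'⟩ := SetLike.exists_of_lt hlt
      refine ⟨n, fun h => hn' (h ▸ Ideal.zero_mem _), ?_⟩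
      simpa [Ideal.mem_comap] using hn
    obtain ⟨p, hp, q, hq, hpq⟩ := Submodule.mem_sup.mp hn
    obtain ⟨c', rfl⟩ := Ideal.mem_span_singleton'.mp hq
    obtain ⟨c', rfl⟩ := hψ c'
    refine hu' P hP ?_
    have h2 : M ((n : A) * a P - c' * (c * a P * a P)) *ᵥ u P = 0 := by
      refine hu P hP _ ?_
      rw [map_sub, map_mul, map_mul ψ, map_mul ψ (c * a P), map_intCast, ← hpq, ha, add_mul,
        mul_comm p, hsne P hP p hp, zero_add, mul_assoc, sub_self]
    rw [map_sub, sub_mulVec, map_mul M c', ← mulVec_mulVec, h1, mulVec_zero, sub_zero, map_mul,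
      map_intCast, ← mulVec_mulVec, intCast_mulVec] at h2
    exact (smul_eq_zero.mp h2).resolve_left hn0
  · rw [mulVec_sum]
    refine Finset.sum_eq_zero fun P hP => ?_
    rw [mulVec_mulVec, ← map_mul]
    exact hu P hP _ (by rw [map_mul, hc, zero_mul])

end Fermat.Agent.LT.Lower

end
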