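import Fermat.Agent.RT.Mazur.Orders
import Fermat.Agent.RT.Mazur.ResHecke
import Fermat.Agent.Carayol.Degree

/-!
# Orders of reductions at an even level

At a level `q M`, `2 ∣ M`, the reductions of an inertia-fixed function with orders divisible by `m`
have orders `o` with `m ∣ 2 o`: pass to level `2 M`, divisible by four, and take norms.
-/

set_option autoImplicit false

noncomputable section

open AlgebraicCurve

namespace Fermat.Agent.LT.Lower

open Fermat.Agent.Semistable Fermat.Agent.RT.Mazur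
open Arith (QBar GQ)

variable {A : ValuationSubring QBar} {q M : ℕ} [hq : Fact q.Prime] [NeZero M]

theorem fb_le_upLevel (q M l : ℕ) [NeZero q] [NeZero M] [NeZero l] :
    FB (q * M) ≤ FB (q * (M * l)) := by
  rw [fb_eq_adjoin (q * M), IntermediateField.adjoin_le_iff]
  rintro _ ⟨d, rfl⟩
  exact gen_mem (q * (M * l)) ⟨d.1, d.2.trans (mul_dvd_mul_left q (dvd_mul_right M l))⟩

/-- Level `q M` inside level `q (M l)`. -/
def upLevel (q M l : ℕ) [NeZero q] [NeZero M] [NeZero l] : FB (q * M) →ₐ[QBar] FB (q * (M * l)) :=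
  IntermediateField.inclusion (fb_le_upLevel q M l)

theorem coe_upLevel (l : ℕ) [NeZero l] (x : FB (q * M)) :
    (upLevel q M l x : LSer) = (x : LSer) :=
  IntermediateField.coe_inclusion (fb_le_upLevel q M l) x

variable (hqM : ¬ q ∣ M) {l : ℕ} [NeZero l] (hqMl : ¬ q ∣ M * l)

theorem wEquiv_upLevel (x : FB (q * M)) :
    (wEquiv q (M * l) hqMl (upLevel q M l x) : LSer) = (wEquiv q M hqM x : LSer) := by
  have h : ((FB (q * (M * l))).val.comp ((wEquiv q (M * l) hqMl).toAlgHom.comp
      (upLevel q M l))).toRingHom =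
      ((FB (q * M)).val.comp (wEquiv q M hqM).toAlgHom).toRingHom := by
    refine fb_ringHom_ext (fun a => ?_) fun d => ?_
    · simp
    show (wEquiv q (M * l) hqMl (upLevel q M l (genF _ d)) : LSer) =
      (wEquiv q M hqM (genF _ d) : LSer)
    obtain ⟨d, hd⟩ := d
    have hd' : d ∣ q * (M * l) := hd.trans (mul_dvd_mul_left q (dvd_mul_right M l))
    rw [show upLevel q M l (genF _ ⟨d, hd⟩) = genF (q * (M * l)) ⟨d, hd'⟩ from
      Subtype.ext ((coe_upLevel l _).trans ((coe_genF _ _).trans (coe_genF _ _).symm))]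
    rcases dvs_cases q M hq.out hd with hdM | ⟨e, he, rfl⟩
    · have : NeZero d := ⟨fun h => NeZero.ne M (Nat.eq_zero_of_zero_dvd (h ▸ hdM))⟩
      rw [wEquiv_gen_of_dvd q (M * l) hqMl (dvd_mul_of_dvd_left hdM l),
        wEquiv_gen_of_dvd q M hqM hdM]
    · have : NeZero e := ⟨fun h => NeZero.ne M (Nat.eq_zero_of_zero_dvd (h ▸ he))⟩
      rw [wEquiv_gen_mul q (M * l) hqMl (dvd_mul_of_dvd_left he l), wEquiv_gen_mul q M hqM he]
  exact DFunLike.congr_fun h x

theorem iota2_upLevel (s : Fin 2) (x : FB (q * M)) :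
    iota2 (M * l) q hqMl s (upLevel q M l x) = iota2 M q hqM s x := by
  fin_cases s
  · exact (iota2_zero _ _ _ _).trans ((coe_upLevel l x).trans (iota2_zero _ _ _ _).symm)
  · exact (iota2_one _ _ _ _).trans ((wEquiv_upLevel hqM hqMl x).trans (iota2_one _ _ _ _).symm)

variable [CharP (Res A) q] [FF.IsFunctionField (Res A) (KM A M)]

include hqMl in
/-- The orders of the reductions at an even level. -/
theorem dvd_two_mul_ord_red (hA : A.LiesOverPrime q) (h2M : 2 ∣ M) {m : ℕ} (hm : 0 < m)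
    {F : loc2 A (iota2 M q hqM)} (hfix : InertiaFixed A ((F : FB (q * M)) : LSer))
    (hdiv : ∀ v : Place QBar (FB (q * M)), (m : ℤ) ∣ v.ord (F : FB (q * M)))
    (hne : ∀ s, red2 A (iota2 M q hqM) F s ≠ 0) (hM : (M : Res A) ≠ 0) (hl : l = 2) (s : Fin 2)
    (P : Place (Res A) (KM A M)) : (m : ℤ) ∣ 2 * P.ord (redK hM F s) := by
  subst hl
  have := Fact.mk Nat.prime_two
  have := Arith.residueField_isAlgClosed A
  have hM2 : ((M * 2 : ℕ) : Res A) ≠ 0 := fun h =>
    hqMl ((CharP.cast_eq_zero_iff (Res A) q _).mp h)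
  have := isFunctionField_KM A hM2
  have : FF.IsFunctionField QBar (FB M) := ModFun.isFunctionField_bar _
  have : FF.IsFunctionField QBar (FB (M * 2)) := ModFun.isFunctionField_bar _
  -- at level `2 M`
  set f' : FB (q * (M * 2)) := upLevel q M 2 (F : FB (q * M))
  have hmem : f' ∈ loc2 A (iota2 (M * 2) q hqMl) := (mem_loc2 _).mpr fun s => by
    rw [iota2_upLevel hqM hqMl]; exact (mem_loc2 _).mp F.2 s
  have hred : ∀ s, red2 A (iota2 (M * 2) q hqMl) ⟨f', hmem⟩ s = red2 A (iota2 M q hqM) F s :=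
    fun s => by
      rw [red2_apply, red2_apply]
      exact redL_congr _ _ (iota2_upLevel hqM hqMl s _)
  have hdiv' : ∀ v : Place QBar (FB (q * (M * 2))), (m : ℤ) ∣ v.ord f' := fun v => by
    rw [show v.ord f' = _ from Place.ord_restrictAlong (upLevel q M 2) (FF.isIntegralAlong _) v _]
    exact dvd_mul_of_dvd_right (hdiv _) _
  have h4 : 4 ∣ M * 2 := by
    obtain ⟨k, rfl⟩ := h2M
    exact ⟨k, by ring⟩
  have h := dvd_ord_red hA (Or.inl rfl) h4 hm (F := ⟨f', hmem⟩)
    (fun τ hτ => by rw [show ((f' : FB (q * (M * 2))) : LSer) =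
      _ from coe_upLevel 2 _]; exact hfix τ hτ) hdiv'
    (fun s => by rw [hred s]; exact hne s) hM2 s
  -- the norm
  have hx : redK hM2 ⟨f', hmem⟩ s = resAlpha A M 2 (redK hM F s) := Subtype.ext (hred s)
  have hz : redK hM F s ≠ 0 := fun h0 => hne s (congrArg Subtype.val h0)
  rw [hx] at h
  let := algebraAlong (resAlpha A M 2)
  have := isScalarTower_along (resAlpha A M 2)
  have hdeg : Module.finrank (KM A M) (KM A (M * 2)) = 2 :=
    ((finrankAlong_resAlpha hM hM2).symm.trans (Carayol.finrankAlong_of_dvd h2M).1)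
  have hN := FF.ord_norm_along (resAlpha A M 2) (FF.isIntegralAlong _) P
    (f := resAlpha A M 2 (redK hM F s)) ((_root_.map_ne_zero _).mpr hz)
  rw [show resAlpha A M 2 (redK hM F s) = algebraMap (KM A M) (KM A (M * 2)) (redK hM F s) from rfl,
    Algebra.norm_algebraMap, hdeg, FF.ord_pow] at hN
  rw [show (2 : ℤ) = ((2 : ℕ) : ℤ) from rfl, hN]
  exact Finset.dvd_sum fun w _ => dvd_mul_of_dvd_left (h w) _

end Fermat.Agent.LT.Lower

end
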