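import Fermat.Agent.LT.Lower.Defs
import Fermat.Agent.LT.Lower.LatticeEigen
import Fermat.Agent.RT.Mazur.HeckeEnd
import Fermat.Agent.GaloisReps.Characters

/-!
# The torsion class of a system

A system at level `L` modulo `2 ^ N` gives a torsion class of `J₀(L)` killed by `2 ^ N`, eigen with
the prescribed values, and not killed by `2 ^ j` when `j h < N`.
-/

set_option autoImplicit false

noncomputable section

open Matrix AlgebraicCurve ModularCurve CongruenceSubgroup

namespace Fermat.Agent.LT.Lower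

open GaloisReps (FullHecke latticeMat)
open Fermat.Agent.RT.Mazur (tCoord tCoord_injective tCoord_surjective tCoord_hecke)

variable {L N h : ℕ} [NeZero L] {a : ℕ → ℤ}

/-- **The torsion class of a system.** -/
theorem System.exists_torsion (S : System L N h a) :
    ∃ x : JZero L, 2 ^ N • x = 0 ∧
      (∀ l (hl : l.Prime), ¬ l ∣ L → heckeOperatorBar L ⟨l, hl⟩ x = a l • x) ∧
      ∀ j, j * h < N → 2 ^ j • x ≠ 0 := by
  classical
  let P := {l : ℕ // l.Prime ∧ ¬ l ∣ L}
  let A := MvPolynomial P ℤ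
  let η : A →ₐ[ℤ] FullHecke L := MvPolynomial.aeval fun l : P =>
    HeckeDuality.heckeOp L 2 l.1 l.2.1
  let ψ : A →ₐ[ℤ] S.B := MvPolynomial.aeval fun l : P => S.t l.1
  have hψ : Function.Surjective ψ.toRingHom := by
    show Function.Surjective ψ
    rw [← AlgHom.range_eq_top, ← Algebra.adjoin_range_eq_range_aeval, ← S.gen]
    congr 1
    ext x
    simp [P]
  let M := (latticeMat L).comp η.toRingHom
  have hηX : ∀ l : P, η (MvPolynomial.X l) = HeckeDuality.heckeOp L 2 l.1 l.2.1 := fun l =>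
    MvPolynomial.aeval_X _ l
  have hψX : ∀ l : P, ψ (MvPolynomial.X l) = S.t l.1 := fun l => MvPolynomial.aeval_X _ l
  -- Each complex character of `S.B` has an eigenvector in the period lattice, so the system has
  -- one modulo `2 ^ N`, that is a torsion class.
  have heig : ∀ χ : S.B →+* ℂ, ∃ w : Fin (2 * Gamma0.genus L) → ℂ, w ≠ 0 ∧
      ∀ p : A, ((M p).map (Int.castRingHom ℂ)) *ᵥ w = χ (ψ.toRingHom p) • w := by
    intro χ
    obtain ⟨g, hg, hgχ⟩ := S.real χ
    obtain ⟨θ, hθ⟩ := GaloisReps.exists_eigenform_character hg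
    let θC : FullHecke L →+* ℂ := (algebraMap (integralClosure ℤ ℂ) ℂ).comp θ
    have hne : GaloisReps.eigenspace (latticeMat L) θC ≠ ⊥ := fun hb => by
      have h2 := GaloisReps.finrank_eigenspace_latticeMat θC
      rw [hb, finrank_bot] at h2
      exact absurd h2 (by norm_num)
    obtain ⟨w, hw, hw0⟩ := Submodule.exists_mem_ne_zero_of_ne_bot hne
    refine ⟨w, hw0, fun p => ?_⟩
    have hcomp : θC.comp η.toRingHom = χ.comp ψ.toRingHom := by
      refine MvPolynomial.ringHom_ext (fun n => by simp) fun l => ?_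
      show θC (η (MvPolynomial.X l)) = χ (ψ (MvPolynomial.X l))
      rw [hηX, hψX]
      rw [← hgχ l.1 l.2.1 l.2.2, ← hθ l.1 l.2.1]
      rfl
    have h3 := (GaloisReps.mem_eigenspace _ θC w).mp hw (η p)
    rw [show θC (η p) = χ (ψ.toRingHom p) from RingHom.congr_fun hcomp p] at h3
    exact h3
  obtain ⟨v, hv, hvne⟩ := exists_eigenvec M hψ heig S.φ S.unit S.small
  obtain ⟨x, rfl⟩ := tCoord_surjective (N := L) (2 ^ N) v
  have hx0 : 2 ^ N • (x : JZero L) = 0 := by
    rw [← natCast_zsmul]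
    exact Pic0.mem_torsion.mp x.2
  have hlin : ∀ (c : ℤ) (y : Pic0.torsion (AlgebraicClosure ℚ) (modularFunctionFieldBar L) (2 ^ N)),
      tCoord L (2 ^ N) (c • y) = c • tCoord L (2 ^ N) y := fun c y => by
    simp only [tCoord, map_zsmul, AddSubgroup.coe_zsmul]
  refine ⟨x, hx0, fun l hl hlL => ?_, fun j hj h0 => hvne j hj ?_⟩
  · have hTx : ((2 ^ N : ℕ) : ℤ) • heckeOperatorBar L ⟨l, hl⟩ (x : JZero L) = 0 := by
      rw [← map_zsmul, natCast_zsmul, hx0, map_zero]
    have key : (⟨_, Pic0.mem_torsion.mpr hTx⟩ :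
        Pic0.torsion (AlgebraicClosure ℚ) (modularFunctionFieldBar L) (2 ^ N)) = a l • x := by
      refine tCoord_injective (N := L) (2 ^ N) ?_
      rw [tCoord_hecke (N := L) (2 ^ N) l hl x _ rfl, hlin]
      have h4 := hv (MvPolynomial.X (⟨l, hl, hlL⟩ : P))
      have e1 : M (MvPolynomial.X (⟨l, hl, hlL⟩ : P)) = GaloisReps.opMat L l hl := by
        show latticeMat L (η _) = _
        rw [hηX, GaloisReps.latticeMat_heckeOp]
      have e2 : S.φ (ψ.toRingHom (MvPolynomial.X (⟨l, hl, hlL⟩ : P))) = (a l : ZMod (2 ^ N)) := by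
        show S.φ (ψ _) = _
        rw [hψX]
        exact S.φ_t l hl hlL
      rw [e1, e2, Int.cast_smul_eq_zsmul] at h4
      exact h4
    exact congrArg Subtype.val key
  · have : ((2 ^ j : ℕ) : ℤ) • x = 0 := Subtype.ext (by
      rw [AddSubgroup.coe_zsmul, natCast_zsmul]; exact h0)
    rw [← natCast_zsmul, ← hlin, this]
    simp only [tCoord, map_zero, AddSubgroup.coe_zero]

end Fermat.Agent.LT.Lower

end
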